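/-
S43lib / B0 / End / ArithO  (helper6)  — Project H, block END (`readout`).

Integers in a local ring `𝒪` of characteristic zero whose maximal ideal contains the prime `p`:
* `isUnit_intCast_of_not_dvd` : `p ∤ z ⟹ z ∈ 𝒪ˣ`;
* `natCast_pow_dvd_of_dvd` : `p^k ∣ n` in `𝒪` (a domain) `⟹ p^k ∣ n` in `ℕ`;
* `natCast_sq_ne_self` : `q² ≠ q` in `𝒪 / (p^k)` if `q (q - 1) < p^k`.
-/
import Mathlib

set_option autoImplicit false

namespace Fermat.Agent.S43lib.B0.EndBlock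

open IsLocalRing

variable {𝒪 : Type} [CommRing 𝒪] [IsLocalRing 𝒪] {p : ℕ}

theorem isUnit_intCast_of_not_dvd (hp : p.Prime) (hp𝒪 : (p : 𝒪) ∈ maximalIdeal 𝒪) (z : ℤ)
    (h : ¬ (p : ℤ) ∣ z) : IsUnit ((z : ℤ) : 𝒪) := by
  by_contra hz
  have hz' : ((z : ℤ) : 𝒪) ∈ maximalIdeal 𝒪 := (mem_maximalIdeal _).2 hz
  have hcop : IsCoprime z (p : ℤ) :=
    ((Nat.prime_iff_prime_int.mp hp).coprime_iff_not_dvd.2 h).symm
  obtain ⟨u, v, huv⟩ := hcop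
  have h1 : ((u : ℤ) : 𝒪) * ((z : ℤ) : 𝒪) + ((v : ℤ) : 𝒪) * (p : 𝒪) = 1 := by
    have := congrArg (Int.cast : ℤ → 𝒪) huv
    push_cast at this
    exact this
  have h2 : (1 : 𝒪) ∈ maximalIdeal 𝒪 := by
    rw [← h1]
    exact Ideal.add_mem _ (Ideal.mul_mem_left _ _ hz') (Ideal.mul_mem_left _ _ hp𝒪)
  exact (Ideal.ne_top_iff_one _).1 (maximalIdeal.isMaximal 𝒪).ne_top h2

theorem isUnit_natCast_of_not_dvd (hp : p.Prime) (hp𝒪 : (p : 𝒪) ∈ maximalIdeal 𝒪) (n : ℕ)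
    (h : ¬ p ∣ n) : IsUnit ((n : ℕ) : 𝒪) := by
  have := isUnit_intCast_of_not_dvd hp hp𝒪 (n : ℤ) (fun hd => h (by exact_mod_cast hd))
  simpa using this

theorem natCast_pow_dvd_of_dvd [IsDomain 𝒪] [CharZero 𝒪] (hp : p.Prime)
    (hp𝒪 : (p : 𝒪) ∈ maximalIdeal 𝒪) (k : ℕ) :
    ∀ n : ℕ, ((p : 𝒪)) ^ k ∣ (n : 𝒪) → p ^ k ∣ n := by
  induction k with
  | zero => intro n _; simp
  | succ k ih =>
    intro n hn
    have hp0 : (p : 𝒪) ≠ 0 := by exact_mod_cast hp.ne_zero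
    -- `p ∣ n`
    have hpn : p ∣ n := by
      by_contra hcon
      have hu := isUnit_natCast_of_not_dvd hp hp𝒪 n hcon
      have hd : (p : 𝒪) ∣ (n : 𝒪) := (dvd_pow_self _ (Nat.succ_ne_zero k)).trans hn
      exact (mem_maximalIdeal _).1 hp𝒪 (isUnit_of_dvd_unit hd hu)
    obtain ⟨n', rfl⟩ := hpn
    rw [pow_succ', Nat.cast_mul] at hn
    have hn' : ((p : 𝒪)) ^ k ∣ (n' : 𝒪) := (mul_dvd_mul_iff_left hp0).1 hn
    rw [pow_succ']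
    exact Nat.mul_dvd_mul_left p (ih n' hn')

theorem natCast_sq_ne_self [IsDomain 𝒪] [CharZero 𝒪] (hp : p.Prime)
    (hp𝒪 : (p : 𝒪) ∈ maximalIdeal 𝒪) (k q : ℕ) (hq : 2 ≤ q) (hk : q * (q - 1) < p ^ k) :
    (Ideal.Quotient.mk (Ideal.span {((p : 𝒪)) ^ k}) (q : 𝒪)) ^ 2 ≠
      Ideal.Quotient.mk (Ideal.span {((p : 𝒪)) ^ k}) (q : 𝒪) := by
  intro h
  rw [← map_pow, Ideal.Quotient.eq, Ideal.mem_span_singleton] at h
  have h1 : ((q : 𝒪)) ^ 2 - (q : 𝒪) = ((q * (q - 1) : ℕ) : 𝒪) := by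
    obtain ⟨q', rfl⟩ : ∃ q', q = q' + 1 := ⟨q - 1, by omega⟩
    rw [Nat.add_sub_cancel]
    push_cast
    ring
  rw [h1] at h
  have h2 := natCast_pow_dvd_of_dvd hp hp𝒪 k _ h
  have h3 : 0 < q * (q - 1) := Nat.mul_pos (by omega) (by omega)
  exact absurd (Nat.le_of_dvd h3 h2) (by omega)

end Fermat.Agent.S43lib.B0.EndBlock
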