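/-
S43lib / B0 / End / BLR  (helper6)  — Project H, END block (`readout`): pure algebra.

**BOSTON–LENSTRA–RIBET / CARAYOL OVER AN ARBITRARY COMMUTATIVE RING WITH `2` INVERTIBLE.**

`R` a commutative ring, `2 ∈ Rˣ`; `𝔄` an `R`-algebra with an `R`-linear anti-involution `τ`;
`P : 𝔄 → M₂(R)` a SURJECTIVE algebra map, `Q : 𝔄 → End_R(W)` an algebra map, such that
`P x + P (τ x) = tr (P x)` and `Q x + Q (τ x) = tr (P x)` for all `x`
(for `𝔄 = R[G]`, `P = ρ`, `Q` = an action of `G` on `W`, `τ g = det ρ(g) · g⁻¹`, this says that every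
`g ∈ G` satisfies on `W` the characteristic polynomial of `ρ(g)`).  Then **`ker P ≤ ker Q`**: the action on
`W` factors through `M₂(R)`.

Proof: `n(x) = x τ(x)` is `τ`-fixed, so `Q (n x) = det (P x)` and every `x` satisfies Cayley–Hamilton on
`W`; for `y ∈ ker P`: `Q x Q y + Q y Q x = tr (P x) Q y`; the matrix units of `M₂(R)` lift to matrix units of
the image of `Q` (Peirce decomposition w.r.t. the idempotent `Q e`, `P e = E₁₁`), and the four Peirce
components of `Q y` vanish.

* `ker_le_ker_of_antiInvolution` : the abstract statement;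
* `blr_monoidAlgebra`            : the group form (`𝔄 = R[G]`).
-/
import Mathlib

set_option autoImplicit false
set_option linter.unusedSectionVars false
set_option linter.style.haveILetI false

noncomputable section

namespace Fermat.Agent.S43lib.B0.EndBlock

open Matrix

variable {R : Type*} [CommRing R]

/-- Cayley–Hamilton for `2 × 2` matrices, in the form `M (tr M - M) = det M`. -/
theorem mul_trace_sub_self (M : Matrix (Fin 2) (Fin 2) R) :
    M * (M.trace • (1 : Matrix (Fin 2) (Fin 2) R) - M) = M.det • (1 : Matrix (Fin 2) (Fin 2) R) := by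
  ext i j
  fin_cases i <;> fin_cases j <;>
    simp [Matrix.mul_apply, Fin.sum_univ_two, Matrix.det_fin_two, Matrix.trace_fin_two,
      Matrix.one_apply] <;> ring

section Abstract

variable {𝔄 : Type*} [Ring 𝔄] [Algebra R 𝔄] {W : Type*} [AddCommGroup W] [Module R W]
variable (P : 𝔄 →ₐ[R] Matrix (Fin 2) (Fin 2) R) (Q : 𝔄 →ₐ[R] Module.End R W)
variable (τ : 𝔄 →ₗ[R] 𝔄)

/-- every `x` satisfies on `W` the characteristic polynomial of `P x` -/
theorem cayley_hamilton_of_antiInvolution (h2 : IsUnit (2 : R))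
    (hτmul : ∀ x y, τ (x * y) = τ y * τ x) (hττ : ∀ x, τ (τ x) = x)
    (hP : ∀ x, P x + P (τ x) = (P x).trace • (1 : Matrix (Fin 2) (Fin 2) R))
    (hQ : ∀ x, Q x + Q (τ x) = (P x).trace • (1 : Module.End R W)) (x : 𝔄) :
    Q x * ((P x).trace • (1 : Module.End R W) - Q x) = (P x).det • (1 : Module.End R W) := by
  set n : 𝔄 := x * τ x with hn
  have hτn : τ n = n := by rw [hn, hτmul, hττ]
  have hPτ : P (τ x) = (P x).trace • (1 : Matrix (Fin 2) (Fin 2) R) - P x :=
    eq_sub_of_add_eq' (hP x)
  have hQτ : Q (τ x) = (P x).trace • (1 : Module.End R W) - Q x := eq_sub_of_add_eq' (hQ x)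
  have hPn : P n = (P x).det • (1 : Matrix (Fin 2) (Fin 2) R) := by
    rw [hn, map_mul, hPτ, mul_trace_sub_self]
  have htn : (P n).trace = 2 * (P x).det := by
    rw [hPn, Matrix.trace_smul, Matrix.trace_one, Fintype.card_fin, smul_eq_mul, mul_comm]
    norm_num
  have h1 := hQ n
  rw [hτn, htn] at h1
  -- `2 • Q n = 2 • det`
  have h3 : (2 : R) • Q n = (2 : R) • ((P x).det • (1 : Module.End R W)) := by
    rw [two_smul, h1, mul_smul]
  obtain ⟨u, hu⟩ := h2
  have h4 : Q n = (P x).det • (1 : Module.End R W) := by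
    have := congrArg (fun z => (↑u⁻¹ : R) • z) h3
    simp only [smul_smul, ← hu, ← mul_assoc, Units.inv_mul, one_mul, one_smul] at this
    exact this
  rw [← h4, hn, map_mul, hQτ]

/-- Peirce: `E Y + Y E = Y` for an idempotent `E` forces `E Y E = 0`. -/
theorem peirce_zero {S : Type*} [Ring S] {E Y : S} (hEE : E * E = E) (h : E * Y + Y * E = Y) :
    E * Y * E = 0 := by
  have h1 := congrArg (fun z => E * z) h
  simp only [mul_add, ← mul_assoc, hEE] at h1
  exact left_eq_add.mp h1.symm

/-- **Boston–Lenstra–Ribet / Carayol**: the action on `W` factors through `M₂(R)`. -/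
theorem ker_le_ker_of_antiInvolution (h2 : IsUnit (2 : R))
    (hτmul : ∀ x y, τ (x * y) = τ y * τ x) (hττ : ∀ x, τ (τ x) = x)
    (hP : ∀ x, P x + P (τ x) = (P x).trace • (1 : Matrix (Fin 2) (Fin 2) R))
    (hQ : ∀ x, Q x + Q (τ x) = (P x).trace • (1 : Module.End R W))
    (hsurj : Function.Surjective P) :
    ∀ y : 𝔄, P y = 0 → Q y = 0 := by
  -- the polarised Cayley–Hamilton identity
  have hpol : ∀ x y : 𝔄, P y = 0 → Q x * Q y + Q y * Q x = (P x).trace • Q y := by
    intro x y hy
    have hty : (P y).trace = 0 := by rw [hy, Matrix.trace_zero]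
    have h1 : Q (τ y) = - Q y := by
      have := hQ y
      rw [hty, zero_smul] at this
      exact eq_neg_of_add_eq_zero_right this
    have hxy : P (x * y) = 0 := by rw [map_mul, hy, mul_zero]
    have htxy : (P (x * y)).trace = 0 := by rw [hxy, Matrix.trace_zero]
    have h2' : Q (τ (x * y)) = - Q (x * y) := by
      have := hQ (x * y)
      rw [htxy, zero_smul] at this
      exact eq_neg_of_add_eq_zero_right this
    have hQτx : Q (τ x) = (P x).trace • (1 : Module.End R W) - Q x := eq_sub_of_add_eq' (hQ x)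
    rw [hτmul, map_mul, map_mul, h1, hQτx] at h2'
    have h3 : Q y * ((P x).trace • (1 : Module.End R W) - Q x) = Q x * Q y := by
      have := congrArg Neg.neg h2'
      rw [neg_mul, neg_neg, neg_neg] at this
      exact this
    rw [mul_sub, mul_smul_comm, mul_one] at h3
    rw [← h3]
    abel
  -- idempotents from elements with `tr = 1`, `det = 0`
  have hidem : ∀ x : 𝔄, (P x).trace = 1 → (P x).det = 0 → Q x * Q x = Q x := by
    intro x ht hd
    have := cayley_hamilton_of_antiInvolution P Q τ h2 hτmul hττ hP hQ x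
    rw [ht, hd, one_smul, zero_smul, mul_sub, mul_one, sub_eq_zero] at this
    exact this.symm
  obtain ⟨e, he⟩ := hsurj (Matrix.single 0 0 (1 : R))
  obtain ⟨u, hu⟩ := hsurj (Matrix.single 0 1 (1 : R))
  obtain ⟨v, hv⟩ := hsurj (Matrix.single 1 0 (1 : R))
  obtain ⟨f, hf⟩ : ∃ f : 𝔄, f = 1 - e := ⟨_, rfl⟩
  have hPf : P f = Matrix.single 1 1 (1 : R) := by
    rw [hf, map_sub, map_one, he]
    ext i j
    fin_cases i <;> fin_cases j <;> simp [Matrix.single]
  have hte : (P e).trace = 1 := by rw [he]; simp [Matrix.trace_fin_two, Matrix.single]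
  have hde : (P e).det = 0 := by rw [he]; simp [Matrix.det_fin_two, Matrix.single]
  have htf : (P f).trace = 1 := by rw [hPf]; simp [Matrix.trace_fin_two, Matrix.single]
  have hdf : (P f).det = 0 := by rw [hPf]; simp [Matrix.det_fin_two, Matrix.single]
  have hEE : Q e * Q e = Q e := hidem e hte hde
  have hFF : Q f * Q f = Q f := hidem f htf hdf
  have hEF1 : Q e + Q f = 1 := by rw [← map_add, hf, add_sub_cancel, map_one]
  -- Peirce: the diagonal components of the kernel vanish
  have hEYE : ∀ y : 𝔄, P y = 0 → Q e * Q y * Q e = 0 := by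
    intro y hy
    have h1 := hpol e y hy
    rw [hte, one_smul] at h1
    exact peirce_zero hEE h1
  have hFYF : ∀ y : 𝔄, P y = 0 → Q f * Q y * Q f = 0 := by
    intro y hy
    have h1 := hpol f y hy
    rw [htf, one_smul] at h1
    exact peirce_zero hFF h1
  -- matrix units
  obtain ⟨u', hu'⟩ : ∃ u' : 𝔄, u' = e * u * f := ⟨_, rfl⟩
  obtain ⟨v', hv'⟩ : ∃ v' : 𝔄, v' = f * v * e := ⟨_, rfl⟩
  have hPu' : P u' = Matrix.single 0 1 (1 : R) := by
    rw [hu', map_mul, map_mul, he, hu, hPf]
    ext i j
    fin_cases i <;> fin_cases j <;> simp [Matrix.single, Matrix.mul_apply]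
  have hPv' : P v' = Matrix.single 1 0 (1 : R) := by
    rw [hv', map_mul, map_mul, he, hv, hPf]
    ext i j
    fin_cases i <;> fin_cases j <;> simp [Matrix.single, Matrix.mul_apply]
  have hQu' : Q u' = Q e * Q u * Q f := by rw [hu', map_mul, map_mul]
  have hQv' : Q v' = Q f * Q v * Q e := by rw [hv', map_mul, map_mul]
  have hEE' : ∀ z, Q e * (Q e * z) = Q e * z := fun z => by rw [← mul_assoc, hEE]
  have hFF' : ∀ z, Q f * (Q f * z) = Q f * z := fun z => by rw [← mul_assoc, hFF]
  have hEu : Q e * Q u' = Q u' := by rw [hQu']; simp only [mul_assoc, hEE']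
  have huF : Q u' * Q f = Q u' := by rw [hQu']; simp only [mul_assoc, hFF]
  have hFv : Q f * Q v' = Q v' := by rw [hQv']; simp only [mul_assoc, hFF']
  have hvE : Q v' * Q e = Q v' := by rw [hQv']; simp only [mul_assoc, hEE]
  have hEu' : ∀ z, Q e * (Q u' * z) = Q u' * z := fun z => by rw [← mul_assoc, hEu]
  have hFv' : ∀ z, Q f * (Q v' * z) = Q v' * z := fun z => by rw [← mul_assoc, hFv]
  have hUV : Q u' * Q v' = Q e := by
    have hy0 : P (u' * v' - e) = 0 := by
      rw [map_sub, map_mul, hPu', hPv', he]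
      ext i j
      fin_cases i <;> fin_cases j <;> simp [Matrix.single, Matrix.mul_apply]
    have h1 := hEYE _ hy0
    rw [map_sub, map_mul, mul_sub, sub_mul] at h1
    simp only [mul_assoc, hEu', hvE, hEE] at h1
    exact sub_eq_zero.mp h1
  have hVU : Q v' * Q u' = Q f := by
    have hy0 : P (v' * u' - f) = 0 := by
      rw [map_sub, map_mul, hPu', hPv', hPf]
      ext i j
      fin_cases i <;> fin_cases j <;> simp [Matrix.single, Matrix.mul_apply]
    have h1 := hFYF _ hy0
    rw [map_sub, map_mul, mul_sub, sub_mul] at h1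
    simp only [mul_assoc, hFv', huF, hFF] at h1
    exact sub_eq_zero.mp h1
  -- the off-diagonal components of the kernel vanish
  intro y hy
  have hEYF : Q e * Q y * Q f = 0 := by
    have hy2 : P (e * y * f * v') = 0 := by
      rw [map_mul, map_mul, map_mul, hy, mul_zero, zero_mul, zero_mul]
    have h1 := hEYE _ hy2
    rw [map_mul, map_mul, map_mul] at h1
    simp only [mul_assoc, hvE, hEE'] at h1
    -- `E Y F V' = 0`; multiply by `U'` on the right
    have h3 := congrArg (fun z => z * Q u') h1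
    simp only [zero_mul, mul_assoc, hVU, hFF] at h3
    rw [mul_assoc]
    exact h3
  have hFYE : Q f * Q y * Q e = 0 := by
    have hy2 : P (f * y * e * u') = 0 := by
      rw [map_mul, map_mul, map_mul, hy, mul_zero, zero_mul, zero_mul]
    have h1 := hFYF _ hy2
    rw [map_mul, map_mul, map_mul] at h1
    simp only [mul_assoc, huF, hFF'] at h1
    have h3 := congrArg (fun z => z * Q v') h1
    simp only [zero_mul, mul_assoc, hUV, hEE] at h3
    rw [mul_assoc]
    exact h3
  have hdec : Q y = Q e * Q y * Q e + Q e * Q y * Q f + Q f * Q y * Q e + Q f * Q y * Q f := by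
    calc Q y = (Q e + Q f) * Q y * (Q e + Q f) := by rw [hEF1, one_mul, mul_one]
      _ = _ := by noncomm_ring
  rw [hdec, hEYE y hy, hFYF y hy, hEYF, hFYE]
  simp

end Abstract

/-! ### the group form -/

section Group

variable {G : Type*} [Group G] {W : Type*} [AddCommGroup W] [Module R W]

/-- `ρ(g)⁻¹ det = tr - ρ(g)` for a `2 × 2` matrix representation -/
theorem trace_sub_eq_det_smul_inv (ρ : G →* Matrix (Fin 2) (Fin 2) R) (g : G) :
    (ρ g).trace • (1 : Matrix (Fin 2) (Fin 2) R) - ρ g = (ρ g).det • ρ g⁻¹ := by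
  have h1 := mul_trace_sub_self (ρ g)
  have h2 := congrArg (fun z => ρ g⁻¹ * z) h1
  simp only [← mul_assoc, ← map_mul, inv_mul_cancel, map_one, one_mul, mul_smul_comm,
    mul_one] at h2
  exact h2

/-- the same for the action, from Cayley–Hamilton on `W` -/
theorem trace_sub_eq_det_smul_inv_act (ρ : G →* Matrix (Fin 2) (Fin 2) R)
    (act : G →* Module.End R W)
    (hCH : ∀ g, act g * act g - (ρ g).trace • act g + (ρ g).det • (1 : Module.End R W) = 0)
    (g : G) :
    (ρ g).trace • (1 : Module.End R W) - act g = (ρ g).det • act g⁻¹ := by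
  have h1 := hCH g
  have h2 := congrArg (fun z => act g⁻¹ * z) h1
  simp only [mul_add, mul_sub, mul_zero, ← mul_assoc, ← map_mul, inv_mul_cancel, map_one, one_mul,
    mul_smul_comm, mul_one] at h2
  rw [sub_eq_iff_eq_add]
  have h3 := eq_neg_of_add_eq_zero_left h2
  rw [sub_eq_iff_eq_add] at h3
  rw [h3]
  abel

/-- the anti-involution `g ↦ det ρ(g) · g⁻¹` of `R[G]`, as an algebra map to the opposite algebra -/
def tauHomOp (ρ : G →* Matrix (Fin 2) (Fin 2) R) :
    MonoidAlgebra R G →ₐ[R] (MonoidAlgebra R G)ᵐᵒᵖ :=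
  MonoidAlgebra.lift R (MonoidAlgebra R G)ᵐᵒᵖ G
    { toFun := fun g => MulOpposite.op (MonoidAlgebra.single g⁻¹ (ρ g).det)
      map_one' := by
        rw [map_one, Matrix.det_one, inv_one]
        rfl
      map_mul' := fun g h => by
        rw [← MulOpposite.op_mul, MonoidAlgebra.single_mul_single, map_mul, Matrix.det_mul,
          _root_.mul_inv_rev, mul_comm (ρ g).det] }

/-- the anti-involution as a linear map -/
def tauLin (ρ : G →* Matrix (Fin 2) (Fin 2) R) : MonoidAlgebra R G →ₗ[R] MonoidAlgebra R G :=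
  (MulOpposite.opLinearEquiv R).symm.toLinearMap ∘ₗ (tauHomOp ρ).toLinearMap

theorem tauLin_single (ρ : G →* Matrix (Fin 2) (Fin 2) R) (g : G) (a : R) :
    tauLin ρ (MonoidAlgebra.single g a) = MonoidAlgebra.single g⁻¹ (a * (ρ g).det) := by
  show MulOpposite.unop (tauHomOp ρ (MonoidAlgebra.single g a)) = _
  rw [tauHomOp, MonoidAlgebra.lift_single]
  show MulOpposite.unop (a • MulOpposite.op (MonoidAlgebra.single g⁻¹ (ρ g).det)) = _
  rw [MulOpposite.unop_smul, MulOpposite.unop_op, MonoidAlgebra.smul_single']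

theorem tauLin_mul (ρ : G →* Matrix (Fin 2) (Fin 2) R) (x y : MonoidAlgebra R G) :
    tauLin ρ (x * y) = tauLin ρ y * tauLin ρ x := by
  show MulOpposite.unop (tauHomOp ρ (x * y)) =
    MulOpposite.unop (tauHomOp ρ y) * MulOpposite.unop (tauHomOp ρ x)
  rw [map_mul, MulOpposite.unop_mul]

theorem tauLin_tauLin (ρ : G →* Matrix (Fin 2) (Fin 2) R) (x : MonoidAlgebra R G) :
    tauLin ρ (tauLin ρ x) = x := by
  induction x using MonoidAlgebra.induction_linear with
  | zero => rw [map_zero, map_zero]
  | add x y hx hy => rw [map_add, map_add, hx, hy]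
  | single g a =>
    rw [tauLin_single, tauLin_single, inv_inv, mul_assoc, ← Matrix.det_mul, ← map_mul,
      mul_inv_cancel, map_one, Matrix.det_one, mul_one]

/-- **Boston–Lenstra–Ribet / Carayol, group form**: if every `g ∈ G` satisfies on `W` the characteristic
polynomial of `ρ(g)` and the `ρ(g)` span `M₂(R)`, then every element of `R[G]` killed by `ρ` kills `W`. -/
theorem blr_monoidAlgebra (h2 : IsUnit (2 : R))
    (ρ : G →* Matrix (Fin 2) (Fin 2) R) (act : G →* Module.End R W)
    (hCH : ∀ g, act g * act g - (ρ g).trace • act g + (ρ g).det • (1 : Module.End R W) = 0)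
    (hspan : Submodule.span R (Set.range ρ) = ⊤) :
    ∀ x : MonoidAlgebra R G, MonoidAlgebra.lift R (Matrix (Fin 2) (Fin 2) R) G ρ x = 0 →
      MonoidAlgebra.lift R (Module.End R W) G act x = 0 := by
  refine ker_le_ker_of_antiInvolution (MonoidAlgebra.lift R (Matrix (Fin 2) (Fin 2) R) G ρ)
    (MonoidAlgebra.lift R (Module.End R W) G act) (tauLin ρ) h2 (tauLin_mul ρ) (tauLin_tauLin ρ)
    ?_ ?_ ?_
  · intro x
    induction x using MonoidAlgebra.induction_linear with
    | zero => simp
    | add x y hx hy =>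
      rw [map_add, map_add, map_add, Matrix.trace_add, add_smul, ← hx, ← hy]
      abel
    | single g a =>
      rw [tauLin_single, MonoidAlgebra.lift_single, MonoidAlgebra.lift_single, Matrix.trace_smul,
        smul_eq_mul, mul_smul, mul_smul, ← trace_sub_eq_det_smul_inv, ← smul_add]
      congr 1
      abel
  · intro x
    induction x using MonoidAlgebra.induction_linear with
    | zero => simp
    | add x y hx hy =>
      rw [map_add, map_add, map_add, map_add, Matrix.trace_add, add_smul, ← hx, ← hy]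
      abel
    | single g a =>
      rw [tauLin_single, MonoidAlgebra.lift_single, MonoidAlgebra.lift_single,
        MonoidAlgebra.lift_single, Matrix.trace_smul,
        smul_eq_mul, mul_smul, mul_smul, ← trace_sub_eq_det_smul_inv_act ρ act hCH, ← smul_add]
      congr 1
      abel
  · intro M
    have hM : M ∈ Submodule.span R (Set.range ρ) := by rw [hspan]; trivial
    induction hM using Submodule.span_induction with
    | mem x hx =>
      obtain ⟨g, rfl⟩ := hx
      exact ⟨MonoidAlgebra.single g 1, by rw [MonoidAlgebra.lift_single, one_smul]⟩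
    | zero => exact ⟨0, map_zero _⟩
    | add x y _ _ hx hy =>
      obtain ⟨a, rfl⟩ := hx
      obtain ⟨b, rfl⟩ := hy
      exact ⟨a + b, map_add _ _ _⟩
    | smul c x _ hx =>
      obtain ⟨a, rfl⟩ := hx
      exact ⟨c • a, map_smul _ _ _⟩

end Group

end Fermat.Agent.S43lib.B0.EndBlock
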