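/-
S43lib / B0 / End / Scalar  (helper6)  — Project H, END block (`readout`): pure algebra.

**THE TORIC ALTERNATIVE IS CONTRADICTORY.**  `R` a commutative ring with `2` invertible, `ρ : G → M₂(R)` with
`R`-span `M₂(R)`, `W` an `R[G]`-module on which every `g` satisfies the characteristic polynomial of `ρ(g)`
(so that the action factors through `M₂(R)`, `End/BLR.lean`), `ŵ` an `R`-linear involution of `W` commuting
with `G`, and `φ ∈ G` acting on `W` as `- c · ŵ`.  Then `det ρ(φ) - c²` kills `W`
(on `W^± = ker (ŵ ∓ 1)` the element `φ ± c` of `R[G]` acts as `0`, so every entry of the matrix `ρ(φ) ± c`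
kills `W^±`).  In particular `det ρ(φ) = c²` if `W` is a faithful `R`-module.
-/
import Fermat.Agent.S43lib.B0.End.BLR

set_option autoImplicit false
set_option linter.unusedSectionVars false
set_option linter.style.haveILetI false

noncomputable section

namespace Fermat.Agent.S43lib.B0.EndBlock

open Matrix

variable {R : Type*} [CommRing R] {G : Type*} [Group G] {W : Type*} [AddCommGroup W] [Module R W]

/-- an endomorphism commuting with the action of `G` commutes with the action of `R[G]` -/
theorem commute_lift_of_commute (act : G →* Module.End R W) (T : Module.End R W)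
    (hT : ∀ g, T * act g = act g * T) (x : MonoidAlgebra R G) :
    T * MonoidAlgebra.lift R (Module.End R W) G act x =
      MonoidAlgebra.lift R (Module.End R W) G act x * T := by
  induction x using MonoidAlgebra.induction_linear with
  | zero => simp
  | add x y hx hy => rw [map_add, mul_add, add_mul, hx, hy]
  | single g a => rw [MonoidAlgebra.lift_single, mul_smul_comm, smul_mul_assoc, hT]

/-- **one eigenspace of `ŵ`**: if `φ` acts as the scalar `-s` on the `R[G]`-stable subset `W'`, then every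
entry of `ρ(φ) + s` kills `W'`. -/
theorem entry_smul_eq_zero (h2 : IsUnit (2 : R))
    (ρ : G →* Matrix (Fin 2) (Fin 2) R) (act : G →* Module.End R W)
    (hCH : ∀ g, act g * act g - (ρ g).trace • act g + (ρ g).det • (1 : Module.End R W) = 0)
    (hspan : Submodule.span R (Set.range ρ) = ⊤)
    (W' : Submodule R W)
    (hstab : ∀ x : MonoidAlgebra R G, ∀ w ∈ W', MonoidAlgebra.lift R (Module.End R W) G act x w ∈ W')
    (φ : G) (s : R) (hφ : ∀ w ∈ W', act φ w = -(s • w)) (a b : Fin 2) :
    ∀ w ∈ W', (ρ φ + s • (1 : Matrix (Fin 2) (Fin 2) R)) a b • w = 0 := by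
  classical
  intro w hw
  obtain ⟨P, hPdef⟩ : ∃ P, P = MonoidAlgebra.lift R (Matrix (Fin 2) (Fin 2) R) G ρ := ⟨_, rfl⟩
  obtain ⟨Q, hQdef⟩ : ∃ Q, Q = MonoidAlgebra.lift R (Module.End R W) G act := ⟨_, rfl⟩
  have hblr : ∀ x, P x = 0 → Q x = 0 := by
    rw [hPdef, hQdef]
    exact blr_monoidAlgebra h2 ρ act hCH hspan
  have hPs : ∀ g c, P (MonoidAlgebra.single g c) = c • ρ g := by
    intro g c
    rw [hPdef, MonoidAlgebra.lift_single]
  have hQs : ∀ g c, Q (MonoidAlgebra.single g c) = c • act g := by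
    intro g c
    rw [hQdef, MonoidAlgebra.lift_single]
  rw [← hQdef] at hstab
  -- surjectivity of `P`
  have hsurj : Function.Surjective P := by
    intro M
    have hM : M ∈ Submodule.span R (Set.range ρ) := by rw [hspan]; trivial
    induction hM using Submodule.span_induction with
    | mem x hx =>
      obtain ⟨g, rfl⟩ := hx
      exact ⟨MonoidAlgebra.single g 1, by rw [hPs, one_smul]⟩
    | zero => exact ⟨0, map_zero _⟩
    | add x y _ _ hx hy =>
      obtain ⟨a, rfl⟩ := hx
      obtain ⟨b, rfl⟩ := hy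
      exact ⟨a + b, map_add _ _ _⟩
    | smul c x _ hx =>
      obtain ⟨a, rfl⟩ := hx
      exact ⟨c • a, map_smul _ _ _⟩
  -- the element `z = φ + s`
  obtain ⟨z, hz⟩ : ∃ z : MonoidAlgebra R G,
      z = MonoidAlgebra.single φ 1 + MonoidAlgebra.single 1 s := ⟨_, rfl⟩
  obtain ⟨Z, hZ⟩ : ∃ Z : Matrix (Fin 2) (Fin 2) R,
      Z = ρ φ + s • (1 : Matrix (Fin 2) (Fin 2) R) := ⟨_, rfl⟩
  rw [← hZ]
  have hPz : P z = Z := by
    rw [hz, map_add, hPs, hPs, one_smul, map_one, hZ]
  have hQz : ∀ w ∈ W', Q z w = 0 := by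
    intro w hw
    rw [hz, map_add, hQs, hQs, one_smul, map_one,
      LinearMap.add_apply, hφ w hw, LinearMap.smul_apply, Module.End.one_apply, neg_add_cancel]
  -- lifts of the matrix units
  choose x hx using fun i j : Fin 2 => hsurj (Matrix.single i j (1 : R))
  obtain ⟨y, hy⟩ : ∃ y : MonoidAlgebra R G,
      y = (∑ i : Fin 2, x i a * z * x b i) - MonoidAlgebra.single 1 (Z a b) := ⟨_, rfl⟩
  have hPy : P y = 0 := by
    rw [hy, map_sub, map_sum, hPs, map_one]
    simp only [map_mul, hx, hPz]
    rw [sub_eq_zero]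
    ext i j
    rw [Matrix.sum_apply, Matrix.smul_apply, Matrix.one_apply, Fin.sum_univ_two]
    fin_cases i <;> fin_cases j <;>
      simp [Matrix.single, Matrix.mul_apply]
  have hQy := hblr y hPy
  have h1 := LinearMap.congr_fun hQy w
  rw [hy, map_sub, map_sum, LinearMap.sub_apply, LinearMap.sum_apply, LinearMap.zero_apply,
    hQs, map_one, LinearMap.smul_apply, Module.End.one_apply] at h1
  have h2' : ∀ i : Fin 2, Q (x i a * z * x b i) w = 0 := by
    intro i
    rw [map_mul, map_mul, Module.End.mul_apply, Module.End.mul_apply, hQz _ (hstab _ w hw), map_zero]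
  rw [Finset.sum_eq_zero (fun i _ => h2' i), zero_sub, neg_eq_zero] at h1
  exact h1

/-- **the toric alternative**: `det ρ(φ) - c²` kills `W`. -/
theorem det_sub_sq_smul_eq_zero (h2 : IsUnit (2 : R))
    (ρ : G →* Matrix (Fin 2) (Fin 2) R) (act : G →* Module.End R W)
    (hCH : ∀ g, act g * act g - (ρ g).trace • act g + (ρ g).det • (1 : Module.End R W) = 0)
    (hspan : Submodule.span R (Set.range ρ) = ⊤)
    (ω : Module.End R W) (hωω : ω * ω = 1) (hω : ∀ g, ω * act g = act g * ω)
    (φ : G) (c : R) (hφ : act φ = -(c • ω)) :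
    ∀ w : W, ((ρ φ).det - c ^ 2) • w = 0 := by
  classical
  -- the two eigenspaces
  have key : ∀ ε : R, ε * ε = 1 → ∀ w : W, ω w = ε • w → ((ρ φ).det - c ^ 2) • w = 0 := by
    intro ε hε w hw
    let W' : Submodule R W := LinearMap.ker (ω - ε • (1 : Module.End R W))
    have hmem : ∀ w : W, w ∈ W' ↔ ω w = ε • w := by
      intro w
      show (ω - ε • (1 : Module.End R W)) w = 0 ↔ _
      rw [LinearMap.sub_apply, LinearMap.smul_apply, Module.End.one_apply, sub_eq_zero]
    have hstab : ∀ x : MonoidAlgebra R G, ∀ w ∈ W',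
        MonoidAlgebra.lift R (Module.End R W) G act x w ∈ W' := by
      intro x w hw
      rw [hmem] at hw ⊢
      have := LinearMap.congr_fun (commute_lift_of_commute act ω hω x) w
      rw [Module.End.mul_apply, Module.End.mul_apply] at this
      rw [this, hw, map_smul]
    have hφ' : ∀ w ∈ W', act φ w = -((c * ε) • w) := by
      intro w hw
      rw [hφ, LinearMap.neg_apply, LinearMap.smul_apply, (hmem w).1 hw, smul_smul]
    have hent := fun a b => entry_smul_eq_zero h2 ρ act hCH hspan W' hstab φ (c * ε) hφ' a b w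
      ((hmem w).2 hw)
    obtain ⟨Z, hZ⟩ : ∃ Z : Matrix (Fin 2) (Fin 2) R,
        Z = ρ φ + (c * ε) • (1 : Matrix (Fin 2) (Fin 2) R) := ⟨_, rfl⟩
    rw [← hZ] at hent
    have hdet : (ρ φ).det - c ^ 2 =
        Z 0 0 * Z 1 1 - (c * ε) * Z 0 0 - (c * ε) * Z 1 1 - Z 0 1 * Z 1 0 := by
      have hρ : ρ φ = Z - (c * ε) • (1 : Matrix (Fin 2) (Fin 2) R) := by rw [hZ]; abel
      rw [hρ, Matrix.det_fin_two]
      simp only [Matrix.sub_apply, Matrix.smul_apply, Matrix.one_apply, smul_eq_mul]
      simp only [if_true, if_false, Fin.isValue, mul_one, mul_zero, sub_zero,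
        show ((0 : Fin 2) = 1) = False from by simp, show ((1 : Fin 2) = 0) = False from by simp]
      have : c ^ 2 = (c * ε) * (c * ε) := by
        rw [mul_mul_mul_comm, hε, mul_one, pow_two]
      rw [this]
      ring
    rw [hdet]
    simp only [sub_smul, mul_smul, hent, smul_zero, sub_zero]
  intro w
  obtain ⟨u, hu⟩ := h2
  -- `w = w⁺ + w⁻`
  have hω2 : ∀ w : W, ω (ω w) = w := fun w => by
    have := LinearMap.congr_fun hωω w
    rwa [Module.End.mul_apply, Module.End.one_apply] at this
  have hplus : ω (w + ω w) = (1 : R) • (w + ω w) := by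
    rw [map_add, hω2, one_smul, add_comm]
  have hminus : ω (w - ω w) = (-1 : R) • (w - ω w) := by
    rw [map_sub, hω2, neg_one_smul, neg_sub]
  have h1 := key 1 (by ring) _ hplus
  have h2' := key (-1) (by ring) _ hminus
  have h3 : ((ρ φ).det - c ^ 2) • ((2 : R) • w) = 0 := by
    have : (2 : R) • w = (w + ω w) + (w - ω w) := by rw [two_smul]; abel
    rw [this, smul_add, h1, h2', add_zero]
  have hw2 : w = (↑u⁻¹ : R) • ((2 : R) • w) := by
    rw [smul_smul, ← hu, Units.inv_mul, one_smul]
  rw [hw2, smul_comm, h3, smul_zero]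

end Fermat.Agent.S43lib.B0.EndBlock
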