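/-
S43lib / B0 / End / Dual  (helper6)  — Project H, block END (`readout`).

THE `χ`-PART OF `Hom(D, J')` WITHOUT TENSOR PRODUCTS.

`R` a commutative ring, `D` an `R`-module, `J` an abelian group with additive operators `T i` (Hecke) and
eigenvalues `a i ∈ R`, `J' ≤ J` a subgroup (the `m`-torsion):

* `eigHom J' T a : AddSubgroup (D →+ J)` : the additive maps `h : D → J` with values in `J'` and
  `T i (h f) = h (a i • f)`;
* it is an `R`-module through `(c • h) f = h (c • f)` (`eigHom_smul_apply`);
* a group `Γ` acting on `J` by additive maps commuting with the `T i` and preserving `J'` acts `R`-linearly: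
  `galAct : Γ →* Module.End R ↥(eigHom J' T a)`, `(galAct σ h) f = σ • h f`;
* an additive `w : J → J` such that `w ∘ h` stays in `eigHom` for every `h` gives `postEnd`;
* `act_eq_one_of_rho_eq_one` : the corollary of `blr_monoidAlgebra` used for inertia.
-/
import Fermat.Agent.S43lib.B0.End.Scalar

set_option autoImplicit false
set_option linter.unusedSectionVars false
set_option linter.style.haveILetI false

noncomputable section

namespace Fermat.Agent.S43lib.B0.EndBlock

open Matrix

section EigHom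

variable {R : Type*} [CommRing R] {D : Type*} [AddCommGroup D] [Module R D]
  {J : Type*} [AddCommGroup J] {ι : Type*}

/-- multiplication by `c` on `D`, as an additive map -/
def smulHom (c : R) : D →+ D := DistribSMul.toAddMonoidHom D c

@[simp] theorem smulHom_apply (c : R) (f : D) : smulHom c f = c • f := rfl

/-- **the `χ`-part of `Hom(D, J')`** -/
def eigHom (J' : AddSubgroup J) (T : ι → J →+ J) (a : ι → R) : AddSubgroup (D →+ J) where
  carrier := {h | (∀ f, h f ∈ J') ∧ ∀ i f, T i (h f) = h (a i • f)}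
  zero_mem' := ⟨fun _ => J'.zero_mem, fun i f => by
    rw [AddMonoidHom.zero_apply, AddMonoidHom.zero_apply, map_zero]⟩
  add_mem' := by
    rintro h h' ⟨h1, h2⟩ ⟨h1', h2'⟩
    refine ⟨fun f => J'.add_mem (h1 f) (h1' f), fun i f => ?_⟩
    rw [AddMonoidHom.add_apply, AddMonoidHom.add_apply, map_add, h2, h2']
  neg_mem' := by
    rintro h ⟨h1, h2⟩
    refine ⟨fun f => J'.neg_mem (h1 f), fun i f => ?_⟩
    rw [AddMonoidHom.neg_apply, AddMonoidHom.neg_apply, map_neg, h2]

variable {J' : AddSubgroup J} {T : ι → J →+ J} {a : ι → R}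

theorem mem_eigHom {h : D →+ J} :
    h ∈ eigHom J' T a ↔ (∀ f, h f ∈ J') ∧ ∀ i f, T i (h f) = h (a i • f) := Iff.rfl

theorem eigHom_apply_mem (h : eigHom (D := D) J' T a) (f : D) : (h : D →+ J) f ∈ J' := h.2.1 f

theorem eigHom_hecke (h : eigHom (D := D) J' T a) (i : ι) (f : D) :
    T i ((h : D →+ J) f) = (h : D →+ J) (a i • f) := h.2.2 i f

instance : SMul R (eigHom (D := D) J' T a) :=
  ⟨fun c h => ⟨(h : D →+ J).comp (smulHom c), fun f => h.2.1 _, fun i f => by
    rw [AddMonoidHom.comp_apply, AddMonoidHom.comp_apply, smulHom_apply, smulHom_apply, h.2.2,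
      smul_comm]⟩⟩

@[simp] theorem eigHom_smul_apply (c : R) (h : eigHom (D := D) J' T a) (f : D) :
    ((c • h : eigHom (D := D) J' T a) : D →+ J) f = (h : D →+ J) (c • f) := rfl

@[simp] theorem eigHom_add_apply (h h' : eigHom (D := D) J' T a) (f : D) :
    ((h + h' : eigHom (D := D) J' T a) : D →+ J) f = (h : D →+ J) f + (h' : D →+ J) f := rfl

@[simp] theorem eigHom_zero_apply (f : D) :
    ((0 : eigHom (D := D) J' T a) : D →+ J) f = 0 := rfl

@[simp] theorem eigHom_neg_apply (h : eigHom (D := D) J' T a) (f : D) :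
    ((-h : eigHom (D := D) J' T a) : D →+ J) f = -((h : D →+ J) f) := rfl

theorem eigHom_ext {h h' : eigHom (D := D) J' T a}
    (H : ∀ f, (h : D →+ J) f = (h' : D →+ J) f) : h = h' :=
  Subtype.ext (AddMonoidHom.ext H)

instance : Module R (eigHom (D := D) J' T a) :=
  Module.ofMinimalAxioms
    (fun c h h' => eigHom_ext fun f => rfl)
    (fun c c' h => eigHom_ext fun f => by
      rw [eigHom_smul_apply, eigHom_add_apply, eigHom_smul_apply, eigHom_smul_apply, add_smul,
        map_add])
    (fun c c' h => eigHom_ext fun f => by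
      rw [eigHom_smul_apply, eigHom_smul_apply, eigHom_smul_apply, smul_smul, mul_comm])
    (fun h => eigHom_ext fun f => by rw [eigHom_smul_apply, one_smul])

/-! ### the action of a group -/

variable {Γ : Type*} [Group Γ] [DistribMulAction Γ J]

/-- the `R`-linear action of `σ` -/
def galEnd (hT : ∀ (i : ι) (σ : Γ) (x : J), T i (σ • x) = σ • T i x)
    (hJ' : ∀ (σ : Γ) (x : J), x ∈ J' → σ • x ∈ J') (σ : Γ) :
    Module.End R (eigHom (D := D) J' T a) where
  toFun h := ⟨(DistribSMul.toAddMonoidHom J σ).comp (h : D →+ J),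
    fun f => hJ' σ _ (h.2.1 f), fun i f => by
      rw [AddMonoidHom.comp_apply, AddMonoidHom.comp_apply, DistribSMul.toAddMonoidHom_apply,
        DistribSMul.toAddMonoidHom_apply, hT, h.2.2]⟩
  map_add' h h' := eigHom_ext fun f => smul_add σ _ _
  map_smul' c h := eigHom_ext fun f => rfl

@[simp] theorem galEnd_apply (hT : ∀ (i : ι) (σ : Γ) (x : J), T i (σ • x) = σ • T i x)
    (hJ' : ∀ (σ : Γ) (x : J), x ∈ J' → σ • x ∈ J') (σ : Γ) (h : eigHom (D := D) J' T a) (f : D) :
    ((galEnd hT hJ' σ h : eigHom (D := D) J' T a) : D →+ J) f = σ • (h : D →+ J) f := rfl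

/-- **the Galois action on the `χ`-part** -/
def galAct (hT : ∀ (i : ι) (σ : Γ) (x : J), T i (σ • x) = σ • T i x)
    (hJ' : ∀ (σ : Γ) (x : J), x ∈ J' → σ • x ∈ J') :
    Γ →* Module.End R (eigHom (D := D) J' T a) where
  toFun := galEnd hT hJ'
  map_one' := LinearMap.ext fun h => eigHom_ext fun f => by
    rw [galEnd_apply, one_smul]; rfl
  map_mul' σ τ := LinearMap.ext fun h => eigHom_ext fun f => by
    rw [galEnd_apply, mul_smul]; rfl

@[simp] theorem galAct_apply (hT : ∀ (i : ι) (σ : Γ) (x : J), T i (σ • x) = σ • T i x)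
    (hJ' : ∀ (σ : Γ) (x : J), x ∈ J' → σ • x ∈ J') (σ : Γ) (h : eigHom (D := D) J' T a) (f : D) :
    ((galAct hT hJ' σ h : eigHom (D := D) J' T a) : D →+ J) f = σ • (h : D →+ J) f := rfl

/-! ### post-composition with an additive map preserving the `χ`-part -/

/-- post-composition with `w`, if it preserves the `χ`-part -/
def postEnd (w : J →+ J) (hw : ∀ h : eigHom (D := D) J' T a, w.comp (h : D →+ J) ∈ eigHom J' T a) :
    Module.End R (eigHom (D := D) J' T a) where
  toFun h := ⟨w.comp (h : D →+ J), hw h⟩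
  map_add' h h' := eigHom_ext fun f => map_add w _ _
  map_smul' c h := eigHom_ext fun f => rfl

@[simp] theorem postEnd_apply (w : J →+ J)
    (hw : ∀ h : eigHom (D := D) J' T a, w.comp (h : D →+ J) ∈ eigHom J' T a)
    (h : eigHom (D := D) J' T a) (f : D) :
    ((postEnd w hw h : eigHom (D := D) J' T a) : D →+ J) f = w ((h : D →+ J) f) := rfl

end EigHom

/-! ### BLR: `ρ g = 1 ⟹ act g = 1` -/

section Cor

variable {R : Type*} [CommRing R] {G : Type*} [Group G] {W : Type*} [AddCommGroup W] [Module R W]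

theorem act_eq_one_of_rho_eq_one (h2 : IsUnit (2 : R))
    (ρ : G →* Matrix (Fin 2) (Fin 2) R) (act : G →* Module.End R W)
    (hCH : ∀ g, act g * act g - (ρ g).trace • act g + (ρ g).det • (1 : Module.End R W) = 0)
    (hspan : Submodule.span R (Set.range ρ) = ⊤) (g : G) (hg : ρ g = 1) : act g = 1 := by
  have key := blr_monoidAlgebra h2 ρ act hCH hspan
    (MonoidAlgebra.single g (1 : R) - MonoidAlgebra.single (1 : G) (1 : R)) (by
      rw [map_sub, MonoidAlgebra.lift_single, MonoidAlgebra.lift_single, one_smul, one_smul, hg,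
        map_one, sub_self])
  rw [map_sub, MonoidAlgebra.lift_single, MonoidAlgebra.lift_single, one_smul, one_smul, map_one,
    sub_eq_zero] at key
  exact key

end Cor

end Fermat.Agent.S43lib.B0.EndBlock

end
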