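/-
S43lib / B0 / End / Core  (helper6)  — Project H, block END (`readout`).

THE ABSTRACT CORE.  `G` a tame package of level `N` at `A ∣ q`, torsion exponent `m` (prime to `q`);
`R` a commutative ring with `2 ∈ Rˣ`, `D` an `R`-module, `a ℓ ∈ R` eigenvalues at the good primes,
`𝒲 = WW N m good a D = Hom(D, J₀(N)[m])^χ` with its `R`-linear action `actW` of `G_ℚ`;
`ρ : G_ℚ → GL₂(R)` spanning `M₂(R)`, with `σ² − tr ρ(σ) σ + det ρ(σ) = 0` on `𝒲`, trivial on the inertia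
group of `A`, `det ρ(φ) = q` for a Frobenius element `φ` at `A`; `𝒲` faithful; `q² ≠ q` in `R`;
`a ℓ₀ − (ℓ₀ + 1) ∈ Rˣ` for a good `ℓ₀`; `a ℓ ≡ aZ ℓ` modulo a nilpotent `ϖ` for the test primes.

**`exists_abelian_eigenclass`** : there is `x ∈ J₀(N)[m]` with `Ψ x ≠ 0`, `res (Ψ x) = 0` and
`TΩ ℓ (Ψ x) = aZ ℓ • Ψ x` at the test primes (the input of `G.old`).
-/
import Fermat.Agent.S43lib.B0.End.Dual
import Fermat.Agent.S43lib.B0.Iface
import Fermat.Agent.S29lib.GH.HeckeGalois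

set_option autoImplicit false
set_option linter.unusedSectionVars false
set_option linter.style.haveILetI false

noncomputable section

namespace Fermat.Agent.S43lib.B0.EndBlock

open Matrix ModularCurve Fermat.Agent.S19lib Fermat.Agent.S44lib

local notation "Qb" => AlgebraicClosure ℚ
local notation "GQ" => (AlgebraicClosure ℚ ≃ₐ[ℚ] AlgebraicClosure ℚ)

section Defs

variable (N : ℕ) [NeZero N] (m : ℕ) {R : Type} [CommRing R] (good : Nat.Primes → Prop)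
  (a : Nat.Primes → R) (D : Type) [AddCommGroup D] [Module R D]

/-- the Hecke operators at the good primes, as additive maps -/
def HT : {ℓ : Nat.Primes // good ℓ} → (JZero N →+ JZero N) := fun i =>
  (heckeOperatorBar N i.1).toAddMonoidHom

@[simp] theorem HT_apply (i : {ℓ : Nat.Primes // good ℓ}) (x : JZero N) :
    HT N good i x = heckeOperatorBar N i.1 x := rfl

/-- **`𝒲 = Hom(D, J₀(N)[m])^χ`** -/
abbrev WW : AddSubgroup (D →+ JZero N) :=
  eigHom (D := D) (tors N (m : ℤ)) (HT N good) (fun i => a i.1)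

theorem HT_galois (i : {ℓ : Nat.Primes // good ℓ}) (σ : GQ) (x : JZero N) :
    HT N good i (σ • x) = σ • HT N good i x :=
  Fermat.Agent.S29lib.GH.heckeOperatorBar_galois N i.1 σ x

theorem tors_galois (σ : GQ) (x : JZero N) (hx : x ∈ tors N (m : ℤ)) : σ • x ∈ tors N (m : ℤ) := by
  have hx' : (m : ℤ) • x = 0 := (Submodule.mem_torsionBy_iff _ _).1 hx
  show σ • x ∈ Submodule.torsionBy ℤ (JZero N) (m : ℤ)
  rw [Submodule.mem_torsionBy_iff, ← Fermat.Agent.S29lib.galois_smul_zsmul, hx']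
  exact (DistribSMul.toAddMonoidHom (JZero N) σ).map_zero

/-- **the action of `G_ℚ` on `𝒲`** -/
def actW : GQ →* Module.End R (WW N m good a D) :=
  galAct (HT_galois N good) (tors_galois N m)

@[simp] theorem actW_apply (σ : GQ) (h : WW N m good a D) (f : D) :
    ((actW N m good a D σ h : WW N m good a D) : D →+ JZero N) f = σ • (h : D →+ JZero N) f := rfl

end Defs

section Core

variable {N : ℕ} [NeZero N] {q m : ℕ} {A : ValuationSubring Qb} (G : TamePackage N q m A)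
  {R : Type} [CommRing R] {good : Nat.Primes → Prop} {a : Nat.Primes → R}
  {D : Type} [AddCommGroup D] [Module R D]

theorem mem_tors_iff {x : JZero N} : x ∈ tors N (m : ℤ) ↔ (m : ℤ) • x = 0 :=
  Submodule.mem_torsionBy_iff _ _

/-- integers act on `D` through `R` -/
theorem hom_intCast_smul (h : D →+ JZero N) (z : ℤ) (f : D) : h ((z : R) • f) = z • h f := by
  rw [Int.cast_smul_eq_zsmul, map_zsmul]

/-- `f ↦ Ψ (h f)` is additive -/
def psiHom (h : WW N m good a D) : D →+ G.Ω :=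
  AddMonoidHom.mk' (fun f => G.Ψ ((h : D →+ JZero N) f)) (fun f f' => by
    rw [map_add]
    exact G.Ψ_add _ (eigHom_apply_mem h f) _ (eigHom_apply_mem h f'))

@[simp] theorem psiHom_apply (h : WW N m good a D) (f : D) :
    psiHom G h f = G.Ψ ((h : D →+ JZero N) f) := rfl

theorem psiHom_smul (h : WW N m good a D) (c : R) (f : D) :
    psiHom G h (c • f) = psiHom G (c • h) f := rfl

/-- `Ψ` and the Hecke operators at the good primes -/
theorem psiHom_hecke (hgood : ∀ ℓ, good ℓ → ¬ (ℓ : ℕ) ∣ N) (h : WW N m good a D) (ℓ : Nat.Primes)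
    (hℓ : good ℓ) (f : D) : G.TΩ ℓ (psiHom G h f) = psiHom G h (a ℓ • f) := by
  rw [psiHom_apply, psiHom_apply, ← G.Ψ_hecke ℓ (hgood ℓ hℓ) _ (eigHom_apply_mem h f)]
  congr 1
  exact eigHom_hecke h ⟨ℓ, hℓ⟩ f

variable (h2 : IsUnit (2 : R)) (hgood : ∀ ℓ, good ℓ → ¬ (ℓ : ℕ) ∣ N)
  (ρ : GQ →* Matrix (Fin 2) (Fin 2) R)
  (hCH : ∀ σ, actW N m good a D σ * actW N m good a D σ - (ρ σ).trace • actW N m good a D σ +
    (ρ σ).det • (1 : Module.End R (WW N m good a D)) = 0)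
  (hspan : Submodule.span R (Set.range ρ) = ⊤)
  (hI : ∀ τ ∈ IA A, ρ τ = 1)

include h2 hCH hspan hI in
/-- the inertia group of `A` fixes all the points `h f` -/
theorem inertia_fixes (h : WW N m good a D) (f : D) :
    ∀ τ ∈ IA A, τ • (h : D →+ JZero N) f = (h : D →+ JZero N) f := by
  intro τ hτ
  have h1 := act_eq_one_of_rho_eq_one h2 ρ (actW N m good a D) hCH hspan τ (hI τ hτ)
  have h3 : actW N m good a D τ h = h := by rw [h1]; rfl
  have h4 := congrArg (fun h' : WW N m good a D => (h' : D →+ JZero N) f) h3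
  exact h4

include h2 hCH hspan hI hgood in
/-- **no node orders**: a non-Eisenstein good prime kills the residues of all the points `h f` -/
theorem res_psi_eq_zero (ℓ₀ : Nat.Primes) (hℓ₀ : good ℓ₀) (hℓ₀m : (ℓ₀ : ℕ) ≠ m)
    (hu : IsUnit (a ℓ₀ - (((ℓ₀ : ℕ) + 1 : ℤ) : R))) (h : WW N m good a D) (f : D) :
    G.res (psiHom G h f) = 0 := by
  have key : ∀ f' : D, G.res (psiHom G h ((a ℓ₀ - (((ℓ₀ : ℕ) + 1 : ℤ) : R)) • f')) = 0 := by
    intro f'
    have hE : G.res (psiHom G h f') ∈ G.Eis :=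
      G.mono _ (eigHom_apply_mem h f') (inertia_fixes h2 ρ hCH hspan hI h f')
    have h1 := G.eis ℓ₀ (hgood ℓ₀ hℓ₀) hℓ₀m _ hE
    have h3 : G.TR ℓ₀ (G.res (psiHom G h f')) = G.res (psiHom G h (a ℓ₀ • f')) := by
      rw [← psiHom_hecke G hgood h ℓ₀ hℓ₀ f', psiHom_apply,
        G.res_hecke ℓ₀ (hgood ℓ₀ hℓ₀) _ (eigHom_apply_mem h f')]
    have h4 : G.res (psiHom G h ((((ℓ₀ : ℕ) + 1 : ℤ) : R) • f')) =
        ((ℓ₀ : ℕ) + 1 : ℤ) • G.res (psiHom G h f') := by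
      rw [Int.cast_smul_eq_zsmul, map_zsmul, map_zsmul]
    rw [sub_smul, map_sub, map_sub, h4, ← h3, h1, sub_self]
  obtain ⟨u, hu'⟩ := hu
  have := key ((↑u⁻¹ : R) • f)
  rwa [smul_smul, ← hu', Units.mul_inv, one_smul] at this


/-! ### the abelian case: the socle trick -/

/-- **the socle trick**: if some `Ψ (h f) ≠ 0`, there are `h'`, `f'` with `Ψ (h' f') ≠ 0` and
`Ψ (h'' (ϖ • f')) = 0` for all `h''`. -/
theorem exists_socle (ϖ : R) (hϖ : ∃ n : ℕ, ϖ ^ n = 0) (h : WW N m good a D) (f : D)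
    (hne : psiHom G h f ≠ 0) :
    ∃ (h' : WW N m good a D) (f' : D), psiHom G h' f' ≠ 0 ∧
      ∀ (h'' : WW N m good a D) (c : R), psiHom G h'' (c • ϖ • f') = 0 := by
  classical
  obtain ⟨n, hn⟩ := hϖ
  -- the set of exponents killing `f` in `D / D₀`
  have hex : ∃ j : ℕ, ∀ h'' : WW N m good a D, psiHom G h'' (ϖ ^ j • f) = 0 :=
    ⟨n, fun h'' => by rw [hn, zero_smul, map_zero]⟩
  have hj0 : Nat.find hex ≠ 0 := by
    intro h0
    have := Nat.find_spec hex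
    rw [h0, pow_zero, one_smul] at this
    exact hne (this h)
  obtain ⟨j, hj⟩ := Nat.exists_eq_succ_of_ne_zero hj0
  have hmin : ¬ ∀ h'' : WW N m good a D, psiHom G h'' (ϖ ^ j • f) = 0 :=
    Nat.find_min hex (by omega)
  push Not at hmin
  obtain ⟨h', hh'⟩ := hmin
  refine ⟨h', ϖ ^ j • f, hh', fun h'' c => ?_⟩
  have := Nat.find_spec hex (c • h'')
  rw [hj, ← psiHom_smul, pow_succ', mul_smul] at this
  exact this

include hgood in
/-- **the abelian case** -/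
theorem abelian_case (ϖ : R) (hϖ : ∃ n : ℕ, ϖ ^ n = 0) (aZ : ℕ → ℤ) (S' : ℕ → Prop)
    (hS' : ∀ (ℓ : ℕ) (hℓ : ℓ.Prime), S' ℓ → good ⟨ℓ, hℓ⟩ ∧
      a ⟨ℓ, hℓ⟩ - ((aZ ℓ : ℤ) : R) ∈ Ideal.span {ϖ})
    (hres : ∀ (h : WW N m good a D) (f : D), G.res (psiHom G h f) = 0)
    (hΨ : ∃ (h : WW N m good a D) (f : D), psiHom G h f ≠ 0) :
    ∃ x ∈ tors N (m : ℤ), G.Ψ x ≠ 0 ∧ G.res (G.Ψ x) = 0 ∧
      ∀ (ℓ : ℕ) (hℓ : ℓ.Prime), S' ℓ → G.TΩ ⟨ℓ, hℓ⟩ (G.Ψ x) = aZ ℓ • G.Ψ x := by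
  obtain ⟨h, f, hne⟩ := hΨ
  obtain ⟨h', f', hne', hsoc⟩ := exists_socle G ϖ hϖ h f hne
  refine ⟨(h' : D →+ JZero N) f', eigHom_apply_mem h' f', hne', hres h' f', fun ℓ hℓ hSℓ => ?_⟩
  obtain ⟨hg, hc⟩ := hS' ℓ hℓ hSℓ
  obtain ⟨c, hc⟩ := Ideal.mem_span_singleton'.1 hc
  have h1 := psiHom_hecke G hgood h' ⟨ℓ, hℓ⟩ hg f'
  have h2 : a ⟨ℓ, hℓ⟩ • f' = ((aZ ℓ : ℤ) : R) • f' + c • ϖ • f' := by
    rw [← mul_smul, hc, ← add_smul, add_sub_cancel]
  rw [h2, map_add, hsoc h' c, add_zero, Int.cast_smul_eq_zsmul, map_zsmul] at h1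
  exact h1

/-! ### the toric case -/

include h2 hCH hspan in
/-- **the toric case is impossible** -/
theorem toric_case (hqm : IsCoprime (q : ℤ) (m : ℤ)) (φ : GQ) (hφ : A.IsFrobeniusAt φ q)
    (hdet : (ρ φ).det = (q : R)) (hq : (q : R) ^ 2 ≠ (q : R))
    (hfaith : ∀ c : R, (∀ (h : WW N m good a D) (f : D), (h : D →+ JZero N) (c • f) = 0) → c = 0)
    (hΨ : ∀ (h : WW N m good a D) (f : D), psiHom G h f = 0) : False := by
  have hK : ∀ (h : WW N m good a D) (f : D), (h : D →+ JZero N) f ∈ G.K := fun h f =>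
    (G.mem_K _ (eigHom_apply_mem h f)).2 (hΨ h f)
  have hfrob : ∀ (h : WW N m good a D) (f : D),
      φ • (h : D →+ JZero N) f = -((q : ℤ) • G.w ((h : D →+ JZero N) f)) := fun h f =>
    G.frobK φ hφ _ (hK h f)
  -- `w` preserves `J[m]`
  have hwT : ∀ x ∈ tors N (m : ℤ), G.w x ∈ tors N (m : ℤ) := by
    intro x hx
    rw [mem_tors_iff] at hx ⊢
    rw [← map_zsmul, hx, map_zero]
  obtain ⟨u, v, huv⟩ := hqm
  -- `w ∘ h = -u • (φ h)`
  have hwh : ∀ h : WW N m good a D, G.w.comp (h : D →+ JZero N) =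
      (-u) • ((actW N m good a D φ h : WW N m good a D) : D →+ JZero N) := by
    intro h
    ext f
    show G.w ((h : D →+ JZero N) f) = (-u) • (φ • (h : D →+ JZero N) f)
    rw [hfrob, zsmul_neg, neg_zsmul, neg_neg]
    have h3 : (m : ℤ) • G.w ((h : D →+ JZero N) f) = 0 :=
      mem_tors_iff.1 (hwT _ (eigHom_apply_mem h f))
    have h4 : G.w ((h : D →+ JZero N) f) =
        (u * (q : ℤ) + v * (m : ℤ)) • G.w ((h : D →+ JZero N) f) := by rw [huv, one_smul]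
    rw [add_zsmul, mul_zsmul, mul_zsmul, h3, zsmul_zero, add_zero] at h4
    exact h4
  have hw : ∀ h : WW N m good a D, G.w.comp (h : D →+ JZero N) ∈ WW N m good a D := by
    intro h
    rw [hwh h]
    exact AddSubgroup.zsmul_mem _ (Subtype.mem _) _
  -- the involution
  let ω : Module.End R (WW N m good a D) := postEnd G.w hw
  have hωω : ω * ω = 1 := by
    apply LinearMap.ext
    intro h
    apply eigHom_ext
    intro f
    show G.w (G.w ((h : D →+ JZero N) f)) = (h : D →+ JZero N) f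
    exact G.w_invol _
  have hωg : ∀ σ, ω * actW N m good a D σ = actW N m good a D σ * ω := by
    intro σ
    apply LinearMap.ext
    intro h
    apply eigHom_ext
    intro f
    show G.w (σ • (h : D →+ JZero N) f) = σ • G.w ((h : D →+ JZero N) f)
    exact G.w_galois σ _
  have hφω : actW N m good a D φ = -((q : R) • ω) := by
    apply LinearMap.ext
    intro h
    apply eigHom_ext
    intro f
    rw [actW_apply, hfrob]
    show _ = -(G.w ((h : D →+ JZero N) ((q : R) • f)))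
    rw [Nat.cast_smul_eq_nsmul, map_nsmul, map_nsmul, natCast_zsmul]
  have key := det_sub_sq_smul_eq_zero h2 ρ (actW N m good a D) hCH hspan ω hωω hωg φ (q : R) hφω
  have h0 : (ρ φ).det - (q : R) ^ 2 = 0 := by
    apply hfaith
    intro h f
    have := congrArg (fun h' : WW N m good a D => (h' : D →+ JZero N) f) (key h)
    exact this
  rw [hdet, sub_eq_zero] at h0
  exact hq h0.symm

/-! ### the core -/

include h2 hgood hCH hspan hI in
/-- **the abstract core of END** -/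
theorem exists_abelian_eigenclass (hqm : IsCoprime (q : ℤ) (m : ℤ)) (φ : GQ)
    (hφ : A.IsFrobeniusAt φ q) (hdet : (ρ φ).det = (q : R)) (hq : (q : R) ^ 2 ≠ (q : R))
    (hfaith : ∀ c : R, (∀ (h : WW N m good a D) (f : D), (h : D →+ JZero N) (c • f) = 0) → c = 0)
    (ℓ₀ : Nat.Primes) (hℓ₀ : good ℓ₀) (hℓ₀m : (ℓ₀ : ℕ) ≠ m)
    (hu : IsUnit (a ℓ₀ - (((ℓ₀ : ℕ) + 1 : ℤ) : R)))
    (ϖ : R) (hϖ : ∃ n : ℕ, ϖ ^ n = 0) (aZ : ℕ → ℤ) (S' : ℕ → Prop)
    (hS' : ∀ (ℓ : ℕ) (hℓ : ℓ.Prime), S' ℓ → good ⟨ℓ, hℓ⟩ ∧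
      a ⟨ℓ, hℓ⟩ - ((aZ ℓ : ℤ) : R) ∈ Ideal.span {ϖ}) :
    ∃ x ∈ tors N (m : ℤ), G.Ψ x ≠ 0 ∧ G.res (G.Ψ x) = 0 ∧
      ∀ (ℓ : ℕ) (hℓ : ℓ.Prime), S' ℓ → G.TΩ ⟨ℓ, hℓ⟩ (G.Ψ x) = aZ ℓ • G.Ψ x := by
  have hres := res_psi_eq_zero G h2 hgood ρ hCH hspan hI ℓ₀ hℓ₀ hℓ₀m hu
  by_cases hΨ : ∃ (h : WW N m good a D) (f : D), psiHom G h f ≠ 0
  · exact abelian_case G hgood ϖ hϖ aZ S' hS' hres hΨ
  · exfalso
    push Not at hΨ
    exact toric_case G h2 ρ hCH hspan hqm φ hφ hdet hq hfaith hΨ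

end Core

end Fermat.Agent.S43lib.B0.EndBlock

end
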