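/-
S43lib / B0 / End / CH  (helper6)  — Project H, block END (`readout`).

CAYLEY–HAMILTON ON `𝒲` FOR ALL OF `G_ℚ`, AND THE DETERMINANT.

`m = p^k`, `𝒲 = WW N (p^k) good a D`; `ρ : G_ℚ →* M₂(R)` of finite level with
`tr ρ(Frob_ℓ) = a ℓ`, `det ρ(Frob_ℓ) = ℓ` for `ℓ ∉ S₀`.

* `pow_CH` : `Φ² − tΦ + d = 0 ⟹ Φ^{2j} − powTr t d j · Φ^j + d^j = 0` (any `R`-algebra);
* `matrix_trace_pow` : `tr (M^j) = powTr (tr M) (det M) j` for `2 × 2` matrices;
* **`actW_CH`** : `σ² − tr ρ(σ) σ + det ρ(σ) = 0` on `𝒲` for every `σ ∈ G_ℚ` (Eichler–Shimura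
  `LocalData.frob`, weak Chebotarev `S31lib.WC.brickWC`, the power identity);
* **`det_eq_of_isFrobeniusAt`** : `det ρ(φ) = q` for a Frobenius element at ANY prime `q ≠ p`
  (weak Chebotarev + the cyclotomic character `S30.chiZp`), if `p^k = 0` in `R`.
-/
import Fermat.Agent.S43lib.B0.End.Core
import Fermat.Agent.S31lib.WC.Export
import Fermat.Agent.S31lib.TC.PowTrace
import Fermat.Agent.S29lib.S30.CycloAdic
import Fermat.Agent.S29lib.Interface.Basic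

set_option autoImplicit false
set_option linter.unusedSectionVars false
set_option linter.style.haveILetI false

noncomputable section

namespace Fermat.Agent.S43lib.B0.EndBlock

open Matrix ModularCurve Fermat.Agent.S19lib Fermat.Agent.S44lib Fermat.Agent.S31lib.TC
open Fermat.Agent.S29lib

local notation "Qb" => AlgebraicClosure ℚ
local notation "GQ" => (AlgebraicClosure ℚ ≃ₐ[ℚ] AlgebraicClosure ℚ)

/-! ### the power identity -/

section PowId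

variable {R : Type*} [CommRing R] {E : Type*} [Ring E] [Algebra R E]

theorem pow_rec_of_CH (Φ : E) (t d : R) (h : Φ * Φ - t • Φ + d • (1 : E) = 0) (j : ℕ) :
    Φ ^ (j + 2) = t • Φ ^ (j + 1) - d • Φ ^ j := by
  have hsq : Φ ^ 2 = t • Φ - d • (1 : E) :=
    calc Φ ^ 2 = (Φ * Φ - t • Φ + d • (1 : E)) + (t • Φ - d • (1 : E)) := by rw [pow_two]; abel
      _ = t • Φ - d • (1 : E) := by rw [h, zero_add]
  rw [pow_add, hsq, mul_sub, mul_smul_comm, mul_smul_comm, mul_one, ← pow_succ]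

theorem pow_add_conj_pow (Φ : E) (t d : R) (h : Φ * Φ - t • Φ + d • (1 : E) = 0) (j : ℕ) :
    Φ ^ j + (t • (1 : E) - Φ) ^ j = powTr t d j • (1 : E) := by
  have hΨ : (t • (1 : E) - Φ) * (t • (1 : E) - Φ) - t • (t • (1 : E) - Φ) + d • (1 : E) = 0 := by
    have e1 : Φ * (t • (1 : E) - Φ) = t • Φ - Φ * Φ := by rw [mul_sub, mul_smul_comm, mul_one]
    have e2 : (t • (1 : E) - Φ) * (t • (1 : E) - Φ) =
        t • (t • (1 : E) - Φ) - Φ * (t • (1 : E) - Φ) := by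
      rw [sub_mul, smul_mul_assoc, one_mul]
    rw [e2, e1, ← h]
    abel
  induction j using Nat.twoStepInduction with
  | zero => rw [pow_zero, pow_zero, powTr_zero, two_smul]
  | one => rw [pow_one, pow_one, powTr_one]; abel
  | more j h1 h2 =>
    rw [pow_rec_of_CH Φ t d h, pow_rec_of_CH _ t d hΨ, powTr_add_two, sub_smul, mul_smul, mul_smul,
      ← h1, ← h2, smul_add, smul_add]
    abel

/-- **the power identity** -/
theorem pow_CH (Φ : E) (t d : R) (h : Φ * Φ - t • Φ + d • (1 : E) = 0) (j : ℕ) :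
    Φ ^ j * Φ ^ j - powTr t d j • Φ ^ j + d ^ j • (1 : E) = 0 := by
  have hΨΦ : (t • (1 : E) - Φ) * Φ = d • (1 : E) := by
    have e : t • Φ - Φ * Φ = d • (1 : E) - (Φ * Φ - t • Φ + d • (1 : E)) := by abel
    rw [sub_mul, smul_mul_assoc, one_mul, e, h, sub_zero]
  have hc : Commute (t • (1 : E) - Φ) Φ :=
    ((Commute.one_left Φ).smul_left t).sub_left (Commute.refl Φ)
  have h1 : powTr t d j • Φ ^ j = (powTr t d j • (1 : E)) * Φ ^ j := by
    rw [smul_mul_assoc, one_mul]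
  have h2 : (t • (1 : E) - Φ) ^ j * Φ ^ j = d ^ j • (1 : E) := by
    rw [← hc.mul_pow, hΨΦ, smul_pow, one_pow]
  rw [h1, ← pow_add_conj_pow Φ t d h j, add_mul, h2]
  abel

theorem matrix_trace_pow {R : Type*} [CommRing R] (M : Matrix (Fin 2) (Fin 2) R) (j : ℕ) :
    (M ^ j).trace = powTr M.trace M.det j := by
  have h : M * M - M.trace • M + M.det • (1 : Matrix (Fin 2) (Fin 2) R) = 0 := by
    have := mul_trace_sub_self M
    rw [mul_sub, mul_smul_comm, mul_one] at this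
    rw [← this]
    abel
  induction j using Nat.twoStepInduction with
  | zero =>
    rw [pow_zero, powTr_zero, Matrix.trace_one, Fintype.card_fin]
    norm_num
  | one => rw [pow_one, powTr_one]
  | more j h1 h2 =>
    rw [pow_rec_of_CH M _ _ h, Matrix.trace_sub, Matrix.trace_smul, Matrix.trace_smul, h1, h2,
      powTr_add_two, smul_eq_mul, smul_eq_mul]

/-- Cayley–Hamilton for a power, in the shape used for `𝒲`. -/
theorem CH_of_pow {R : Type*} [CommRing R] {W : Type*} [AddCommGroup W] [Module R W]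
    (Φ Φ' : Module.End R W) (M M' : Matrix (Fin 2) (Fin 2) R) (j : ℕ) (hM : M' = M ^ j)
    (hΦ' : Φ' = Φ ^ j)
    (hES : Φ * Φ - M.trace • Φ + M.det • (1 : Module.End R W) = 0) :
    Φ' * Φ' - M'.trace • Φ' + M'.det • (1 : Module.End R W) = 0 := by
  subst hM hΦ'
  rw [matrix_trace_pow, Matrix.det_pow]
  exact pow_CH Φ _ _ hES j

/-- the quadratic relation with the coefficients renamed. -/
theorem CH_of_eq {R : Type*} [CommRing R] {W : Type*} [AddCommGroup W] [Module R W]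
    (Φ : Module.End R W) {t t' d d' : R} (ht : t' = t) (hd : d' = d)
    (h : Φ * Φ - t • Φ + d • (1 : Module.End R W) = 0) :
    Φ * Φ - t' • Φ + d' • (1 : Module.End R W) = 0 := by
  subst ht hd
  exact h

end PowId

/-! ### Chebotarev -/

section Cheb

variable {N p : ℕ} [NeZero N] (k : ℕ) {R : Type} [CommRing R] {good : Nat.Primes → Prop}
  {a : Nat.Primes → R} {D : Type} [AddCommGroup D] [Module R D]

/-- an element fixing the points of `J[m]` acts trivially on `𝒲` -/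
theorem actW_eq_one_of_fixes {m : ℕ} {τ : GQ}
    (hτ : ∀ x : JZero N, x ∈ tors N (m : ℤ) → τ • x = x) : actW N m good a D τ = 1 := by
  apply LinearMap.ext
  intro h
  apply eigHom_ext
  intro f
  exact hτ _ (eigHom_apply_mem h f)

/-- **Eichler–Shimura on `𝒲`** -/
theorem actW_frob (LD : LocalData N p) {ℓ : ℕ} (hℓ : ℓ.Prime) (hg : good ⟨ℓ, hℓ⟩)
    (hℓNp : ¬ ℓ ∣ N * p) {A : ValuationSubring Qb} (hA : A.LiesOverPrime ℓ) {φ : GQ}
    (hφ : A.IsFrobeniusAt φ ℓ) :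
    actW N (p ^ k) good a D φ * actW N (p ^ k) good a D φ -
      a ⟨ℓ, hℓ⟩ • actW N (p ^ k) good a D φ +
      (ℓ : R) • (1 : Module.End R (WW N (p ^ k) good a D)) = 0 := by
  apply LinearMap.ext
  intro h
  apply eigHom_ext
  intro f
  have hx : (h : D →+ JZero N) f ∈ Tors N (p ^ k) := eigHom_apply_mem h f
  have key := LD.frob ℓ hℓ hℓNp A hA φ hφ k _ hx
  show φ • φ • (h : D →+ JZero N) f - φ • (h : D →+ JZero N) (a ⟨ℓ, hℓ⟩ • f) +
    (h : D →+ JZero N) ((ℓ : R) • f) = 0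
  rw [← eigHom_hecke h ⟨⟨ℓ, hℓ⟩, hg⟩ f, HT_apply, ← GH.heckeOperatorBar_galois,
    Nat.cast_smul_eq_nsmul, map_nsmul, ← natCast_zsmul]
  exact key

variable (LD : LocalData N p) (ρ : GQ →* Matrix (Fin 2) (Fin 2) R)
  (hfl : ∃ L : IntermediateField ℚ Qb, FiniteDimensional ℚ L ∧
    ∀ σ : GQ, (∀ x ∈ L, σ x = x) → ρ σ = 1)
  (S₀ : Finset ℕ) (hS₀ : ∀ (ℓ : ℕ) (hℓ : ℓ.Prime), ℓ ∉ S₀ → good ⟨ℓ, hℓ⟩ ∧ ¬ ℓ ∣ N * p)
  (hfrob : ∀ (ℓ : ℕ) (hℓ : ℓ.Prime), ℓ ∉ S₀ → ∀ A : ValuationSubring Qb, A.LiesOverPrime ℓ →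
    ∀ φ : GQ, A.IsFrobeniusAt φ ℓ → (ρ φ).trace = a ⟨ℓ, hℓ⟩ ∧ (ρ φ).det = (ℓ : R))

include LD hfl in
/-- weak Chebotarev in the shape used below: every `σ` is `φ ^ j` up to an element `τ` fixing a given
finite level `L'`, the level of `ρ` and `J[p^k]`. -/
theorem exists_frob_pow (L' : IntermediateField ℚ Qb) (hL' : FiniteDimensional ℚ L') (σ : GQ) :
    ∃ (ℓ : ℕ) (A : ValuationSubring Qb) (φ : GQ) (j : ℕ) (τ : GQ), ℓ.Prime ∧ ℓ ∉ S₀ ∧
      A.LiesOverPrime ℓ ∧ A.IsFrobeniusAt φ ℓ ∧ φ ^ j = σ * τ ∧ ρ τ = 1 ∧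
      (∀ x : JZero N, x ∈ Tors N (p ^ k) → τ • x = x) ∧ ∀ x ∈ L', τ x = x := by
  obtain ⟨L₁, hL₁fd, hL₁⟩ := LD.finiteLevel k
  obtain ⟨L₂, hL₂fd, hL₂⟩ := hfl
  haveI := hL₁fd
  haveI := hL₂fd
  haveI := hL'
  haveI : FiniteDimensional ℚ (L₁ ⊔ L₂ : IntermediateField ℚ Qb) :=
    IntermediateField.finiteDimensional_sup L₁ L₂
  haveI : FiniteDimensional ℚ ((L₁ ⊔ L₂) ⊔ L' : IntermediateField ℚ Qb) :=
    IntermediateField.finiteDimensional_sup (L₁ ⊔ L₂) L'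
  obtain ⟨ℓ, A, φ, j, hℓ, hℓS, hA, hφ, hσ⟩ :=
    Fermat.Agent.S31lib.WC.brickWC S₀ ((L₁ ⊔ L₂) ⊔ L') inferInstance σ
  have hτ : ∀ x ∈ ((L₁ ⊔ L₂) ⊔ L' : IntermediateField ℚ Qb), (σ⁻¹ * φ ^ j) x = x := by
    intro x hx
    rw [AlgEquiv.mul_apply, hσ x hx]
    exact σ.symm_apply_apply x
  refine ⟨ℓ, A, φ, j, σ⁻¹ * φ ^ j, hℓ, hℓS, hA, hφ, (mul_inv_cancel_left σ _).symm, ?_, ?_, ?_⟩
  · exact hL₂ _ fun x hx => hτ x ((le_sup_right.trans le_sup_left : L₂ ≤ (L₁ ⊔ L₂) ⊔ L') hx)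
  · exact fun x hx => hL₁ _
      (fun y hy => hτ y ((le_sup_left.trans le_sup_left : L₁ ≤ (L₁ ⊔ L₂) ⊔ L') hy)) x hx
  · exact fun x hx => hτ x ((le_sup_right : L' ≤ (L₁ ⊔ L₂) ⊔ L') hx)

include LD hfl hS₀ hfrob in
/-- **Cayley–Hamilton on `𝒲` for every `σ ∈ G_ℚ`** -/
theorem actW_CH (σ : GQ) :
    actW N (p ^ k) good a D σ * actW N (p ^ k) good a D σ -
      (ρ σ).trace • actW N (p ^ k) good a D σ +
      (ρ σ).det • (1 : Module.End R (WW N (p ^ k) good a D)) = 0 := by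
  have H0 := LD.finiteLevel k
  obtain ⟨L', hL', -⟩ := H0
  have H := exists_frob_pow k LD ρ hfl S₀ L' hL' σ
  obtain ⟨ℓ, A, φ, j, τ, hℓ, hℓS, hA, hφ, hστ, hρτ, hτJ, -⟩ := H
  have hg := (hS₀ ℓ hℓ hℓS).1
  have hℓNp := (hS₀ ℓ hℓ hℓS).2
  have htr := (hfrob ℓ hℓ hℓS A hA φ hφ).1
  have hdet := (hfrob ℓ hℓ hℓS A hA φ hφ).2
  have h1 : ρ σ = ρ φ ^ j :=
    calc ρ σ = ρ σ * ρ τ := by rw [hρτ, mul_one]
      _ = ρ (σ * τ) := (ρ.map_mul σ τ).symm
      _ = ρ (φ ^ j) := congrArg ρ hστ.symm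
      _ = ρ φ ^ j := ρ.map_pow φ j
  have h3 : actW N (p ^ k) good a D τ = 1 := actW_eq_one_of_fixes (m := p ^ k) hτJ
  have h2 : actW N (p ^ k) good a D σ = actW N (p ^ k) good a D φ ^ j :=
    calc actW N (p ^ k) good a D σ
        = actW N (p ^ k) good a D σ * 1 := (mul_one _).symm
      _ = actW N (p ^ k) good a D σ * actW N (p ^ k) good a D τ := congrArg _ h3.symm
      _ = actW N (p ^ k) good a D (σ * τ) := ((actW N (p ^ k) good a D).map_mul σ τ).symm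
      _ = actW N (p ^ k) good a D (φ ^ j) := congrArg (actW N (p ^ k) good a D) hστ.symm
      _ = actW N (p ^ k) good a D φ ^ j := (actW N (p ^ k) good a D).map_pow φ j
  have hES := CH_of_eq _ htr hdet (actW_frob (a := a) (D := D) k LD hℓ hg hℓNp hA hφ)
  exact CH_of_pow _ _ _ _ j h1 h2 hES


/-! ### the determinant -/

theorem natCast_eq_of_modEq {R : Type*} [Ring R] {n a b : ℕ} (h : a ≡ b [MOD n])
    (hn : (n : R) = 0) : (a : R) = (b : R) := by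
  obtain ⟨c, hc⟩ := Nat.modEq_iff_dvd.mp h
  have h1 := congrArg (Int.cast : ℤ → R) hc
  push_cast at h1
  rw [hn, zero_mul, sub_eq_zero] at h1
  exact h1.symm

include LD hfl hS₀ hfrob in
/-- **`det ρ(φ) = q` for a Frobenius element at any prime `q ≠ p`**, if `p^k = 0` in `R`. -/
theorem det_eq_of_isFrobeniusAt [hpf : Fact p.Prime] (hR : ((p ^ k : ℕ) : R) = 0) {q : ℕ}
    (hq : q.Prime) (hqp : q ≠ p) {A : ValuationSubring Qb} (hA : A.LiesOverPrime q) {φq : GQ}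
    (hφq : A.IsFrobeniusAt φq q) : (ρ φq).det = (q : R) := by
  have H := exists_frob_pow k LD ρ hfl S₀ (S30.cycloFieldPow p k) inferInstance φq
  obtain ⟨ℓ, A', φ, j, τ, hℓ, hℓS, hA', hφ, hστ, hρτ, -, hτc⟩ := H
  have hℓNp := (hS₀ ℓ hℓ hℓS).2
  have hdet := (hfrob ℓ hℓ hℓS A' hA' φ hφ).2
  have hℓp : ℓ ≠ p := by
    rintro rfl
    exact hℓNp (Dvd.intro_left N rfl)
  -- the determinant is `ℓ ^ j`
  have h1 : (ρ φq).det = ((ℓ ^ j : ℕ) : R) := by
    have e : ρ φq = ρ φ ^ j :=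
      calc ρ φq = ρ φq * ρ τ := by rw [hρτ, mul_one]
        _ = ρ (φq * τ) := (ρ.map_mul φq τ).symm
        _ = ρ (φ ^ j) := congrArg ρ hστ.symm
        _ = ρ φ ^ j := ρ.map_pow φ j
    rw [e, Matrix.det_pow, hdet, Nat.cast_pow]
  -- the cyclotomic character
  have c1 := S30.toZModPow_chiZp_of_isFrobeniusAt hℓ hℓp hA' hφ k
  have c2 := S30.toZModPow_chiZp_of_isFrobeniusAt hq hqp hA hφq k
  have c3 := S30.toZModPow_chiZp_of_fixes (p := p) (n := k) hτc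
  have c4 : ((ℓ ^ j : ℕ) : ZMod (p ^ k)) = ((q : ℕ) : ZMod (p ^ k)) := by
    have e := congrArg (fun σ : GQ => PadicInt.toZModPow k ((S30.chiZp p σ : ℤ_[p]ˣ) : ℤ_[p])) hστ
    simp only [map_pow, map_mul, Units.val_pow_eq_pow_val, Units.val_mul, c1, c2, c3, mul_one] at e
    rw [Nat.cast_pow]
    exact e
  have c5 : ℓ ^ j ≡ q [MOD p ^ k] := (ZMod.natCast_eq_natCast_iff _ _ _).mp c4
  rw [h1]
  exact natCast_eq_of_modEq c5 hR

end Cheb

end Fermat.Agent.S43lib.B0.EndBlock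

end
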