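/-
S43lib / B0 / End / Sep  (helper6)  — Project H, block END (`readout`).

SEPARATION: `ℤ/m` cogenerates the abelian groups killed by `m`.

**`exists_hom_zmod_apply_ne_zero`** : `G` an abelian group with `m • G = 0` (`m > 0`), `x ≠ 0` in `G`
⟹ there is an additive `f : G → ℤ/m` with `f x ≠ 0`.  (Mathlib's character module
`Hom(G, ℚ/ℤ)` separates points; the `m`-torsion of `ℚ/ℤ` is the image of `ℤ/m`.)
-/
import Mathlib

set_option autoImplicit false

noncomputable section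

namespace Fermat.Agent.S43lib.B0.EndBlock

/-- `ℤ → ℚ/ℤ`, `z ↦ z/m` -/
def divHom (m : ℕ) : ℤ →+ AddCircle (1 : ℚ) where
  toFun z := (((z : ℚ) / (m : ℚ) : ℚ) : AddCircle (1 : ℚ))
  map_zero' := by simp
  map_add' x y := by
    rw [← AddCircle.coe_add]
    congr 1
    push_cast
    ring

theorem divHom_apply (m : ℕ) (z : ℤ) :
    divHom m z = (((z : ℚ) / (m : ℚ) : ℚ) : AddCircle (1 : ℚ)) := rfl

theorem divHom_self {m : ℕ} (hm : 0 < m) : divHom m (m : ℤ) = 0 := by
  have hm' : (m : ℚ) ≠ 0 := by exact_mod_cast hm.ne'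
  rw [divHom_apply, Int.cast_natCast, div_self hm']
  exact AddCircle.coe_period 1

/-- `ℤ/m → ℚ/ℤ` -/
def zmodToCircle {m : ℕ} (hm : 0 < m) : ZMod m →+ AddCircle (1 : ℚ) :=
  ZMod.lift m ⟨divHom m, divHom_self hm⟩

theorem zmodToCircle_injective {m : ℕ} (hm : 0 < m) : Function.Injective (zmodToCircle hm) := by
  have hm' : (m : ℚ) ≠ 0 := by exact_mod_cast hm.ne'
  rw [zmodToCircle, ZMod.lift_injective]
  intro z hz
  change divHom m z = 0 at hz
  rw [divHom_apply, AddCircle.coe_eq_zero_iff] at hz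
  obtain ⟨n, hn⟩ := hz
  rw [zsmul_eq_mul, mul_one, eq_div_iff hm'] at hn
  have h1 : n * (m : ℤ) = z := by exact_mod_cast hn
  rw [← h1]
  simp

theorem mem_range_zmodToCircle {m : ℕ} (hm : 0 < m) (u : AddCircle (1 : ℚ)) (hu : m • u = 0) :
    u ∈ (zmodToCircle hm).range := by
  have hm' : (m : ℚ) ≠ 0 := by exact_mod_cast hm.ne'
  obtain ⟨r, rfl⟩ := QuotientAddGroup.mk_surjective u
  change m • ((r : ℚ) : AddCircle (1 : ℚ)) = 0 at hu
  rw [← AddCircle.coe_nsmul, AddCircle.coe_eq_zero_iff] at hu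
  obtain ⟨n, hn⟩ := hu
  rw [zsmul_eq_mul, mul_one, nsmul_eq_mul] at hn
  refine ⟨(n : ZMod m), ?_⟩
  rw [zmodToCircle, ZMod.lift_coe]
  change divHom m n = _
  rw [divHom_apply]
  congr 1
  rw [div_eq_iff hm', hn, mul_comm]

/-- **`ℤ/m` separates the points of an abelian group killed by `m`.** -/
theorem exists_hom_zmod_apply_ne_zero {G : Type*} [AddCommGroup G] (m : ℕ) (hm : 0 < m)
    (hG : ∀ y : G, m • y = 0) {x : G} (hx : x ≠ 0) : ∃ f : G →+ ZMod m, f x ≠ 0 := by
  obtain ⟨c, hc⟩ := CharacterModule.exists_character_apply_ne_zero_of_ne_zero hx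
  have hrange : ∀ y : G, (c : G →+ AddCircle (1 : ℚ)) y ∈ (zmodToCircle hm).range := by
    intro y
    apply mem_range_zmodToCircle hm
    rw [← map_nsmul, hG, map_zero]
  let e := AddMonoidHom.ofInjective (zmodToCircle_injective hm)
  let f : G →+ ZMod m :=
    e.symm.toAddMonoidHom.comp ((c : G →+ AddCircle (1 : ℚ)).codRestrict _ hrange)
  refine ⟨f, fun hf => hc ?_⟩
  have h1 : (c : G →+ AddCircle (1 : ℚ)).codRestrict _ hrange x = 0 := by
    have : e.symm ((c : G →+ AddCircle (1 : ℚ)).codRestrict _ hrange x) = 0 := hf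
    exact (AddEquiv.map_eq_zero_iff e.symm).1 this
  exact congrArg Subtype.val h1

end Fermat.Agent.S43lib.B0.EndBlock

end
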