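/-
S43lib / B0 / End / Faith  (helper6)  — Project H, block END (`readout`).

FAITHFULNESS OF `𝒲 = Hom(R^∨, J₀(N)[p^k])^χ`.

* `Dl R m = Hom(R, ℤ/m)` as an `R`-module, `(c • f) x = f (c x)`;
* for a Kummer comparison `C : ComparisonData N p` and `v ∈ R^r` with `t_ℓ v = a_ℓ v` at the good primes:
  `hv C k v : Dl R (p^k) →+ J₀(N)`, `f ↦ κ_k⁻¹ (f ∘ v)`, lies in `𝒲` (`hv_mem`);
* **`faithful_of_primitive`** : if `p^k = 0` in `R` and some `v i` is a unit, then `𝒲` is a faithful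
  `R`-module (in the form used by `Core.exists_abelian_eigenclass`).
-/
import Fermat.Agent.S43lib.B0.End.Core
import Fermat.Agent.S43lib.B0.End.Sep
import Fermat.Agent.S29lib.Interface.Basic

set_option autoImplicit false
set_option linter.unusedSectionVars false
set_option linter.style.haveILetI false

noncomputable section

namespace Fermat.Agent.S43lib.B0.EndBlock

open Matrix ModularCurve Fermat.Agent.S19lib Fermat.Agent.S44lib Fermat.Agent.S29lib

local notation "Qb" => AlgebraicClosure ℚ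
local notation "GQ" => (AlgebraicClosure ℚ ≃ₐ[ℚ] AlgebraicClosure ℚ)

/-- **the dual `R^∨ = Hom(R, ℤ/m)`** -/
def Dl (R : Type) [CommRing R] (m : ℕ) : Type := R →+ ZMod m

namespace Dl

variable {R : Type} [CommRing R] {m : ℕ}

instance : AddCommGroup (Dl R m) := inferInstanceAs (AddCommGroup (R →+ ZMod m))

/-- evaluation -/
def ev (f : Dl R m) : R →+ ZMod m := f

/-- the element of the dual given by an additive map -/
def of (f : R →+ ZMod m) : Dl R m := f

@[simp] theorem ev_of (f : R →+ ZMod m) : (of f).ev = f := rfl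

@[ext] theorem ext {f g : Dl R m} (h : ∀ x, f.ev x = g.ev x) : f = g := AddMonoidHom.ext h

@[simp] theorem add_ev (f g : Dl R m) (x : R) : (f + g).ev x = f.ev x + g.ev x := rfl

@[simp] theorem zero_ev (x : R) : (0 : Dl R m).ev x = 0 := rfl

instance : SMul R (Dl R m) := ⟨fun c f => f.ev.comp (AddMonoidHom.mulLeft c)⟩

@[simp] theorem smul_ev (c : R) (f : Dl R m) (x : R) : (c • f).ev x = f.ev (c * x) := rfl

instance : Module R (Dl R m) :=
  Module.ofMinimalAxioms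
    (fun c f g => Dl.ext fun x => rfl)
    (fun c c' f => Dl.ext fun x => by rw [smul_ev, add_ev, smul_ev, smul_ev, add_mul, map_add])
    (fun c c' f => Dl.ext fun x => by rw [smul_ev, smul_ev, smul_ev, mul_comm c c', mul_assoc])
    (fun f => Dl.ext fun x => by rw [smul_ev, one_mul])

end Dl

section Faith

variable {N p : ℕ} [NeZero N] (C : ComparisonData N p) (k : ℕ) {R : Type} [CommRing R]
  (v : Fin C.r → R)

/-- `h_v : f ↦ κ_k⁻¹ (f ∘ v)` -/
def hv : Dl R (p ^ k) →+ JZero N where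
  toFun f := (((C.κ k).symm fun i => f.ev (v i) : Tors N (p ^ k)) : JZero N)
  map_zero' := by
    have : (fun i => (0 : Dl R (p ^ k)).ev (v i)) = (0 : Fin C.r → ZMod (p ^ k)) := rfl
    rw [this, map_zero]
    rfl
  map_add' f g := by
    have : (fun i => (f + g).ev (v i)) =
        (fun i => f.ev (v i)) + (fun i => g.ev (v i)) := rfl
    rw [this, map_add]
    rfl

theorem hv_apply (f : Dl R (p ^ k)) :
    hv C k v f = (((C.κ k).symm fun i => f.ev (v i) : Tors N (p ^ k)) : JZero N) := rfl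

theorem hv_mem_tors (f : Dl R (p ^ k)) : hv C k v f ∈ tors N ((p ^ k : ℕ) : ℤ) :=
  ((C.κ k).symm fun i => f.ev (v i)).2

/-- an additive map commutes with integer matrices -/
theorem ev_mulVec (f : Dl R (p ^ k)) (t : Matrix (Fin C.r) (Fin C.r) ℤ) (i : Fin C.r) :
    f.ev ((t.map (Int.cast : ℤ → R)).mulVec v i) =
      (t.map (Int.cast : ℤ → ZMod (p ^ k))).mulVec (fun j => f.ev (v j)) i := by
  rw [Matrix.mulVec, Matrix.mulVec, dotProduct, dotProduct, map_sum]
  refine Finset.sum_congr rfl fun j _ => ?_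
  rw [Matrix.map_apply, Matrix.map_apply, ← zsmul_eq_mul, map_zsmul, zsmul_eq_mul]

variable {good : Nat.Primes → Prop} {a : Nat.Primes → R}

/-- `h_v` is Hecke-eigen -/
theorem hv_hecke (ℓ : Nat.Primes) (hℓN : ¬ (ℓ : ℕ) ∣ N)
    (heig : ((C.t ℓ).map (Int.cast : ℤ → R)).mulVec v = a ℓ • v) (f : Dl R (p ^ k)) :
    heckeOperatorBar N ℓ (hv C k v f) = hv C k v (a ℓ • f) := by
  have h1 := C.κ_hecke k ℓ ((C.κ k).symm fun i => f.ev (v i))
  rw [AddEquiv.apply_symm_apply] at h1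
  have h2 : ((C.t ℓ).map (Int.cast : ℤ → ZMod (p ^ k))).mulVec (fun j => f.ev (v j)) =
      fun i => (a ℓ • f).ev (v i) := by
    funext i
    rw [← ev_mulVec, heig, Dl.smul_ev]
    rfl
  rw [h2] at h1
  have h3 := congrArg (fun y => (((C.κ k).symm y : Tors N (p ^ k)) : JZero N)) h1
  simp only [AddEquiv.symm_apply_apply] at h3
  rw [hv_apply, hv_apply, ← h3, C.TJ_good ℓ hℓN]

/-- **`h_v ∈ 𝒲`** -/
theorem hv_mem (hgood : ∀ ℓ, good ℓ → ¬ (ℓ : ℕ) ∣ N)
    (heig : ∀ ℓ, good ℓ → ((C.t ℓ).map (Int.cast : ℤ → R)).mulVec v = a ℓ • v) :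
    hv C k v ∈ WW N (p ^ k) good a (Dl R (p ^ k)) :=
  ⟨hv_mem_tors C k v, fun i f => hv_hecke C k v i.1 (hgood i.1 i.2) (heig i.1 i.2) f⟩

/-- **faithfulness** -/
theorem faithful_of_primitive (hp : 0 < p) (hR : ((p ^ k : ℕ) : R) = 0)
    (hgood : ∀ ℓ, good ℓ → ¬ (ℓ : ℕ) ∣ N)
    (heig : ∀ ℓ, good ℓ → ((C.t ℓ).map (Int.cast : ℤ → R)).mulVec v = a ℓ • v)
    (i₀ : Fin C.r) (hunit : IsUnit (v i₀)) (c : R)
    (hc : ∀ (h : WW N (p ^ k) good a (Dl R (p ^ k))) (f : Dl R (p ^ k)),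
      (h : Dl R (p ^ k) →+ JZero N) (c • f) = 0) : c = 0 := by
  by_contra hc0
  have hcv : c * v i₀ ≠ 0 := fun h => hc0 (by
    obtain ⟨u, hu⟩ := hunit
    rw [← hu] at h
    exact (Units.mul_left_eq_zero u).1 h)
  have hkill : ∀ y : R, (p ^ k) • y = 0 := fun y => by rw [nsmul_eq_mul, hR, zero_mul]
  obtain ⟨f, hf⟩ := exists_hom_zmod_apply_ne_zero (p ^ k) (pow_pos hp k) hkill hcv
  have h1 := hc ⟨hv C k v, hv_mem C k v hgood heig⟩ (Dl.of f)
  have h2 : ((C.κ k).symm fun i => (c • Dl.of f).ev (v i) : Tors N (p ^ k)) = 0 :=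
    Subtype.ext h1
  rw [AddEquiv.map_eq_zero_iff] at h2
  have h3 := congrFun h2 i₀
  exact hf h3

end Faith

end Fermat.Agent.S43lib.B0.EndBlock

end
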