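/-
S43lib / B0 / End / MatMod (helper1, brick (E3a) for helper6's END block).

For `ρ : GaloisRepAdic A` (`A` local), a basis `b` of `ρ.V` and an ideal `I` of `A`:
* `matMod ρ b I : Γℚ →* M₂(A ⧸ I)` : the matrix function of `ρ` reduced modulo `I`;
* `span_range_matMod_eq_top`        : if the `ρ(σ)` span `End_A(V)`, the `matMod σ` span `M₂(A ⧸ I)`;
* `matMod_trace_det_of_charpoly`    : trace / determinant of `matMod σ` from the characteristic
  polynomial of `ρ(σ)`;
* `matMod_eq_one_of_rho_eq_one`;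
* `exists_finiteLevel_matMod`       : if `𝔪ⁿ ≤ I` then `matMod` factors through a finite level;
* `exists_pow_le_span_natCast_pow`  : in a DVR of characteristic zero, `𝔪ⁿ ≤ (p^k)` for some `n`.
-/
import Mathlib
import Fermat.Agent.TeamA.MatRep

set_option autoImplicit false
set_option linter.style.haveILetI false
set_option linter.unusedSectionVars false

namespace Fermat.Agent.S43lib.B0.EndBlock

open IsLocalRing Polynomial Fermat.Agent.TeamA.Rep

local notation "GQ" => (AlgebraicClosure ℚ ≃ₐ[ℚ] AlgebraicClosure ℚ)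
local notation "Qb" => AlgebraicClosure ℚ

section MatMod

variable {A : Type} [CommRing A] [IsLocalRing A]

/-- The matrix function of `ρ` in the basis `b`, reduced modulo `I`. -/
noncomputable def matMod (ρ : GaloisRepAdic A) (b : Module.Basis (Fin 2) A ρ.V) (I : Ideal A) :
    GQ →* Matrix (Fin 2) (Fin 2) (A ⧸ I) :=
  (RingHom.mapMatrix (Ideal.Quotient.mk I)).toMonoidHom.comp (matOfHom ρ b)

theorem matMod_apply (ρ : GaloisRepAdic A) (b : Module.Basis (Fin 2) A ρ.V) (I : Ideal A)
    (σ : GQ) : matMod ρ b I σ = (matOf ρ b σ).map (Ideal.Quotient.mk I) := rfl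

theorem matMod_apply_apply (ρ : GaloisRepAdic A) (b : Module.Basis (Fin 2) A ρ.V) (I : Ideal A)
    (σ : GQ) (i j : Fin 2) : matMod ρ b I σ i j = Ideal.Quotient.mk I (matOf ρ b σ i j) := rfl

/-- Every matrix over `A ⧸ I` is the reduction of a matrix over `A`. -/
theorem exists_map_mk_eq (I : Ideal A) (M : Matrix (Fin 2) (Fin 2) (A ⧸ I)) :
    ∃ N : Matrix (Fin 2) (Fin 2) A, N.map (Ideal.Quotient.mk I) = M := by
  choose f hf using fun i j => Ideal.Quotient.mk_surjective (M i j)
  exact ⟨Matrix.of f, by ext i j; exact hf i j⟩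

/-- If the operators `ρ(σ)` span `End_A(V)`, the matrices `matOf ρ b σ` span `M₂(A)`. -/
theorem span_range_matOf_eq_top_of_span (ρ : GaloisRepAdic A) (b : Module.Basis (Fin 2) A ρ.V)
    (hspan : Submodule.span A (Set.range ρ.ρ) = (⊤ : Submodule A (Module.End A ρ.V))) :
    Submodule.span A (Set.range (matOf ρ b)) = ⊤ := by
  have h2 : Set.range (matOf ρ b) =
      (((LinearMap.toMatrix b b : Module.End A ρ.V ≃ₗ[A] Matrix (Fin 2) (Fin 2) A) :
        Module.End A ρ.V →ₗ[A] Matrix (Fin 2) (Fin 2) A)) '' Set.range ρ.ρ := by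
    ext W
    constructor
    · rintro ⟨g, rfl⟩
      exact ⟨ρ.ρ g, ⟨g, rfl⟩, rfl⟩
    · rintro ⟨_, ⟨g, rfl⟩, rfl⟩
      exact ⟨g, rfl⟩
  rw [h2, ← Submodule.map_span, hspan, Submodule.map_top, LinearMap.range_eq_top]
  exact (LinearMap.toMatrix b b).surjective

/-- If the operators `ρ(σ)` span `End_A(V)`, the matrices `matMod ρ b I σ` span `M₂(A ⧸ I)`. -/
theorem span_range_matMod_eq_top (ρ : GaloisRepAdic A) (b : Module.Basis (Fin 2) A ρ.V)
    (I : Ideal A)
    (hspan : Submodule.span A (Set.range ρ.ρ) = (⊤ : Submodule A (Module.End A ρ.V))) :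
    Submodule.span (A ⧸ I) (Set.range (matMod ρ b I)) = ⊤ := by
  have h1 := span_range_matOf_eq_top_of_span ρ b hspan
  rw [eq_top_iff]
  intro M _
  obtain ⟨N, rfl⟩ := exists_map_mk_eq I M
  have hN : N ∈ Submodule.span A (Set.range (matOf ρ b)) := by rw [h1]; exact Submodule.mem_top
  refine Submodule.span_induction (p := fun N _ => N.map (Ideal.Quotient.mk I) ∈
    Submodule.span (A ⧸ I) (Set.range (matMod ρ b I))) ?_ ?_ ?_ ?_ hN
  · rintro _ ⟨σ, rfl⟩
    exact Submodule.subset_span ⟨σ, rfl⟩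
  · have : (0 : Matrix (Fin 2) (Fin 2) A).map (Ideal.Quotient.mk I) = 0 := by
      ext i j; simp
    rw [this]
    exact Submodule.zero_mem _
  · intro x y _ _ hx hy
    have : (x + y).map (Ideal.Quotient.mk I) =
        x.map (Ideal.Quotient.mk I) + y.map (Ideal.Quotient.mk I) := by
      ext i j; simp
    rw [this]
    exact Submodule.add_mem _ hx hy
  · intro a x _ hx
    have : (a • x).map (Ideal.Quotient.mk I) =
        Ideal.Quotient.mk I a • x.map (Ideal.Quotient.mk I) := by
      ext i j; simp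
    rw [this]
    exact Submodule.smul_mem _ _ hx

/-- Trace and determinant of `matMod σ` from the characteristic polynomial of `ρ(σ)`. -/
theorem matMod_trace_det_of_charpoly (ρ : GaloisRepAdic A) (b : Module.Basis (Fin 2) A ρ.V)
    (I : Ideal A) {σ : GQ} {t d : A}
    (h : LinearMap.charpoly (ρ.ρ σ) = X ^ 2 - C t * X + C d) :
    (matMod ρ b I σ).trace = Ideal.Quotient.mk I t ∧
      (matMod ρ b I σ).det = Ideal.Quotient.mk I d := by
  have hcp : (matOf ρ b σ).charpoly = X ^ 2 - C t * X + C d := by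
    rw [← h]
    exact (LinearMap.charpoly_toMatrix (ρ.ρ σ) b)
  have h2 := Matrix.charpoly_fin_two (matOf ρ b σ)
  rw [hcp] at h2
  have ht : t = (matOf ρ b σ).trace := by
    have := congrArg (fun q : A[X] => q.coeff 1) h2
    simp only [coeff_add, coeff_sub, coeff_X_pow, coeff_C_mul, coeff_C, coeff_X] at this
    norm_num at this
    exact this
  have hd : d = (matOf ρ b σ).det := by
    have := congrArg (fun q : A[X] => q.coeff 0) h2
    simp only [coeff_add, coeff_sub, coeff_X_pow, coeff_C_mul, coeff_C, coeff_X] at this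
    norm_num at this
    exact this
  constructor
  · rw [ht, matMod_apply, Matrix.trace_fin_two, Matrix.trace_fin_two]
    simp
  · rw [hd, matMod_apply, Matrix.det_fin_two, Matrix.det_fin_two]
    simp

theorem matMod_eq_one_of_rho_eq_one (ρ : GaloisRepAdic A) (b : Module.Basis (Fin 2) A ρ.V)
    (I : Ideal A) {σ : GQ} (h : ρ.ρ σ = 1) : matMod ρ b I σ = 1 := by
  have h1 : matOf ρ b σ = 1 := by
    unfold matOf
    rw [h]
    exact LinearMap.toMatrix_one b
  rw [matMod_apply, h1]
  ext i j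
  by_cases hij : i = j <;> simp [Matrix.one_apply, hij]

/-- If `𝔪ⁿ ≤ I`, the reduced matrix function is trivial on an open subgroup. -/
theorem exists_finiteLevel_matMod (ρ : GaloisRepAdic A) (b : Module.Basis (Fin 2) A ρ.V)
    (I : Ideal A) {n : ℕ} (hn : IsLocalRing.maximalIdeal A ^ n ≤ I) :
    ∃ L : IntermediateField ℚ Qb, FiniteDimensional ℚ L ∧
      ∀ σ : GQ, (∀ x ∈ L, σ x = x) → matMod ρ b I σ = 1 := by
  obtain ⟨L, hL, h⟩ := matCont_matOf ρ b n
  refine ⟨L, hL, fun σ hσ => ?_⟩
  ext i j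
  have h1 : (matOf ρ b σ - 1) i j ∈ I := hn (h σ hσ i j)
  rw [matMod_apply_apply]
  have h2 : Ideal.Quotient.mk I ((matOf ρ b σ - 1) i j) = 0 :=
    Ideal.Quotient.eq_zero_iff_mem.mpr h1
  rw [Matrix.sub_apply, map_sub, sub_eq_zero] at h2
  rw [h2]
  by_cases hij : i = j <;> simp [Matrix.one_apply, hij]

end MatMod

section DVR

/-- In a discrete valuation ring of characteristic zero, `(p^k)` contains a power of `𝔪`. -/
theorem exists_pow_le_span_natCast_pow {A : Type} [CommRing A] [IsLocalRing A] [IsDomain A]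
    [IsDiscreteValuationRing A] [CharZero A] (p k : ℕ) (hp : p ≠ 0) :
    ∃ n : ℕ, IsLocalRing.maximalIdeal A ^ n ≤ Ideal.span {((p : A)) ^ k} := by
  have hne : ((p : A)) ^ k ≠ 0 := pow_ne_zero _ (Nat.cast_ne_zero.mpr hp)
  have hI : Ideal.span {((p : A)) ^ k} ≠ ⊥ := by
    rw [Ne, Ideal.span_singleton_eq_bot]
    exact hne
  obtain ⟨n, hn⟩ := IsDiscreteValuationRing.ideal_eq_span_pow_irreducible hI
    (IsDiscreteValuationRing.exists_irreducible A).choose_spec
  refine ⟨n, ?_⟩
  rw [hn, (IsDiscreteValuationRing.irreducible_iff_uniformizer _).mp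
    (IsDiscreteValuationRing.exists_irreducible A).choose_spec, Ideal.span_singleton_pow]

end DVR

end Fermat.Agent.S43lib.B0.EndBlock
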