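/-
S43lib / B0 / End / PrimEigen (helper1, brick (E4a) for helper6's END block).

`exists_primitive_eigenvector`: for a `ComparisonData` with eigen-inputs for all normalised
eigenforms and a character `χ` of the Hecke algebra away from `S` with values in a DVR `𝒪'` of
characteristic zero, the lattice `𝒪'^r` contains a PRIMITIVE vector (one coordinate is a unit)
which is an eigenvector of all `t_ℓ` (`ℓ ∤ N`, `ℓ ∉ S`) with eigenvalue `χ(T_ℓ)`.

Route: `S30.exists_eigen_data` gives a finite extension `K₁` of `Frac 𝒪'` in which the FULL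
eigenspace is 2-dimensional; the partial eigenspace (primes `ℓ ∤ N`, `ℓ ∉ S`) contains it; its
dimension descends to `Frac 𝒪'` (`S30.finrank_eigen_transfer`); clear denominators and divide by
the gcd of the coordinates.
-/
import Mathlib
import Fermat.Agent.S29lib.S30.EigenData

set_option autoImplicit false
set_option linter.style.haveILetI false
set_option linter.unusedSectionVars false

namespace Fermat.Agent.S43lib.B0.EndBlock

open Fermat.Agent.S29lib Fermat.Agent.S29lib.S30 Fermat.Agent.S29lib.Dvr Matrix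

/-- A nonzero vector over a DVR is a nonzero scalar times a primitive vector. -/
theorem exists_primitive_of_ne_zero {R : Type*} [CommRing R] [IsDomain R]
    [IsDiscreteValuationRing R] {r : ℕ} (w : Fin r → R) (hw : w ≠ 0) :
    ∃ (c : R) (v : Fin r → R), c ≠ 0 ∧ w = c • v ∧ ∃ i, IsUnit (v i) := by
  classical
  obtain ⟨ϖ, hϖ⟩ := IsDiscreteValuationRing.exists_irreducible R
  have hJ : Ideal.span (Set.range w) ≠ ⊥ := by
    intro h
    apply hw
    funext i
    have : w i ∈ Ideal.span (Set.range w) := Ideal.subset_span ⟨i, rfl⟩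
    rw [h] at this
    exact this
  obtain ⟨n, hn⟩ := IsDiscreteValuationRing.ideal_eq_span_pow_irreducible hJ hϖ
  have hc : ϖ ^ n ≠ 0 := pow_ne_zero _ hϖ.ne_zero
  have hdiv : ∀ i, ∃ a, ϖ ^ n * a = w i := by
    intro i
    have : w i ∈ Ideal.span {ϖ ^ n} := by rw [← hn]; exact Ideal.subset_span ⟨i, rfl⟩
    rw [Ideal.mem_span_singleton'] at this
    obtain ⟨a, ha⟩ := this
    exact ⟨a, by rw [mul_comm]; exact ha⟩
  choose v hv using hdiv
  refine ⟨ϖ ^ n, v, hc, ?_, ?_⟩
  · funext i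
    rw [Pi.smul_apply, smul_eq_mul, hv]
  · have hmem : ϖ ^ n ∈ Ideal.span (Set.range w) := by
      rw [hn]; exact Ideal.mem_span_singleton_self _
    rw [Ideal.mem_span_range_iff_exists_fun] at hmem
    obtain ⟨c, hcs⟩ := hmem
    have h1 : ϖ ^ n * ∑ i, c i * v i = ϖ ^ n * 1 := by
      rw [mul_one, Finset.mul_sum]
      conv_rhs => rw [← hcs]
      refine Finset.sum_congr rfl fun i _ => ?_
      rw [← hv i]; ring
    have h2 : ∑ i, c i * v i = 1 := mul_left_cancel₀ hc h1
    by_contra hnot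
    push Not at hnot
    have h3 : ∑ i, c i * v i ∈ IsLocalRing.maximalIdeal R :=
      Ideal.sum_mem _ fun i _ => Ideal.mul_mem_left _ _ ((IsLocalRing.mem_maximalIdeal _).mpr (hnot i))
    rw [h2] at h3
    exact (IsLocalRing.mem_maximalIdeal _).mp h3 isUnit_one

/-- From a nonzero simultaneous eigenvector over the fraction field to a primitive simultaneous
eigenvector over the DVR. -/
theorem exists_primitive_eigenvector_of_frac {R : Type*} [CommRing R] [IsDomain R]
    [IsDiscreteValuationRing R] {K : Type*} [Field K] [Algebra R K] [IsFractionRing R K]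
    {r : ℕ} {I : Type*} (t : I → Matrix (Fin r) (Fin r) ℤ) (b : I → R)
    (w : Fin r → K) (hw : w ≠ 0)
    (h : ∀ i, ((t i).map (Int.cast : ℤ → K)).mulVec w = algebraMap R K (b i) • w) :
    ∃ v : Fin r → R, (∃ i, IsUnit (v i)) ∧
      ∀ i, ((t i).map (Int.cast : ℤ → R)).mulVec v = b i • v := by
  classical
  have hinj : Function.Injective (algebraMap R K) := IsFractionRing.injective R K
  -- clear denominators
  obtain ⟨d, hd⟩ := IsLocalization.exist_integer_multiples_of_finite (nonZeroDivisors R) w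
  choose w' hw' using hd
  have hd0 : algebraMap R K (d : R) ≠ 0 := by
    rw [Ne, map_eq_zero_iff _ hinj]
    exact nonZeroDivisors.ne_zero d.2
  have hw'0 : w' ≠ 0 := by
    intro h0
    apply hw
    funext j
    have h1 := hw' j
    rw [h0, Pi.zero_apply, map_zero, Algebra.smul_def] at h1
    rcases mul_eq_zero.mp h1.symm with h2 | h2
    · exact absurd h2 hd0
    · exact h2
  have hw'eq : (fun j => algebraMap R K (w' j)) = algebraMap R K (d : R) • w := by
    funext j
    rw [hw' j, Pi.smul_apply, Algebra.smul_def, smul_eq_mul]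
  have hmap : ∀ (M : Matrix (Fin r) (Fin r) ℤ) (x : Fin r → R),
      (fun j => algebraMap R K ((M.map (Int.cast : ℤ → R)).mulVec x j)) =
        (M.map (Int.cast : ℤ → K)).mulVec (fun j => algebraMap R K (x j)) := by
    intro M x
    funext j
    simp only [Matrix.mulVec, dotProduct, Matrix.map_apply, map_sum, map_mul, map_intCast]
  have hw'eig : ∀ i, ((t i).map (Int.cast : ℤ → R)).mulVec w' = b i • w' := by
    intro i
    have h1 := hmap (t i) w'
    rw [hw'eq, Matrix.mulVec_smul, h i, smul_comm, ← hw'eq] at h1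
    funext j
    apply hinj
    have h2 := congrFun h1 j
    rw [h2, Pi.smul_apply, Pi.smul_apply, smul_eq_mul, smul_eq_mul, map_mul]
  -- divide by the gcd
  obtain ⟨c, v, hc, hcv, hunit⟩ := exists_primitive_of_ne_zero w' hw'0
  refine ⟨v, hunit, fun i => ?_⟩
  have h1 := hw'eig i
  rw [hcv, Matrix.mulVec_smul, smul_comm] at h1
  funext j
  have h2 := congrFun h1 j
  rw [Pi.smul_apply, Pi.smul_apply, smul_eq_mul, smul_eq_mul] at h2
  exact mul_left_cancel₀ hc h2

/-- **(E4a)** a primitive eigenvector of the lattice for the eigensystem `χ`. -/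
theorem exists_primitive_eigenvector {N p : ℕ} [NeZero N] (C : S29lib.ComparisonData N p)
    (hC : ∀ g : CuspForm (CongruenceSubgroup.Gamma0 N) 2, g.IsNormalizedEigenform →
      Nonempty (S29lib.EigenInput C g))
    (S : Set ℕ) (𝒪' : Type) [CommRing 𝒪'] [IsDomain 𝒪'] [IsDiscreteValuationRing 𝒪']
    [CharZero 𝒪'] (χ : CuspForm.heckeAlgebra N 2 S →+* 𝒪') :
    ∃ v : Fin C.r → 𝒪', (∃ i, IsUnit (v i)) ∧
      ∀ (ℓ : ℕ) (hℓ : ℓ.Prime) (hℓN : ¬ ℓ ∣ N) (hℓS : ℓ ∉ S),
        ((C.t ⟨ℓ, hℓ⟩).map (Int.cast : ℤ → 𝒪')).mulVec v =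
          χ (CuspForm.heckeAlgebra.T hℓ hℓN hℓS) • v := by
  classical
  obtain ⟨K₁, hfd, a₁, hfin, ha₁⟩ := exists_eigen_data C hC S 𝒪' χ
  haveI := hfd
  -- the index type: the good primes outside `S`
  let I : Type := {ℓ : ℕ // ℓ.Prime ∧ ¬ ℓ ∣ N ∧ ℓ ∉ S}
  let t' : I → Matrix (Fin C.r) (Fin C.r) ℤ := fun i => C.t ⟨i.1, i.2.1⟩
  let b : I → 𝒪' := fun i => χ (CuspForm.heckeAlgebra.T i.2.1 i.2.2.1 i.2.2.2)
  let e₁ : 𝒪' →+* FractionRing 𝒪' := algebraMap 𝒪' (FractionRing 𝒪')
  let e₂ : 𝒪' →+* K₁ := (algebraMap (OL 𝒪' K₁) K₁).comp (algebraMap 𝒪' (OL 𝒪' K₁))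
  have h₁ : Function.Injective e₁ := IsFractionRing.injective 𝒪' (FractionRing 𝒪')
  have h₂ : Function.Injective e₂ :=
    Subtype.val_injective.comp (algebraMap_OL_injective 𝒪' (FractionRing 𝒪') K₁)
  have key := finrank_eigen_transfer t' b e₁ e₂ h₁ h₂
  -- the full eigenspace is contained in the partial one
  have hle : (⨅ ℓ : Nat.Primes, LinearMap.ker
        (Matrix.toLin' ((C.t ℓ).map (Int.cast : ℤ → K₁)) -
          (algebraMap (OL 𝒪' K₁) K₁ (a₁ ℓ)) • 1)) ≤
      ⨅ i : I, LinearMap.ker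
        (Matrix.toLin' ((t' i).map (Int.cast : ℤ → K₁)) - e₂ (b i) • 1) := by
    refine le_iInf fun i => ?_
    refine (iInf_le _ (⟨i.1, i.2.1⟩ : Nat.Primes)).trans ?_
    rw [ha₁ i.1 i.2.1 i.2.2.1 i.2.2.2]
    exact le_rfl
  have h2 : 2 ≤ Module.finrank K₁ ↥(⨅ i : I, LinearMap.ker
        (Matrix.toLin' ((t' i).map (Int.cast : ℤ → K₁)) - e₂ (b i) • 1)) := by
    rw [← hfin]
    exact Submodule.finrank_mono hle
  rw [← key] at h2
  have hpos : 0 < Module.finrank (FractionRing 𝒪') ↥(⨅ i : I, LinearMap.ker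
        (Matrix.toLin' ((t' i).map (Int.cast : ℤ → FractionRing 𝒪')) - e₁ (b i) • 1)) := by
    omega
  obtain ⟨⟨w, hwP⟩, hw0⟩ := Module.finrank_pos_iff_exists_ne_zero.mp hpos
  have hw : w ≠ 0 := fun h => hw0 (Subtype.ext h)
  have hwe : ∀ i : I, ((t' i).map (Int.cast : ℤ → FractionRing 𝒪')).mulVec w =
      algebraMap 𝒪' (FractionRing 𝒪') (b i) • w := by
    intro i
    have h3 := (Submodule.mem_iInf _).mp hwP i
    rw [LinearMap.mem_ker, LinearMap.sub_apply, sub_eq_zero, Matrix.toLin'_apply,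
      LinearMap.smul_apply, Module.End.one_apply] at h3
    exact h3
  obtain ⟨v, hv, hveig⟩ := exists_primitive_eigenvector_of_frac t' b w hw hwe
  exact ⟨v, hv, fun ℓ hℓ hℓN hℓS => hveig ⟨ℓ, hℓ, hℓN, hℓS⟩⟩

end Fermat.Agent.S43lib.B0.EndBlock
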