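/-
S43lib / B0 / End / TameEisPow  (helper1, for helper6's END block)  — Project H, block B0.

**THE TAME `(M′)` FOR AN ARBITRARY TORSION ORDER `m > 1` COPRIME TO `12`.**

helper6's `B0.resMap_psi_mem_eisSub_tame` (file `B0/Toric/TameEis.lean`) is stated for a PRIME torsion
order `m ∤ 12`.  Nothing in the chain uses primality beyond the invertibility of two integers modulo `m`:

* `descent_core_pow`, `descent_kapCl_pow`  (helper9's `S44lib.Lvl.descent_core/descent_kapCl`):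
  `n.Coprime m` instead of `m` prime, `m ∤ n`;
* `mprime_core_pow`, `cMap_of_slopes_pow`, `mprime_split_pow`  (helper7's `S44lib.M.*`):
  `p.Coprime q` instead of `p` prime, `p ∤ q`;
* `mprime_cMap_tame_pow`, `cMap_const_tame_pow`, `mprime_mod_tame_pow`, `kapOrd_const_tame_pow`
  (helper6's `B0/Toric/TameM.lean`): any `m ≠ 0`;
* `eis_of_const_gen_pow`, `kapOrd_eis_tame_aux_pow`, `kapOrd_eis_tame_pow`,
  **`resMap_psi_mem_eisSub_tame_pow`**  (helper6's `B0/Toric/TameEis.lean`): `1 < m`, `m.Coprime 12`.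

The old theorems are untouched; every proof below is the old proof with the arithmetic step replaced.
-/
import Fermat.Agent.S43lib.B0.Toric.TameEis

set_option autoImplicit false
set_option linter.unusedSectionVars false
set_option linter.style.haveILetI false

noncomputable section

namespace Fermat.Agent.S43lib.B0.EndBlock

/-! ### (1) the descent (helper9's `S44lib.Lvl.descent_core`, `descent_kapCl`) -/

section Descent

open AlgebraicCurve Fermat.Agent.LSb Fermat.Agent.S18lib Fermat.Agent.S44lib.Kap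
open Fermat.Agent.S44lib Fermat.Agent.S44lib.Lvl

variable {L : Type*} [Field L] {A : ValuationSubring L}
variable {Fk : Type*} [Field Fk] [Algebra (IsLocalRing.ResidueField A) Fk]
variable {Fk' : Type*} [Field Fk'] [Algebra (IsLocalRing.ResidueField A) Fk']

local notation "k" => IsLocalRing.ResidueField A

variable (φb : Fk →ₐ[IsLocalRing.ResidueField A] Fk') (hφb : φb.toRingHom.IsIntegral)

/-- **the descent of the Eisenstein property**, torsion order `m` with `n` invertible modulo `m` -/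
theorem descent_core_pow {m : ℕ} {H : Fk} {n : ℕ} (hn : n.Coprime m)
    {ι ι' : Type*} (x : ι → Place k Fk) (x' : ι' → Place k Fk')
    (habove : ∀ c, ∃ c', restrictAlong φb hφb (x' c') = x c)
    (hH' : ∀ c', (x' c').ord (φb H) = n)
    (ω : Om A Fk m) (t : ZMod m) (hconst : ∀ c', Om.ordHom (x' c') (Om.map φb ω) = t) :
    ∀ c, Om.ordHom (x c) ω = (t * (n : ZMod m)⁻¹) * (((x c).ord H : ℤ) : ZMod m) := by
  intro c
  obtain ⟨c', hc'⟩ := habove c
  have hn1 : (n : ZMod m)⁻¹ * (n : ZMod m) = 1 := by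
    rw [mul_comm]
    exact ZMod.coe_mul_inv_eq_one n hn
  have h1 := hconst c'
  rw [ordHom_map_along φb hφb, hc'] at h1
  have h2 := hH' c'
  rw [ord_map_along φb hφb, hc'] at h2
  have h3 : (ramIdxAlong φb (x' c') : ZMod m) * (((x c).ord H : ℤ) : ZMod m) = (n : ZMod m) := by
    have := congrArg (fun a : ℤ => (a : ZMod m)) h2
    simpa using this
  -- `n · ord ω = e · ord H · ord ω = ord H · t`
  have h4 : (n : ZMod m) * Om.ordHom (x c) ω = t * (((x c).ord H : ℤ) : ZMod m) := by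
    rw [← h3, ← h1]
    ring
  calc Om.ordHom (x c) ω = (n : ZMod m)⁻¹ * ((n : ZMod m) * Om.ordHom (x c) ω) := by
        rw [← mul_assoc, hn1, one_mul]
    _ = (t * (n : ZMod m)⁻¹) * (((x c).ord H : ℤ) : ZMod m) := by
        rw [h4]
        ring

variable {F : Type*} [Field F] [Algebra L F] [HasPrincipalDivisors L F]
variable {F' : Type*} [Field F'] [Algebra L F'] [HasPrincipalDivisors L F']
variable (φ : F →ₐ[L] F') (hφ : φ.toRingHom.IsIntegral) (hFI : FundamentalIdentityAlong L φ hφ)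

/-- **descent for the reduction Kummer classes**, torsion order `m` with `n` invertible modulo `m` -/
theorem descent_kapCl_pow {g g' : ℕ} (hF : IsCurveOfGenus L F g) (hF' : IsCurveOfGenus L F' g')
    {G : GaussDatum A F Fk} {G' : GaussDatum A F' Fk'} (hφG : GaussCompat G G' φ φb)
    {m : ℕ} {H : Fk} {n : ℕ} (hn : n.Coprime m)
    {ι ι' : Type*} (x : ι → Place k Fk) (x' : ι' → Place k Fk')
    (habove : ∀ c, ∃ c', restrictAlong φb hφb (x' c') = x c)
    (hH' : ∀ c', (x' c').ord (φb H) = n)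
    {y : Pic0 L F} (hy : (m : ℤ) • y = 0) (t : ZMod m)
    (hconst : ∀ c', kapOrd G' m (x' c') (Xfer.pic0PullbackAlong φ hφ hFI y) = t) :
    ∀ c, kapOrd G m (x c) y = (t * (n : ZMod m)⁻¹) * (((x c).ord H : ℤ) : ZMod m) := by
  have hpull := kapCl_pullbackAlong φ hφ hFI hF hF' hφG hy
  intro c
  rw [← ordHom_kapCl]
  refine descent_core_pow φb hφb hn x x' habove hH' (kapCl G m y) t (fun c' => ?_) c
  rw [← hpull, ordHom_kapCl]
  exact hconst c'

end Descent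

/-! ### (2) the slope arithmetic (helper7's `S44lib.M.mprime_core`, `cMap_of_slopes`, `mprime_split`) -/

section Slopes

open Fermat.Agent.S18lib AlgebraicCurve Polynomial Fermat.Agent.S19lib.C Fermat.Agent.LSb
open Fermat.Agent.S33lib Fermat.Agent.S44lib Fermat.Agent.S44lib.M

variable {L : Type*} [Field L] {A : ValuationSubring L}
variable {F : Type*} [Field F] [Algebra L F] [HasPrincipalDivisors L F]
variable {G : Type*} [Group G]

local notation "k" => IsLocalRing.ResidueField A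

variable {F₁ F₂ : Type*} [Field F₁] [Field F₂]
variable [Algebra (IsLocalRing.ResidueField A) F₁] [Algebra (IsLocalRing.ResidueField A) F₂]
variable [HasPrincipalDivisors (IsLocalRing.ResidueField A) F₁]
  [HasPrincipalDivisors (IsLocalRing.ResidueField A) F₂]

variable {D : Ann.AnnDatum A F F₁ F₂}

/-- **the arithmetic of Step 4**, `p` arbitrary, `q` coprime to `p` -/
theorem mprime_core_pow {p : ℕ} {ϖ : L} (hϖ0 : ϖ ≠ 0) (hϖ1 : A.valuation ϖ < 1)
    (hlaw : SlopeLaw D) (T₀ q : ℕ) (hT₀ : 0 < T₀) (hq : p.Coprime q) (e : Fin D.nod.s → ℕ)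
    (hthick : ∀ c, A.valuation (D.pi c) = A.valuation ϖ ^ ((T₀ * q * e c : ℕ) : ℤ))
    {h : F} (hh0 : h ≠ 0) (R : Fin D.nod.s → ℤ) (hR : ∀ c, D.radProd c h = A.valuation ϖ ^ R c)
    (hRp : ∀ c c', ((p * T₀ : ℕ) : ℤ) ∣ R c - R c') (hdeg : ∀ c, (p : ℤ) ∣ D.annDeg c h)
    {a₁ a₂ : L} {n₁ n₂ : Fin D.nod.s → ℤ} (hs₁ : ∀ c, D.Slope₁ c h a₁ (n₁ c))
    (hs₂ : ∀ c, D.Slope₂ c h a₂ (n₂ c)) (c c' : Fin D.nod.s) :
    (p : ℤ) ∣ e c * n₁ c - e c' * n₁ c' ∧ (p : ℤ) ∣ e c * n₂ c - e c' * n₂ c' := by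
  have hv0 : 0 < A.valuation ϖ :=
    lt_of_le_of_ne zero_le ((Valuation.ne_zero_iff _).2 hϖ0).symm
  have hv1 : A.valuation ϖ ≠ 1 := hϖ1.ne
  have ha₁ : A.valuation a₁ ≠ 0 := (Valuation.ne_zero_iff _).2 (hs₁ c).1
  -- the law at `c` and `c'`
  have key : ∀ c, n₁ c + n₂ c = D.annDeg c h ∧ A.valuation a₁ * A.valuation ϖ ^ R c
      = A.valuation a₂ * A.valuation ϖ ^ (((T₀ * q * e c : ℕ) : ℤ) * n₂ c) := by
    intro c
    obtain ⟨h1, h2⟩ := hlaw h hh0 c a₁ a₂ _ _ (hs₁ c) (hs₂ c)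
    rw [hR c, hthick c, ← zpow_mul] at h2
    exact ⟨h1, h2⟩
  obtain ⟨hd, hE⟩ := key c
  obtain ⟨hd', hE'⟩ := key c'
  set U : ℤ := ((T₀ * q * e c : ℕ) : ℤ) * n₂ c with hU
  set U' : ℤ := ((T₀ * q * e c' : ℕ) : ℤ) * n₂ c' with hU'
  have h3 : A.valuation ϖ ^ (R c + U') = A.valuation ϖ ^ (R c' + U) := by
    apply mul_left_cancel₀ ha₁
    rw [zpow_add₀ hv0.ne', zpow_add₀ hv0.ne', ← mul_assoc, ← mul_assoc, hE, hE', mul_assoc,
      mul_assoc, mul_comm (A.valuation ϖ ^ U)]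
  have h4 : R c + U' = R c' + U := (zpow_right_inj₀ hv0 hv1).1 h3
  -- `T₀ q t = R c - R c'`
  set t : ℤ := e c * n₂ c - e c' * n₂ c' with ht
  have h5 : (T₀ : ℤ) * ((q : ℤ) * t) = R c - R c' := by
    rw [hU, hU'] at h4
    push_cast at h4
    rw [ht]
    linarith
  obtain ⟨j, hj⟩ := hRp c c'
  have h6 : (q : ℤ) * t = p * j := by
    have hT : (T₀ : ℤ) ≠ 0 := by exact_mod_cast hT₀.ne'
    apply mul_left_cancel₀ hT
    rw [h5, hj]
    push_cast
    ring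
  have h7 : (p : ℤ) ∣ t := by
    have hpq : IsCoprime (p : ℤ) (q : ℤ) := Nat.isCoprime_iff_coprime.2 hq
    exact hpq.dvd_of_dvd_mul_left (Dvd.intro j h6.symm)
  refine ⟨?_, h7⟩
  obtain ⟨u, hu⟩ := hdeg c
  obtain ⟨u', hu'⟩ := hdeg c'
  have h8 : e c * n₁ c - e c' * n₁ c' = p * (e c * u - e c' * u') - t := by
    have e1 : n₁ c = D.annDeg c h - n₂ c := by linarith
    have e2 : n₁ c' = D.annDeg c' h - n₂ c' := by linarith
    rw [e1, e2, hu, hu', ht]
    ring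
  rw [h8]
  exact dvd_sub (Dvd.intro _ rfl) h7

variable {S : N.NSym D.toNRedDatum G} {g₀ g₁ g₂ : ℕ}

/-- from node orders to `cMap`, arbitrary torsion order `p ≠ 0` -/
theorem cMap_of_slopes_pow {p : ℕ} [NeZero p] (C : NodalCtx D.nod g₀ g₁ g₂)
    (x : Pic0.torsion L F p) (D₀ : Divisor.degZero (K := L) (F := F))
    (hx : Pic0.mk D₀ = (x : Pic0 L F)) {h : F} (hh0 : h ≠ 0)
    (hhdiv : ∀ P : Place L F, P.ord h = (p : ℤ) * (D₀ : Divisor L F) P)
    (e : Fin D.nod.s → ℕ) {a₁ a₂ : L} {n₁ n₂ : Fin D.nod.s → ℤ}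
    (hs₁ : ∀ c, D.Slope₁ c h a₁ (n₁ c)) (hs₂ : ∀ c, D.Slope₂ c h a₂ (n₂ c)) (c c' : Fin D.nod.s)
    (hd : (p : ℤ) ∣ e c * n₁ c - e c' * n₁ c' ∧ (p : ℤ) ∣ e c * n₂ c - e c' * n₂ c') :
    (e c : ZMod p) * Kap.cMap₁ D.toNRedDatum C p x c
        = (e c' : ZMod p) * Kap.cMap₁ D.toNRedDatum C p x c' ∧
      (e c : ZMod p) * Kap.cMap₂ D.toNRedDatum C p x c
        = (e c' : ZMod p) * Kap.cMap₂ D.toNRedDatum C p x c' := by
  have hord : ∀ (a : L), a ≠ 0 → ∀ P : Place L F,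
      P.ord ((algebraMap L F a)⁻¹ * h) = (p : ℤ) * (D₀ : Divisor L F) P := by
    intro a ha P
    rw [P.ord_mul (inv_ne_zero ((_root_.map_ne_zero _).2 ha)) hh0, Place.ord_inv,
      S18lib.Cech.ord_const, neg_zero, zero_add, hhdiv]
  have hz₁ : (algebraMap L F a₁)⁻¹ * h ≠ 0 :=
    mul_ne_zero (inv_ne_zero ((_root_.map_ne_zero _).2 (hs₁ c).1)) hh0
  have hz₂ : (algebraMap L F a₂)⁻¹ * h ≠ 0 :=
    mul_ne_zero (inv_ne_zero ((_root_.map_ne_zero _).2 (hs₂ c).1)) hh0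
  have hc₁ : ∀ c, Kap.cMap₁ D.toNRedDatum C p x c = ((n₁ c : ℤ) : ZMod p) := by
    intro c
    rw [Kap.cMap₁_eq D.toNRedDatum C x hx hz₁ (hord a₁ (hs₁ c).1) (hs₁ c).2.2.1 c, (hs₁ c).2.2.2]
  have hc₂ : ∀ c, Kap.cMap₂ D.toNRedDatum C p x c = ((n₂ c : ℤ) : ZMod p) := by
    intro c
    rw [Kap.cMap₂_eq D.toNRedDatum C x hx hz₂ (hord a₂ (hs₂ c).1) (hs₂ c).2.2.1 c, (hs₂ c).2.2.2]
  constructor
  · rw [hc₁, hc₁, ← sub_eq_zero]
    have := (ZMod.intCast_zmod_eq_zero_iff_dvd (e c * n₁ c - e c' * n₁ c') p).2 hd.1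
    push_cast at this
    exact this
  · rw [hc₂, hc₂, ← sub_eq_zero]
    have := (ZMod.intCast_zmod_eq_zero_iff_dvd (e c * n₂ c - e c' * n₂ c') p).2 hd.2
    push_cast at this
    exact this

/-- **(M′), split (tame) case**, arbitrary torsion order `p ≠ 0`, `q` coprime to `p` -/
theorem mprime_split_pow {p : ℕ} [NeZero p] (C : NodalCtx D.nod g₀ g₁ g₂) (hS : AnnSym D S)
    (hlaw : SlopeLaw D) {lam : L} (hlam0 : lam ≠ 0) (hlam1 : A.valuation lam < 1)
    (hK₁ : ∀ a : L, a ≠ 0 → (∀ g : G, S.hat g a = a) → ∃ n : ℤ, A.valuation a = A.valuation lam ^ n)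
    (q : ℕ) (hq : p.Coprime q) (e : Fin D.nod.s → ℕ)
    (hthick : ∀ c, A.valuation (D.pi c) = A.valuation lam ^ ((q * e c : ℕ) : ℤ))
    (x : Pic0.torsion L F p) (D₀ : Divisor.degZero (K := L) (F := F))
    (hx : Pic0.mk D₀ = (x : Pic0 L F)) (hst : ∀ g : G, S.ρ g • (D₀ : Divisor L F) = D₀)
    (c c' : Fin D.nod.s) :
    (e c : ZMod p) * Kap.cMap₁ D.toNRedDatum C p x c
        = (e c' : ZMod p) * Kap.cMap₁ D.toNRedDatum C p x c' ∧
      (e c : ZMod p) * Kap.cMap₂ D.toNRedDatum C p x c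
        = (e c' : ZMod p) * Kap.cMap₂ D.toNRedDatum C p x c' := by
  obtain ⟨h, hh0, hhdiv⟩ := exists_kummer_fun x D₀ hx
  obtain ⟨a₁, a₂, n₁, n₂, hs₁, hs₂⟩ := exists_all_slopes D hh0
  have hZ : ∀ c, ∃ n : ℤ, A.valuation ((annReg₁ D c).cst (D₀ : Divisor L F)) = A.valuation lam ^ n :=
    fun c => hK₁ _ (Region.cst_ne_zero (annReg₁_noZero D c) _)
      fun g => Region.cst_fixed (hS.sym₁ c g) (hst g)
  choose m hm using hZ
  refine cMap_of_slopes_pow C x D₀ hx hh0 hhdiv e hs₁ hs₂ c c' ?_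
  have hthick' : ∀ c, A.valuation (D.pi c) = A.valuation lam ^ ((1 * q * e c : ℕ) : ℤ) := by
    intro c; rw [one_mul]; exact hthick c
  refine mprime_core_pow hlam0 hlam1 hlaw 1 q one_pos hq e hthick' hh0 (fun c => m c * p)
    (fun c => ?_) (fun c c' => ?_) (fun c => ?_) hs₁ hs₂ c c'
  · rw [(radProd_of_smul hhdiv c).1, hm c, ← zpow_natCast, ← zpow_mul]
  · refine ⟨m c - m c', ?_⟩
    push_cast
    ring
  · rw [(radProd_of_smul hhdiv c).2]
    exact Dvd.intro _ rfl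

end Slopes

/-! ### (3) the tame `(M′)` in constant form (helper6's `B0/Toric/TameM.lean`) -/

open Fermat.Agent.S18lib AlgebraicCurve ModularCurve Fermat.Agent.LSb
open Fermat.Agent.S33lib Fermat.Agent.S19lib Fermat.Agent.S44lib Fermat.Agent.S44lib.M
open Fermat.Agent.S33lib.N Fermat.Agent.S29lib.GH

local notation "Qb" => AlgebraicClosure ℚ
local notation "GQ" => (AlgebraicClosure ℚ ≃ₐ[ℚ] AlgebraicClosure ℚ)

section Abstract

variable {N : ℕ} [NeZero N] {A : ValuationSubring Qb}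
variable {F₁ F₂ : Type*} [Field F₁] [Field F₂]
variable [Algebra (IsLocalRing.ResidueField A) F₁] [Algebra (IsLocalRing.ResidueField A) F₂]
variable [HasPrincipalDivisors Qb (FBar N)]
variable [HasPrincipalDivisors (IsLocalRing.ResidueField A) F₁]
  [HasPrincipalDivisors (IsLocalRing.ResidueField A) F₂]

/-- **the tame `(M′)` in `cMap` form**, arbitrary torsion order `m ≠ 0` -/
theorem mprime_cMap_tame_pow {m r : ℕ} [NeZero m] (hr : r.Prime) (hA : A.LiesOverPrime r)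
    (Dann : Ann.AnnDatum A (FBar N) F₁ F₂) {g g₁ g₂ : ℕ} (C : NodalCtx Dann.nod g g₁ g₂)
    (S₀ : NSym Dann.toNRedDatum ↥(IA A))
    (ρ_eq : ∀ h : ↥(IA A), S₀.ρ h = arithmeticGalois (modularFunctionFieldFull N) (h : GQ))
    (hS : AnnSym Dann S₀) (hlaw : SlopeLaw Dann) (e : Fin Dann.nod.s → ℕ)
    (hpi : ∀ c, A.valuation (Dann.pi c) = A.valuation ((r : ℕ) : Qb) ^ (e c))
    {x : JZero N} (hx : x ∈ tors N (m : ℤ)) (hfix : ∀ σ ∈ IA A, σ • x = x)
    (c c' : Fin Dann.nod.s) :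
    (e c : ZMod m) * Kap.cMap₁ Dann.toNRedDatum C m (Kap.torsOf hx) c
        = (e c' : ZMod m) * Kap.cMap₁ Dann.toNRedDatum C m (Kap.torsOf hx) c' ∧
      (e c : ZMod m) * Kap.cMap₂ Dann.toNRedDatum C m (Kap.torsOf hx) c
        = (e c' : ZMod m) * Kap.cMap₂ Dann.toNRedDatum C m (Kap.torsOf hx) c' := by
  have hhat : ∀ (h : ↥(IA A)) (b : Qb), S₀.hat h b = (h : GQ) b := by
    intro h b
    show SemilinearAut.baseAut (S₀.ρ h) b = _
    rw [ρ_eq]
    rfl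
  have hsmul : ∀ (h : ↥(IA A)) (y : JZero N), S₀.ρ h • y = (h : GQ) • y := by
    intro h y
    rw [ρ_eq]
    rfl
  have hpinf : ∀ h : ↥(IA A),
      S₀.ρ h • Fermat.Agent.S36lib.J.pinfBar N = Fermat.Agent.S36lib.J.pinfBar N := by
    intro h
    rw [ρ_eq]
    exact Fermat.Agent.S36lib.J.galAutBar_smul_pinfBar N (h : GQ)
  have hr0 : ((r : ℕ) : Qb) ≠ 0 := by exact_mod_cast hr.ne_zero
  have hr1 : A.valuation ((r : ℕ) : Qb) < 1 := F.val_p_lt_one hA
  obtain ⟨D₀, hD₀, hst⟩ := Fermat.Agent.S36lib.J.exists_stable_divisor C.hF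
    (Set.range fun h : ↥(IA A) => S₀.ρ h) (Fermat.Agent.S36lib.J.pinfBar N)
    (by rintro _ ⟨h, rfl⟩; exact hpinf h) x
    (by
      rintro _ ⟨h, rfl⟩
      show S₀.ρ h • x = x
      rw [hsmul]
      exact hfix _ h.2)
  refine mprime_split_pow C hS hlaw hr0 hr1 (fun b hb0 hb => ?_) 1 (Nat.coprime_one_right m) e
    (fun c => ?_) (Kap.torsOf hx) D₀ hD₀ (fun h => hst _ ⟨h, rfl⟩) c c'
  · exact F.val_of_IA_fixed hr hA hb0 fun σ hσ => by
      rw [← hhat ⟨σ, hσ⟩]; exact hb ⟨σ, hσ⟩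
  · rw [hpi c, one_mul, zpow_natCast]

/-- **the tame `(M′)` for uniform thickness `|pi c| = |r|`**, arbitrary torsion order `m ≠ 0` -/
theorem cMap_const_tame_pow {m r : ℕ} [NeZero m] (hr : r.Prime) (hA : A.LiesOverPrime r)
    (Dann : Ann.AnnDatum A (FBar N) F₁ F₂) {g g₁ g₂ : ℕ} (C : NodalCtx Dann.nod g g₁ g₂)
    (S₀ : NSym Dann.toNRedDatum ↥(IA A))
    (ρ_eq : ∀ h : ↥(IA A), S₀.ρ h = arithmeticGalois (modularFunctionFieldFull N) (h : GQ))
    (hS : AnnSym Dann S₀) (hlaw : SlopeLaw Dann)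
    (hpi : ∀ c, A.valuation (Dann.pi c) = A.valuation ((r : ℕ) : Qb))
    {x : JZero N} (hx : x ∈ tors N (m : ℤ)) (hfix : ∀ σ ∈ IA A, σ • x = x)
    (c c' : Fin Dann.nod.s) :
    Kap.cMap₁ Dann.toNRedDatum C m (Kap.torsOf hx) c
        = Kap.cMap₁ Dann.toNRedDatum C m (Kap.torsOf hx) c' ∧
      Kap.cMap₂ Dann.toNRedDatum C m (Kap.torsOf hx) c
        = Kap.cMap₂ Dann.toNRedDatum C m (Kap.torsOf hx) c' := by
  have h := mprime_cMap_tame_pow hr hA Dann C S₀ ρ_eq hS hlaw (fun _ => 1)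
    (fun c => by rw [pow_one]; exact hpi c) hx hfix c c'
  simpa using h

end Abstract

/-! ### the concrete package -/

section Mod

variable {M q : ℕ} [NeZero M] [NeZero q] [hq : Fact q.Prime] {A : ValuationSubring Qb}
variable (hqM : ¬ q ∣ M) (hA : A.LiesOverPrime q) (h5 : 5 ≤ q)

variable {z : FBar (M * q)}
  (hz : Ann.UnifCoord (Kap.modNod hqM hA) (Kap.modNModInst hqM hA h5).D.r ((q : ℕ) : Qb) z)

/-- **the tame `(M′)` for the concrete nodal package, in `cMap` form**, arbitrary `m ≠ 0` -/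
theorem mprime_mod_tame_pow (hzfix : ∀ σ ∈ IA A, galAutBar (M * q) σ • z = z)
    (hann : ∀ σ ∈ IA A, ∀ P : Place Qb (FBar (M * q)),
      (modAnn hqM hA h5 hz).ann (galAutBar (M * q) σ • P) = (modAnn hqM hA h5 hz).ann P)
    {m : ℕ} [NeZero m]
    {x : JZero (M * q)} (hx : x ∈ tors (M * q) (m : ℤ)) (hfix : ∀ σ ∈ IA A, σ • x = x)
    (c c' : Fin (Kap.modNModInst hqM hA h5).D.nod.s) :
    Kap.cMap₁ (Kap.modNModInst hqM hA h5).D (Kap.modNModInst hqM hA h5).ctx m (Kap.torsOf hx) c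
        = Kap.cMap₁ (Kap.modNModInst hqM hA h5).D (Kap.modNModInst hqM hA h5).ctx m
            (Kap.torsOf hx) c' ∧
      Kap.cMap₂ (Kap.modNModInst hqM hA h5).D (Kap.modNModInst hqM hA h5).ctx m (Kap.torsOf hx) c
        = Kap.cMap₂ (Kap.modNModInst hqM hA h5).D (Kap.modNModInst hqM hA h5).ctx m
            (Kap.torsOf hx) c' := by
  letI := Kap.modHpdK hqM hA
  haveI := Kap.modInfinite (A := A)
  have hS : AnnSym (modAnn hqM hA h5 hz) (Kap.modNModInst hqM hA h5).S :=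
    annSym_of_liftCtx (D := modAnn hqM hA h5 hz) (S := (Kap.modNModInst hqM hA h5).S)
      (Kap.modLiftCtx hqM hA h5)
      (fun g P => hann g.1 g.2 P) (fun g _ => hzfix g.1 g.2) (fun g _ => by
        show (Kap.modNModInst hqM hA h5).S.hat g ((q : ℕ) : Qb) = ((q : ℕ) : Qb)
        rw [(Kap.modNModInst hqM hA h5).hat_apply]
        exact map_natCast _ _)
  exact cMap_const_tame_pow hq.out hA (modAnn hqM hA h5 hz)
    (Kap.modNModInst hqM hA h5).ctx (Kap.modNModInst hqM hA h5).S (Kap.modNModInst hqM hA h5).ρ_eq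
    hS (Ann.annOfNCtx_slopeLaw _ hz _ _) (fun _ => rfl) hx hfix c c'

end Mod

/-! ### the elliptic-free levels -/

section Const

open Fermat.Agent.LSb.Unit Fermat.Agent.LSb.Val Fermat.Agent.S44lib.Kap

variable {M q : ℕ} [NeZero M] [NeZero q] [hq : Fact q.Prime] {A : ValuationSubring Qb}

/-- **the tame `(M′)` in constant form at the elliptic-free levels**, arbitrary `m ≠ 0` -/
theorem kapOrd_const_tame_pow (hqM : ¬ q ∣ M) (hA : A.LiesOverPrime q) (h5 : 5 ≤ q)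
    (hν2 : nuTwo M = 0) (hν3 : nuThree M = 0) {m : ℕ} [NeZero m]
    {x : JZero (M * q)} (hx : x ∈ tors (M * q) (m : ℤ)) (hfix : ∀ σ ∈ IA A, σ • x = x) :
    (∀ c c', kapOrd (gaussOne M q A hqM hA) m (modX₁ hA (gaussOne M q A hqM hA) c) x =
        kapOrd (gaussOne M q A hqM hA) m (modX₁ hA (gaussOne M q A hqM hA) c') x) ∧
      (∀ c c', kapOrd (modD2 hqM (gaussOne M q A hqM hA)) m
          (modX₂ (gaussOne M q A hqM hA) c) x =
        kapOrd (modD2 hqM (gaussOne M q A hqM hA)) m (modX₂ (gaussOne M q A hqM hA) c') x) := by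
  letI := modHpdK hqM hA
  haveI := modInfinite (A := A)
  obtain ⟨z, hz, -, hzfix⟩ := H4.exists_unifCoord hqM hA h5 hν2 hν3
    (Lvl.kronLiftStmt_holds M q A hqM hA)
  have hann : ∀ σ ∈ IA A, ∀ P : Place Qb (FBar (M * q)),
      (S44lib.M.modAnn hqM hA h5 hz).ann (galAutBar (M * q) σ • P) =
        (S44lib.M.modAnn hqM hA h5 hz).ann P :=
    fun σ hσ P => Ann.annOfNCtx_ann_smul (modCtx hqM hA h5) hz S44lib.M.exists_sqrt_Qb
      (modInertial hqM hA h5 σ hσ) P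
  exact ⟨fun c c' => (mprime_mod_tame_pow hqM hA h5 hz hzfix hann hx hfix c c').1,
    fun c c' => (mprime_mod_tame_pow hqM hA h5 hz hzfix hann hx hfix c c').2⟩

end Const

/-! ### (4) the descent to every level (helper6's `B0/Toric/TameEis.lean`) -/

section Eis

open Fermat.Agent.S44lib.Kap Fermat.Agent.LSb.Unit Fermat.Agent.LSb.Val Fermat.Agent.S44lib.Q4
open Fermat.Agent.S37lib.HeckeInst Fermat.Agent.S44lib.Lvl

variable {M r q : ℕ} [NeZero M] [NeZero r] [NeZero q] [hq : Fact q.Prime]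
variable {A : ValuationSubring Qb}

local notation "kA" => IsLocalRing.ResidueField A

/-- **the descent of `(M′)`** from the elliptic-free level `(M r) q` to the level `M q`, for an
arbitrary torsion order `m` coprime to `12` -/
theorem eis_of_const_gen_pow (hqM : ¬ q ∣ M) (hqMr : ¬ q ∣ M * r) (hA : A.LiesOverPrime q)
    (h5 : 5 ≤ q) (hν2 : nuTwo (M * r) = 0) (hν3 : nuThree (M * r) = 0)
    {m : ℕ} (h12 : Nat.Coprime 12 m)
    {g g' gk gk' : ℕ} (hF : IsCurveOfGenus Qb (FBar (M * q)) g)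
    (hF' : IsCurveOfGenus Qb (FBar (M * r * q)) g')
    (hFk : IsCurveOfGenus kA (FRes A M) gk) (hFk' : IsCurveOfGenus kA (FRes A (M * r)) gk')
    {y : JZero (M * q)} (hy : (m : ℤ) • y = 0) (t₁ t₂ : ZMod m)
    (hc₁ : ∀ c', kapOrd (gaussOne (M * r) q A hqMr hA) m
      (modX₁ hA (gaussOne (M * r) q A hqMr hA) c') (pullUp M r q y) = t₁)
    (hc₂ : ∀ c', kapOrd (modD2 hqMr (gaussOne (M * r) q A hqMr hA)) m
      (modX₂ (gaussOne (M * r) q A hqMr hA) c') (pullUp M r q y) = t₂) :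
    (∀ c, kapOrd (gaussOne M q A hqM hA) m (modX₁ hA (gaussOne M q A hqM hA) c) y =
      (t₁ * ((12 : ℕ) : ZMod m)⁻¹) *
        (((modX₁ hA (gaussOne M q A hqM hA) c).ord (H₂ (gaussOne M q A hqM hA)) : ℤ) : ZMod m)) ∧
    (∀ c, kapOrd (modD2 hqM (gaussOne M q A hqM hA)) m (modX₂ (gaussOne M q A hqM hA) c) y =
      (t₂ * ((12 : ℕ) : ZMod m)⁻¹) *
        (((modX₂ (gaussOne M q A hqM hA) c).ord (H₂ (gaussOne M q A hqM hA)) : ℤ) : ZMod m)) := by
  haveI := hasPrincipalDivisors_FB (M * r * q)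
  haveI := hasPrincipalDivisors_FB (M * q)
  haveI : HasPrincipalDivisors kA (FRes A M) := hFk.hasPrincipalDivisors
  haveI : HasPrincipalDivisors kA (FRes A (M * r)) := hFk'.hasPrincipalDivisors
  have h1 := isGaussOne_gaussOne M q A hqM hA
  have h1' := isGaussOne_gaussOne (M * r) q A hqMr hA
  have hint := isIntegral_inclK (M := M) (r := r) hqMr hA
  constructor
  · refine descent_kapCl_pow (V.inclK A (dvdK M r)) hint (V.inclL (dvdL M r q))
      (LSc.Xfer.xferInputs_inclL (dvdL M r q)).int (LSc.Xfer.xferInputs_inclL (dvdL M r q)).fi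
      hF hF' (gaussCompat_gaussOne hqM hqMr hA) h12 _ _
      (fun c => exists_modX₁_above hqMr hA h1 h1' hFk hFk' c) (fun c' => ?_) hy t₁ hc₁
    rw [inclK_H₂ h1 h1']
    exact (S36lib.Count.ord_H₂_modX_five_le h5 hqMr hA hν2 hν3 h1' c').1
  · refine descent_kapCl_pow (V.inclK A (dvdK M r)) hint (V.inclL (dvdL M r q))
      (LSc.Xfer.xferInputs_inclL (dvdL M r q)).int (LSc.Xfer.xferInputs_inclL (dvdL M r q)).fi
      hF hF' (gaussCompat_modD2 hqM hqMr hA) h12 _ _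
      (fun c => exists_modX₂_above hqMr hA h1 h1' hFk hFk' c) (fun c' => ?_) hy t₂ hc₂
    rw [inclK_H₂ h1 h1']
    exact (S36lib.Count.ord_H₂_modX_five_le h5 hqMr hA hν2 hν3 h1' c').2

/-- **the tame `(M′)` at the level `M q`, `kapOrd` form**, via an elliptic-free level `(M r) q`,
arbitrary torsion order `m ≠ 0` coprime to `12` -/
theorem kapOrd_eis_tame_aux_pow (r : ℕ) [NeZero r] (hqM : ¬ q ∣ M) (hqMr : ¬ q ∣ M * r)
    (hA : A.LiesOverPrime q) (h5 : 5 ≤ q) (hν2 : nuTwo (M * r) = 0) (hν3 : nuThree (M * r) = 0)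
    {m : ℕ} [NeZero m] (h12 : Nat.Coprime 12 m)
    {x : JZero (M * q)} (hx : x ∈ tors (M * q) (m : ℤ)) (hfix : ∀ σ ∈ IA A, σ • x = x) :
    ∃ s₁ s₂ : ZMod m,
      (∀ c, kapOrd (gaussOne M q A hqM hA) m (modX₁ hA (gaussOne M q A hqM hA) c) x =
        s₁ * (((modX₁ hA (gaussOne M q A hqM hA) c).ord (H₂ (gaussOne M q A hqM hA)) : ℤ) :
          ZMod m)) ∧
      (∀ c, kapOrd (modD2 hqM (gaussOne M q A hqM hA)) m (modX₂ (gaussOne M q A hqM hA) c) x =
        s₂ * (((modX₂ (gaussOne M q A hqM hA) c).ord (H₂ (gaussOne M q A hqM hA)) : ℤ) :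
          ZMod m)) := by
  have hy : pullUp M r q x ∈ tors (M * r * q) (m : ℤ) := mem_tors_pullUp_gen r hx
  have hfix' : ∀ σ ∈ IA A, σ • pullUp M r q x = pullUp M r q x := fun σ hσ => by
    rw [← pullUp_smul, hfix σ hσ]
  obtain ⟨h1, h2⟩ := kapOrd_const_tame_pow hqMr hA h5 hν2 hν3 hy hfix'
  obtain ⟨t₁, ht₁⟩ := exists_const_of_forall_eq _ h1
  obtain ⟨t₂, ht₂⟩ := exists_const_of_forall_eq _ h2
  obtain ⟨e₁, e₂⟩ := eis_of_const_gen_pow hqM hqMr hA h5 hν2 hν3 h12 (modG_spec M q)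
    (modG_spec (M * r) q) (modGk_spec hqM hA) (modGk_spec hqMr hA) (smul_eq_zero_of_mem_tors hx)
    t₁ t₂ ht₁ ht₂
  exact ⟨_, _, e₁, e₂⟩

/-- **the tame `(M′)` at every level `M q`** (`q ≥ 5`, `q ∤ M`), `kapOrd` form, arbitrary torsion
order `m ≠ 0` coprime to `12`: the auxiliary level is `(36 M) q` -/
theorem kapOrd_eis_tame_pow (hqM : ¬ q ∣ M) (hA : A.LiesOverPrime q) (h5 : 5 ≤ q)
    {m : ℕ} [NeZero m] (h12 : Nat.Coprime 12 m)
    {x : JZero (M * q)} (hx : x ∈ tors (M * q) (m : ℤ)) (hfix : ∀ σ ∈ IA A, σ • x = x) :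
    ∃ s₁ s₂ : ZMod m,
      (∀ c, kapOrd (gaussOne M q A hqM hA) m (modX₁ hA (gaussOne M q A hqM hA) c) x =
        s₁ * (((modX₁ hA (gaussOne M q A hqM hA) c).ord (H₂ (gaussOne M q A hqM hA)) : ℤ) :
          ZMod m)) ∧
      (∀ c, kapOrd (modD2 hqM (gaussOne M q A hqM hA)) m (modX₂ (gaussOne M q A hqM hA) c) x =
        s₂ * (((modX₂ (gaussOne M q A hqM hA) c).ord (H₂ (gaussOne M q A hqM hA)) : ℤ) :
          ZMod m)) :=
  kapOrd_eis_tame_aux_pow 36 hqM (not_dvd_mul_thirtySix h5 hqM) hA h5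
    (S36lib.Count.nuTwo_eq_zero_of_four_dvd ⟨M * 9, by ring⟩)
    (S36lib.Count.nuThree_eq_zero_of_nine_dvd ⟨M * 4, by ring⟩) h12 hx hfix

/-- **THE TAME `(M′)` FOR AN ARBITRARY TORSION ORDER**: for `A ∣ q`, `q ≥ 5`, `q ∤ M`, an integer
`m > 1` coprime to `12` and an inertia-fixed `x ∈ J₀(M q)[m]`, the residue vector of `Ψ x` lies in
helper2's Eisenstein subgroup -/
theorem resMap_psi_mem_eisSub_tame_pow {M q : ℕ} [NeZero M] [NeZero q] [Fact q.Prime]
    {A : ValuationSubring Qb} (hqM : ¬ q ∣ M) (hA : A.LiesOverPrime q) (h5 : 5 ≤ q)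
    {m : ℕ} (hm1 : 1 < m) (h12 : Nat.Coprime m 12)
    {x : JZero (M * q)} (hx : x ∈ tors (M * q) (m : ℤ)) (hfix : ∀ σ ∈ IA A, σ • x = x) :
    resMap (modNod hqM hA) m (psi (modNod hqM hA) m x) ∈ eisSub (modNod hqM hA) m := by
  haveI : NeZero m := ⟨by omega⟩
  obtain ⟨s₁, s₂, e₁, e₂⟩ := kapOrd_eis_tame_pow hqM hA h5 h12.symm hx hfix
  have hcast : ∀ a : ZMod m, (((a.val : ℕ) : ℤ) : ZMod m) = a := fun a => by
    rw [Int.cast_natCast, ZMod.natCast_zmod_val]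
  haveI := modHpdK hqM hA
  refine (mem_eisSub (D := modNod hqM hA) (m := m)).2
    ⟨⟨((s₁.val : ℕ) : ℤ), ?_⟩, ⟨((s₂.val : ℕ) : ℤ), ?_⟩⟩
  · funext c
    rw [Pi.smul_apply, zsmul_eq_mul, hcast]
    exact (e₁ c).symm
  · funext c
    rw [Pi.smul_apply, zsmul_eq_mul, hcast]
    exact (e₂ c).symm

end Eis

end Fermat.Agent.S43lib.B0.EndBlock
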