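/-
S43lib / B0 / End / TamePow  (helper6)  — Project H, block END (`readout`).

THE TAME PACKAGE AT EXPONENT `m = p^k`.

Level `M q` (`q ∤ M`, `q ≥ 5`), `A` a place of `ℚ̄` over `q`, torsion exponent `m` with `q ∤ m`, `m ∤ 12`:
* `tameCorePow hqM hA h5 m hm0 hqm hmono : TameCore (M * q) q m A`  (the fields of `Pkg/Core.lean`, which
  are stated for an arbitrary exponent; the tame `(M′)` at exponent `m` is the hypothesis `hmono`);
* `tameOld_pow` : the field `old` for `m = p^k` (`k ≥ 1`): helper8's `Lift.exists_eigen_torsion_of_om`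
  at exponent `p^k`, then the `p`-socle of the cyclic group generated by `t ∈ J₀(M)[p^k]`, then
  `exists_eigenform_of_torsion_eigenclass`;
* **`tamePackagePow hqM hA h5 p k hk hpq hmono : TamePackage (M * q) q (p ^ k) A`**.
-/
import Fermat.Agent.S43lib.B0.Lift.Old
import Fermat.Agent.S43lib.B0.Pkg.TorsEigen

set_option autoImplicit false
set_option linter.unusedSectionVars false
set_option linter.style.haveILetI false

noncomputable section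

namespace Fermat.Agent.S43lib.B0.EndBlock

open AlgebraicCurve ModularCurve
open Fermat.Agent.S18lib Fermat.Agent.S37lib Fermat.Agent.S19lib
open Fermat.Agent.S44lib Fermat.Agent.S44lib.Kap Fermat.Agent.S33lib
open Fermat.Agent.LSb Fermat.Agent.LSb.Unit Fermat.Agent.S44lib.Q4
open Fermat.Agent.S43lib.B0

local notation "Qb" => AlgebraicClosure ℚ
local notation "GQ" => (AlgebraicClosure ℚ ≃ₐ[ℚ] AlgebraicClosure ℚ)
local notation "Zbar" => integralClosure ℤ ℂ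

variable {M q : ℕ} [NeZero M] [NeZero q] [hq : Fact q.Prime] {A : ValuationSubring Qb}
variable (hqM : ¬ q ∣ M) (hA : A.LiesOverPrime q) (h5 : 5 ≤ q)

/-- **the tame core at level `M q`, exponent `m`** (`q ∤ m`, `m ∤ 12`, `m > 0`) -/
def tameCorePow (m : ℕ) (hm0 : 0 < m) (hqm : ¬ q ∣ m)
    (hmono : ∀ x ∈ tors (M * q) (m : ℤ), (∀ σ ∈ IA A, σ • x = x) →
      tRes hqM hA m (tPsi hqM hA m x) ∈ tEis hqM hA m) :
    TameCore (M * q) q m A where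
  Ω := TOm A M m
  R := TRes hqM hA m
  Ψ := tPsi hqM hA m
  res := tRes hqM hA m
  TΩ := tTΩ A M m
  TR := tTR hqM hA m
  Eis := tEis hqM hA m
  K := tK hqM hA m
  w := wqJHom hqM
  Ψ_add := tPsi_add hqM hA m
  Ψ_hecke := tPsi_hecke hqM hA m
  res_hecke := tRes_hecke hqM hA m (modCtx hqM hA h5)
  K_le := tK_le hqM hA m
  mem_K := mem_tK hqM hA m (modCtx hqM hA h5) hm0
  p_smul_R := fun ρ => m_smul_res m ρ
  mono := hmono
  eis := fun ℓ hℓN _ ρ hρ => tEis_hecke hqM hA m (by omega) ℓ hℓN ρ hρ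
  w_galois := wqJHom_galois hqM
  w_invol := wqJHom_wqJHom hqM
  frobK := tFrobK hqM hA m (modCtx hqM hA h5) hqm

/-- the `p`-socle of a non-zero `p^k`-torsion element -/
theorem exists_socle_smul {G : Type*} [AddCommGroup G] (p k : ℕ) (t : G) (ht0 : t ≠ 0)
    (hpk : (p ^ k) • t = 0) : ∃ j : ℕ, (p ^ j) • t ≠ 0 ∧ p • ((p ^ j) • t) = 0 := by
  classical
  have hex : ∃ j : ℕ, (p ^ j) • t = 0 := ⟨k, hpk⟩
  have hj0 : Nat.find hex ≠ 0 := by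
    intro h0
    have := Nat.find_spec hex
    rw [h0, pow_zero, one_smul] at this
    exact ht0 this
  obtain ⟨j, hj⟩ := Nat.exists_eq_succ_of_ne_zero hj0
  refine ⟨j, Nat.find_min hex (by omega), ?_⟩
  have := Nat.find_spec hex
  rw [hj, pow_succ', mul_smul] at this
  exact this

include h5 in
/-- **the field `old` at exponent `p^k`** -/
theorem tameOld_pow (p k : ℕ) [hpf : Fact p.Prime] (hk : 0 < k) (hpq : p ≠ q)
    (x : JZero (M * q)) (hx : x ∈ tors (M * q) ((p ^ k : ℕ) : ℤ))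
    (hΨ : tPsi hqM hA (p ^ k) x ≠ 0) (hres : tRes hqM hA (p ^ k) (tPsi hqM hA (p ^ k) x) = 0)
    (a : ℕ → ℤ) (S : ℕ → Prop) (hS : ∀ ℓ, S ℓ → ℓ.Prime ∧ ¬ ℓ ∣ M * q)
    (heig : ∀ (ℓ : ℕ) (hℓ : ℓ.Prime), S ℓ →
      tTΩ A M (p ^ k) ⟨ℓ, hℓ⟩ (tPsi hqM hA (p ^ k) x) = (a ℓ) • tPsi hqM hA (p ^ k) x) :
    ∃ (g : CuspForm (CongruenceSubgroup.Gamma0 (M * q / q)) 2) (𝔪 : Ideal Zbar),
      g.IsNormalizedEigenform ∧ 𝔪.IsMaximal ∧ ((p ^ k : ℕ) : Zbar) ∈ 𝔪 ∧ CongruentTo g 𝔪 a S := by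
  have hp' : p.Prime := hpf.out
  have hq' : q.Prime := hq.out
  have hqp : ¬ q ∣ p ^ k := fun h =>
    hpq ((Nat.prime_dvd_prime_iff_eq hq' hp').1 (hq'.dvd_of_dvd_pow h)).symm
  have hm0 : p ^ k ≠ 0 := pow_ne_zero k hp'.ne_zero
  have hx0 : ((p ^ k : ℕ) : ℤ) • x = 0 := smul_eq_zero_of_mem_tors' hx
  haveI : HasPrincipalDivisors (IsLocalRing.ResidueField A) (FRes A M) := modHpdK hqM hA
  -- the two components
  have hord₁ : ∀ Q : Place (IsLocalRing.ResidueField A) (FRes A M),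
      Om.ordHom Q (tPsi hqM hA (p ^ k) x).1 = 0 := by
    intro Q
    by_cases hQ : ∃ c, Q = (modNod hqM hA).x₁ c
    · obtain ⟨c, rfl⟩ := hQ
      have := congrArg (fun r => r.1 c) hres
      exact this
    · push Not at hQ
      exact ordHom_psi_eq_zero_of_ne₁ (modNRed hqM hA h5) (modCtx hqM hA h5) hx0 hQ
  have hord₂ : ∀ Q : Place (IsLocalRing.ResidueField A) (FRes A M),
      Om.ordHom Q (tPsi hqM hA (p ^ k) x).2 = 0 := by
    intro Q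
    by_cases hQ : ∃ c, Q = (modNod hqM hA).x₂ c
    · obtain ⟨c, rfl⟩ := hQ
      have := congrArg (fun r => r.2 c) hres
      exact this
    · push Not at hQ
      exact ordHom_psi_eq_zero_of_ne₂ (modNRed hqM hA h5) (modCtx hqM hA h5) hx0 hQ
  have heig₁ : ∀ (ℓ : ℕ) [NeZero ℓ], S ℓ →
      Q4.heckeOm A M ℓ (p ^ k) (tPsi hqM hA (p ^ k) x).1 = a ℓ • (tPsi hqM hA (p ^ k) x).1 := by
    intro ℓ _ hSℓ
    exact congrArg Prod.fst (heig ℓ (hS ℓ hSℓ).1 hSℓ)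
  have heig₂ : ∀ (ℓ : ℕ) [NeZero ℓ], S ℓ →
      Q4.heckeOm A M ℓ (p ^ k) (tPsi hqM hA (p ^ k) x).2 = a ℓ • (tPsi hqM hA (p ^ k) x).2 := by
    intro ℓ _ hSℓ
    exact congrArg Prod.snd (heig ℓ (hS ℓ hSℓ).1 hSℓ)
  have hne : (tPsi hqM hA (p ^ k) x).1 ≠ 0 ∨ (tPsi hqM hA (p ^ k) x).2 ≠ 0 := by
    by_contra hcon
    rw [not_or, not_not, not_not] at hcon
    exact hΨ (Prod.ext hcon.1 hcon.2)
  have key : ∃ t : JZero M, t ≠ 0 ∧ ((p ^ k : ℕ) : ℤ) • t = 0 ∧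
      ∀ (ℓ : ℕ) (hℓ : ℓ.Prime), S ℓ → heckeOperatorBar M ⟨ℓ, hℓ⟩ t = a ℓ • t := by
    rcases hne with h1 | h2
    · exact Lift.exists_eigen_torsion_of_om hqM hA (p ^ k) hm0 hqp _ h1 hord₁ a S hS heig₁
    · exact Lift.exists_eigen_torsion_of_om hqM hA (p ^ k) hm0 hqp _ h2 hord₂ a S hS heig₂
  obtain ⟨t, ht0, hpt, hte⟩ := key
  -- the `p`-socle
  rw [natCast_zsmul] at hpt
  obtain ⟨j, hj0, hjp⟩ := exists_socle_smul p k t ht0 hpt
  have hSM : ∀ ℓ, S ℓ → ℓ.Prime ∧ ¬ ℓ ∣ M := fun ℓ h =>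
    ⟨(hS ℓ h).1, fun hd => (hS ℓ h).2 (hd.trans (Dvd.intro q rfl))⟩
  have hte' : ∀ (ℓ : ℕ) (hℓ : ℓ.Prime), S ℓ →
      heckeOperatorBar M ⟨ℓ, hℓ⟩ ((p ^ j) • t) = a ℓ • ((p ^ j) • t) := by
    intro ℓ hℓ hSℓ
    rw [map_nsmul, hte ℓ hℓ hSℓ, smul_comm]
  obtain ⟨g, 𝔪, hg, h𝔪, hp𝔪, hcong⟩ :=
    exists_eigenform_of_torsion_eigenclass M p ((p ^ j) • t) hj0 hjp a S hSM hte'
  have hMq : M * q / q = M := Nat.mul_div_cancel M hq'.pos
  have hpk𝔪 : ((p ^ k : ℕ) : Zbar) ∈ 𝔪 := by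
    rw [Nat.cast_pow]
    exact Ideal.pow_mem_of_mem 𝔪 hp𝔪 k hk
  have fin : ∀ (M' : ℕ), M' = M →
      ∃ (g : CuspForm (CongruenceSubgroup.Gamma0 M') 2) (𝔪 : Ideal Zbar),
        g.IsNormalizedEigenform ∧ 𝔪.IsMaximal ∧ ((p ^ k : ℕ) : Zbar) ∈ 𝔪 ∧ CongruentTo g 𝔪 a S := by
    rintro M' rfl
    exact ⟨g, 𝔪, hg, h𝔪, hpk𝔪, hcong⟩
  exact fin _ hMq

/-- **the tame package at level `M q`, exponent `p^k`** (`q ≥ 5`, `p ≥ 5` prime, `p ≠ q`, `k ≥ 1`) -/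
def tamePackagePow (p k : ℕ) [hpf : Fact p.Prime] (hk : 0 < k) (hpq : p ≠ q)
    (hmono : ∀ x ∈ tors (M * q) ((p ^ k : ℕ) : ℤ), (∀ σ ∈ IA A, σ • x = x) →
      tRes hqM hA (p ^ k) (tPsi hqM hA (p ^ k) x) ∈ tEis hqM hA (p ^ k)) :
    TamePackage (M * q) q (p ^ k) A :=
  (tameCorePow hqM hA h5 (p ^ k) (pow_pos hpf.out.pos k)
    (fun h => hpq ((Nat.prime_dvd_prime_iff_eq hq.out hpf.out).1
      (hq.out.dvd_of_dvd_pow h)).symm) hmono).toPackage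
    (fun x hx hΨ hres a S hS _ heig =>
      tameOld_pow hqM hA h5 p k hk hpq x hx hΨ hres a S
        (fun ℓ hℓ => ⟨(hS ℓ hℓ).1, (hS ℓ hℓ).2.1⟩) heig)

end Fermat.Agent.S43lib.B0.EndBlock

end
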