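/-
S43lib / B0 / End / Main  (helper6)  — Project H, block END (`readout`).

**`ENDStmt`** : `P` a Frey package, `N` a conductor level prime to `p = P.p`, `q ≥ 5` a prime of `N`,
`ρ̄ = E[p]` irreducible; `χ : 𝕋_N^{(S)} → 𝒪'` (`S` = primes of `N p`, `𝒪'` a complete DVR of
characteristic `0` with finite residue field of characteristic `p`) congruent to `ρ̄`, `ρ` a Galois
representation over `𝒪'` with the characteristic polynomials of `χ` at the Frobenius elements outside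
`S`, spanning `End(V)`, UNRAMIFIED AT `q`.  Then `ρ̄` is modular of level `N / q`.

**`endStmt : ENDStmt`** (unconditional; the tame `(M′)` at the exponents `p^k` is helper1's
`End/TameEisPow.lean`).  Proof: `m = p^k` with `p^k > q (q - 1)`, `R = 𝒪' / p^k`,
`𝒲 = Hom(R^∨, J₀(N)[m])^χ`: faithful (`Faith`), Cayley–Hamilton for all of `G_ℚ` (`CH`), the abstract core
(`Core`) gives an abelian eigenclass, `G.old` (`TamePow`) the eigenform of level `N / q`.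
-/
import Fermat.Agent.S43lib.B0.End.CH
import Fermat.Agent.S43lib.B0.End.Faith
import Fermat.Agent.S43lib.B0.End.ArithO
import Fermat.Agent.S43lib.B0.End.TamePow
import Fermat.Agent.S43lib.B0.End.TameEisPow
import Fermat.Agent.S43lib.B0.End.MatMod
import Fermat.Agent.S43lib.B0.End.PrimEigen
import Fermat.Agent.S43lib.B0.Arith
import Fermat.Agent.S44lib.Q1.NonEis
import Fermat.Agent.S29lib.Z.Final
import Fermat.Agent.S29lib.GH.LocalData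
import Fermat.Agent.Helper5.FrobExists

set_option autoImplicit false
set_option linter.unusedSectionVars false
set_option linter.style.haveILetI false

noncomputable section

namespace Fermat.Agent.S43lib.B0.EndBlock

open Matrix ModularCurve Polynomial IsLocalRing
open Fermat.Agent.S19lib Fermat.Agent.S33lib Fermat.Agent.S44lib Fermat.Agent.S44lib.Kap
open Fermat.Agent.S29lib Fermat.Agent.S43lib.B0
open WeierstrassCurve WeierstrassCurve.Affine WeierstrassCurve.Affine.Point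

local notation "Qb" => AlgebraicClosure ℚ
local notation "GQ" => (AlgebraicClosure ℚ ≃ₐ[ℚ] AlgebraicClosure ℚ)
local notation "Zbar" => integralClosure ℤ ℂ

/-- **Block END** -/
def ENDStmt : Prop :=
  ∀ (P : FreyPackage) (N q : ℕ) [NeZero N], P.IsConductorLevel N → ¬ P.p ∣ N → q.Prime → 5 ≤ q →
    q ∣ N → GaloisRepIsIrreducible (K := Qb) ℚ P.freyCurve P.p →
    ∀ (W : WeierstrassCurve ℤ), W.IsIntegralModelOf P.freyCurve →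
    ∀ (S : Finset ℕ), (∀ ℓ ∈ S, ℓ.Prime ∧ ℓ ∣ N * P.p) → P.p ∈ S →
      (∀ ℓ : ℕ, ℓ.Prime → ℓ ∣ N → ℓ ∈ S) →
    ∀ (𝒪' : Type) [CommRing 𝒪'] [IsDomain 𝒪'] [IsDiscreteValuationRing 𝒪']
      [IsAdicComplete (maximalIdeal 𝒪') 𝒪'] [Finite (ResidueField 𝒪')] [CharZero 𝒪'],
      (P.p : 𝒪') ∈ maximalIdeal 𝒪' →
    ∀ (χ : CuspForm.heckeAlgebra N 2 (↑S : Set ℕ) →+* 𝒪'),
      (∀ (ℓ : ℕ) (hℓ : ℓ.Prime) (hℓN : ¬ ℓ ∣ N) (hℓS : ℓ ∉ (↑S : Set ℕ)), W.IsGoodPrimeFor ℓ →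
        χ (CuspForm.heckeAlgebra.T hℓ hℓN hℓS) - ((W.apOfModel ℓ : ℤ) : 𝒪') ∈ maximalIdeal 𝒪') →
    ∀ ρ : GaloisRepAdic 𝒪',
      (∀ (ℓ : ℕ) (hℓ : ℓ.Prime) (hℓN : ¬ ℓ ∣ N) (hℓS : ℓ ∉ (↑S : Set ℕ)),
        ∀ A : ValuationSubring Qb, A.LiesOverPrime ℓ → ∀ σ : GQ, A.IsFrobeniusAt σ ℓ →
          LinearMap.charpoly (ρ.ρ σ) =
            X ^ 2 - C (χ (CuspForm.heckeAlgebra.T hℓ hℓN hℓS)) * X + C (ℓ : 𝒪')) →
      Submodule.span 𝒪' (Set.range ρ.ρ) = (⊤ : Submodule 𝒪' (Module.End 𝒪' ρ.V)) →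
      ρ.IsUnramifiedAt q → P.ModularRepOfLevel (N / q)

/-- a sum of a non-unit and a unit is a unit -/
theorem isUnit_add_of_mem_maximalIdeal {𝒪 : Type*} [CommRing 𝒪] [IsLocalRing 𝒪] {x u : 𝒪}
    (hx : x ∈ maximalIdeal 𝒪) (hu : IsUnit u) : IsUnit (x + u) := by
  by_contra h
  have h1 : x + u ∈ maximalIdeal 𝒪 := (mem_maximalIdeal _).2 h
  have h2 : u ∈ maximalIdeal 𝒪 := by
    have : u = (x + u) - x := by ring
    rw [this]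
    exact Ideal.sub_mem _ h1 hx
  exact (mem_maximalIdeal _).1 h2 hu


section Level

variable (P : FreyPackage) {M q : ℕ} [NeZero M] [NeZero q] [hqf : Fact q.Prime]
  (𝒪' : Type) [CommRing 𝒪'] [IsDomain 𝒪'] [IsDiscreteValuationRing 𝒪'] [CharZero 𝒪']
  (S : Finset ℕ) (χ : CuspForm.heckeAlgebra (M * q) 2 (↑S : Set ℕ) →+* 𝒪') (k : ℕ)

/-- the coefficient ring `R = 𝒪' / p^k` -/
abbrev RR : Type := 𝒪' ⧸ Ideal.span {((P.p : 𝒪')) ^ k}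

/-- the good primes: `ℓ ∤ N`, `ℓ ∉ S` -/
def goodP (ℓ : Nat.Primes) : Prop := ¬ (ℓ : ℕ) ∣ M * q ∧ (ℓ : ℕ) ∉ (↑S : Set ℕ)

open Classical in
/-- the eigenvalues in `R` -/
def aR (ℓ : Nat.Primes) : RR P 𝒪' k :=
  if h : goodP (M := M) (q := q) S ℓ then
    Ideal.Quotient.mk _ (χ (CuspForm.heckeAlgebra.T ℓ.2 h.1 h.2))
  else 0

theorem aR_of_good {ℓ : ℕ} (hℓ : ℓ.Prime) (hℓN : ¬ ℓ ∣ M * q) (hℓS : ℓ ∉ (↑S : Set ℕ)) :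
    aR P 𝒪' S χ k ⟨ℓ, hℓ⟩ =
      Ideal.Quotient.mk _ (χ (CuspForm.heckeAlgebra.T hℓ hℓN hℓS)) := by
  have h : goodP (M := M) (q := q) S ⟨ℓ, hℓ⟩ := ⟨hℓN, hℓS⟩
  unfold aR
  rw [dif_pos h]

theorem natCast_pow_RR_eq_zero : ((P.p ^ k : ℕ) : RR P 𝒪' k) = 0 := by
  have h : ((P.p ^ k : ℕ) : RR P 𝒪' k) =
      Ideal.Quotient.mk (Ideal.span {((P.p : 𝒪')) ^ k}) (((P.p : 𝒪')) ^ k) := by
    rw [Nat.cast_pow, map_pow, map_natCast]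
  rw [h, Ideal.Quotient.eq_zero_iff_mem]
  exact Ideal.subset_span rfl


/-- **END at the level `M q`** -/
theorem end_level (hqM : ¬ q ∣ M) (hcond : P.IsConductorLevel (M * q))
    (hpN : ¬ P.p ∣ M * q) (h5 : 5 ≤ q)
    (hirr : GaloisRepIsIrreducible (K := Qb) ℚ P.freyCurve P.p)
    (W : WeierstrassCurve ℤ) (hW : W.IsIntegralModelOf P.freyCurve)
    (hS : ∀ ℓ ∈ S, ℓ.Prime ∧ ℓ ∣ M * q * P.p) (hpS : P.p ∈ S)
    (hNS : ∀ ℓ : ℕ, ℓ.Prime → ℓ ∣ M * q → ℓ ∈ S)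
    [IsAdicComplete (maximalIdeal 𝒪') 𝒪'] [Finite (ResidueField 𝒪')]
    (hp𝒪' : (P.p : 𝒪') ∈ maximalIdeal 𝒪')
    (hχ : ∀ (ℓ : ℕ) (hℓ : ℓ.Prime) (hℓN : ¬ ℓ ∣ M * q) (hℓS : ℓ ∉ (↑S : Set ℕ)),
      W.IsGoodPrimeFor ℓ →
        χ (CuspForm.heckeAlgebra.T hℓ hℓN hℓS) - ((W.apOfModel ℓ : ℤ) : 𝒪') ∈ maximalIdeal 𝒪')
    (ρ : GaloisRepAdic 𝒪')
    (hρ : ∀ (ℓ : ℕ) (hℓ : ℓ.Prime) (hℓN : ¬ ℓ ∣ M * q) (hℓS : ℓ ∉ (↑S : Set ℕ)),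
      ∀ A : ValuationSubring Qb, A.LiesOverPrime ℓ → ∀ σ : GQ, A.IsFrobeniusAt σ ℓ →
        LinearMap.charpoly (ρ.ρ σ) =
          X ^ 2 - C (χ (CuspForm.heckeAlgebra.T hℓ hℓN hℓS)) * X + C (ℓ : 𝒪'))
    (hspan : Submodule.span 𝒪' (Set.range ρ.ρ) = (⊤ : Submodule 𝒪' (Module.End 𝒪' ρ.V)))
    (hunr : ρ.IsUnramifiedAt q) : P.ModularRepOfLevel (M * q / q) := by
  classical
  have hp : P.p.Prime := P.pp
  haveI : Fact P.p.Prime := ⟨hp⟩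
  have hp5 : 5 ≤ P.p := P.hp5
  have hq : q.Prime := hqf.out
  have hqp : q ≠ P.p := fun h => hpN (h ▸ Dvd.intro_left M rfl)
  -- the exponent
  set k : ℕ := q * (q - 1) with hk
  have hk0 : 0 < k := Nat.mul_pos hq.pos (by omega)
  have hkq : q * (q - 1) < P.p ^ k := Nat.lt_pow_self hp.one_lt
  have hR := natCast_pow_RR_eq_zero P 𝒪' k
  -- `2` is a unit
  have h2 : IsUnit (2 : RR P 𝒪' k) := by
    have h := isUnit_natCast_of_not_dvd hp hp𝒪' 2 (fun hd => by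
      have := Nat.le_of_dvd (by norm_num) hd
      omega)
    have h' := h.map (Ideal.Quotient.mk (Ideal.span {((P.p : 𝒪')) ^ k}))
    rw [map_natCast] at h'
    exact_mod_cast h'
  -- the good primes
  have hgood : ∀ ℓ, goodP (M := M) (q := q) S ℓ → ¬ (ℓ : ℕ) ∣ M * q := fun ℓ h => h.1
  have hS₀ : ∀ (ℓ : ℕ) (hℓ : ℓ.Prime), ℓ ∉ S →
      goodP (M := M) (q := q) S ⟨ℓ, hℓ⟩ ∧ ¬ ℓ ∣ M * q * P.p := by
    intro ℓ hℓ hℓS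
    have h1 : ¬ ℓ ∣ M * q := fun hd => hℓS (hNS ℓ hℓ hd)
    refine ⟨⟨h1, fun h => hℓS (Finset.mem_coe.1 h)⟩, fun hd => ?_⟩
    rcases (Nat.Prime.dvd_mul hℓ).1 hd with h | h
    · exact h1 h
    · exact hℓS (((Nat.prime_dvd_prime_iff_eq hℓ hp).1 h) ▸ hpS)
  -- the representation modulo `p^k`
  let b : Module.Basis (Fin 2) 𝒪' ρ.V := Module.finBasisOfFinrankEq 𝒪' ρ.V ρ.finrank_eq
  set ρb := matMod ρ b (Ideal.span {((P.p : 𝒪')) ^ k}) with hρb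
  have hspanb : Submodule.span (RR P 𝒪' k) (Set.range ρb) = ⊤ :=
    span_range_matMod_eq_top ρ b _ hspan
  obtain ⟨n, hn⟩ := exists_pow_le_span_natCast_pow (A := 𝒪') P.p k hp.ne_zero
  have hfl := exists_finiteLevel_matMod ρ b (Ideal.span {((P.p : 𝒪')) ^ k}) hn
  have hfrob : ∀ (ℓ : ℕ) (hℓ : ℓ.Prime), ℓ ∉ S → ∀ A : ValuationSubring Qb, A.LiesOverPrime ℓ →
      ∀ φ : GQ, A.IsFrobeniusAt φ ℓ →
        (ρb φ).trace = aR P 𝒪' S χ k ⟨ℓ, hℓ⟩ ∧ (ρb φ).det = (ℓ : RR P 𝒪' k) := by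
    intro ℓ hℓ hℓS A hA φ hφ
    have hg := (hS₀ ℓ hℓ hℓS).1
    have h1 := matMod_trace_det_of_charpoly ρ b (Ideal.span {((P.p : 𝒪')) ^ k})
      (hρ ℓ hℓ hg.1 hg.2 A hA φ hφ)
    rw [aR_of_good P 𝒪' S χ k hℓ hg.1 hg.2]
    refine ⟨h1.1, ?_⟩
    rw [h1.2, map_natCast]
  -- comparison data, local data, Cayley–Hamilton
  obtain ⟨Cd, hCd⟩ := Z.compStatement (M * q) P.p hp
  have LD : LocalData (M * q) P.p := GH.localData_of_comparisonData Cd hp.ne_zero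
  have hCH := actW_CH (D := Dl (RR P 𝒪' k) (P.p ^ k)) k LD ρb hfl S hS₀ hfrob
  -- the place over `q` and a Frobenius element
  obtain ⟨A, hA⟩ := Fermat.Agent.S13lib.exists_liesOverPrime hq
  obtain ⟨φ, hφ⟩ : ∃ φ : GQ, A.IsFrobeniusAt φ q := by
    obtain ⟨B, σ, hB, hσ⟩ := Fermat.Agent.Helper5.exists_isFrobeniusAt q hq
    obtain ⟨g, hg⟩ := Fermat.Agent.S56lib.TWSel.exists_smul_eq_of_liesOverPrime hq hB hA
    refine ⟨g * σ * g⁻¹, ?_⟩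
    rw [hg]
    exact Fermat.Agent.S56lib.TWSel.isFrobeniusAt_conj hσ
  have hI : ∀ τ ∈ IA A, ρb τ = 1 := fun τ hτ =>
    matMod_eq_one_of_rho_eq_one ρ b _ (hunr A hA τ hτ)
  have hdet : (ρb φ).det = (q : RR P 𝒪' k) :=
    det_eq_of_isFrobeniusAt k LD ρb hfl S hS₀ hfrob hR hq hqp hA hφ
  have hq2 : (q : RR P 𝒪' k) ^ 2 ≠ (q : RR P 𝒪' k) := by
    have h := natCast_sq_ne_self hp hp𝒪' k q (by omega) hkq
    rwa [map_natCast] at h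
  -- faithfulness
  obtain ⟨v, ⟨i₀, hi₀⟩, hv⟩ := exists_primitive_eigenvector Cd hCd (↑S : Set ℕ) 𝒪' χ
  have hfaith : ∀ c : RR P 𝒪' k,
      (∀ (h : WW (M * q) (P.p ^ k) (goodP (M := M) (q := q) S) (aR P 𝒪' S χ k)
          (Dl (RR P 𝒪' k) (P.p ^ k))) (f : Dl (RR P 𝒪' k) (P.p ^ k)),
        (h : Dl (RR P 𝒪' k) (P.p ^ k) →+ JZero (M * q)) (c • f) = 0) → c = 0 := by
    refine faithful_of_primitive Cd k
      (fun i => Ideal.Quotient.mk (Ideal.span {((P.p : 𝒪')) ^ k}) (v i)) hp.pos hR hgood ?_ i₀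
      (hi₀.map _)
    intro ℓ hℓ
    have h1 := hv (ℓ : ℕ) ℓ.2 hℓ.1 hℓ.2
    have h3 : ((Cd.t ⟨(ℓ : ℕ), ℓ.2⟩).map (Int.cast : ℤ → 𝒪')).map
        (Ideal.Quotient.mk (Ideal.span {((P.p : 𝒪')) ^ k})) =
        (Cd.t ℓ).map (Int.cast : ℤ → RR P 𝒪' k) := by
      ext i j
      simp
    have ha : aR P 𝒪' S χ k ℓ = Ideal.Quotient.mk (Ideal.span {((P.p : 𝒪')) ^ k})
        (χ (CuspForm.heckeAlgebra.T ℓ.2 hℓ.1 hℓ.2)) :=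
      aR_of_good P 𝒪' S χ k ℓ.2 hℓ.1 hℓ.2
    rw [ha]
    funext i
    have e1 := RingHom.map_mulVec (Ideal.Quotient.mk (Ideal.span {((P.p : 𝒪')) ^ k}))
      ((Cd.t ⟨(ℓ : ℕ), ℓ.2⟩).map (Int.cast : ℤ → 𝒪')) v i
    rw [h3, h1] at e1
    rw [Pi.smul_apply, smul_eq_mul, ← map_mul]
    exact e1.symm
  -- test primes are outside `S`
  have htestS : ∀ ℓ, IsTestPrime W (M * q) P.p ℓ → ℓ ∉ S := by
    intro ℓ hℓ h
    rcases (Nat.Prime.dvd_mul hℓ.1).1 (hS ℓ h).2 with h2 | h2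
    · exact hℓ.2.2.1 h2
    · exact hℓ.2.2.2 ((Nat.prime_dvd_prime_iff_eq hℓ.1 hp).1 h2)
  have hne_pow : ∀ ℓ : ℕ, ℓ.Prime → ℓ ≠ P.p → ℓ ≠ P.p ^ k := by
    intro ℓ hℓ hne h
    have h1 : P.p ∣ ℓ := h ▸ dvd_pow_self P.p hk0.ne'
    exact hne ((Nat.prime_dvd_prime_iff_eq hp hℓ).1 h1).symm
  -- the non-Eisenstein prime
  obtain ⟨ℓ₀, hℓ₀test, hℓ₀ne⟩ := Fermat.Agent.S44lib.Q1.nonEisStmt P (M * q) W hcond.pos hW hirr
  have hℓ₀S : ℓ₀ ∉ S := htestS ℓ₀ hℓ₀test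
  have hℓ₀g := (hS₀ ℓ₀ hℓ₀test.1 hℓ₀S).1
  have hu : IsUnit (aR P 𝒪' S χ k ⟨ℓ₀, hℓ₀test.1⟩ - (((ℓ₀ : ℕ) + 1 : ℤ) : RR P 𝒪' k)) := by
    rw [aR_of_good P 𝒪' S χ k hℓ₀test.1 hℓ₀g.1 hℓ₀g.2]
    have h1 : IsUnit ((χ (CuspForm.heckeAlgebra.T hℓ₀test.1 hℓ₀g.1 hℓ₀g.2) -
        ((W.apOfModel ℓ₀ : ℤ) : 𝒪')) + ((W.apOfModel ℓ₀ - ((ℓ₀ : ℤ) + 1) : ℤ) : 𝒪')) :=
      isUnit_add_of_mem_maximalIdeal (hχ ℓ₀ hℓ₀test.1 hℓ₀g.1 hℓ₀g.2 hℓ₀test.2.1)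
        (isUnit_intCast_of_not_dvd hp hp𝒪' _ hℓ₀ne)
    have h2 := h1.map (Ideal.Quotient.mk (Ideal.span {((P.p : 𝒪')) ^ k}))
    have h3 : Ideal.Quotient.mk (Ideal.span {((P.p : 𝒪')) ^ k})
        ((χ (CuspForm.heckeAlgebra.T hℓ₀test.1 hℓ₀g.1 hℓ₀g.2) -
        ((W.apOfModel ℓ₀ : ℤ) : 𝒪')) + ((W.apOfModel ℓ₀ - ((ℓ₀ : ℤ) + 1) : ℤ) : 𝒪')) =
        Ideal.Quotient.mk (Ideal.span {((P.p : 𝒪')) ^ k})
          (χ (CuspForm.heckeAlgebra.T hℓ₀test.1 hℓ₀g.1 hℓ₀g.2)) -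
          (((ℓ₀ : ℕ) + 1 : ℤ) : RR P 𝒪' k) := by
      rw [← map_intCast (Ideal.Quotient.mk (Ideal.span {((P.p : 𝒪')) ^ k})) (((ℓ₀ : ℕ) + 1 : ℤ)),
        ← map_sub]
      congr 1
      push_cast
      ring
    rw [← h3]
    exact h2
  -- the uniformizer
  obtain ⟨ϖ, hϖirr⟩ := IsDiscreteValuationRing.exists_irreducible 𝒪'
  have hmax : maximalIdeal 𝒪' = Ideal.span {ϖ} := hϖirr.maximalIdeal_eq
  have hϖnil : ∃ n : ℕ, (Ideal.Quotient.mk (Ideal.span {((P.p : 𝒪')) ^ k}) ϖ) ^ n = 0 := by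
    refine ⟨n, ?_⟩
    rw [← map_pow, Ideal.Quotient.eq_zero_iff_mem]
    apply hn
    refine Ideal.pow_mem_pow ?_ n
    rw [hmax]
    exact Ideal.subset_span rfl
  have hS' : ∀ (ℓ : ℕ) (hℓ : ℓ.Prime), IsTestPrime W (M * q) P.p ℓ →
      goodP (M := M) (q := q) S ⟨ℓ, hℓ⟩ ∧
      aR P 𝒪' S χ k ⟨ℓ, hℓ⟩ - ((W.apOfModel ℓ : ℤ) : RR P 𝒪' k) ∈
        Ideal.span {Ideal.Quotient.mk (Ideal.span {((P.p : 𝒪')) ^ k}) ϖ} := by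
    intro ℓ hℓ hℓt
    have hg := (hS₀ ℓ hℓ (htestS ℓ hℓt)).1
    refine ⟨hg, ?_⟩
    rw [aR_of_good P 𝒪' S χ k hℓ hg.1 hg.2]
    have h1 := hχ ℓ hℓ hg.1 hg.2 hℓt.2.1
    rw [hmax, Ideal.mem_span_singleton'] at h1
    obtain ⟨c, hc⟩ := h1
    rw [Ideal.mem_span_singleton']
    refine ⟨Ideal.Quotient.mk (Ideal.span {((P.p : 𝒪')) ^ k}) c, ?_⟩
    rw [← map_mul, hc, map_sub, map_intCast]
  -- the tame package at the exponent `p^k`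
  have hqm : IsCoprime (q : ℤ) ((P.p ^ k : ℕ) : ℤ) := by
    have h1 : Nat.Coprime q (P.p ^ k) :=
      Nat.Coprime.pow_right k ((Nat.coprime_primes hq hp).2 hqp)
    exact_mod_cast Nat.isCoprime_iff_coprime.2 h1
  have h12 : Nat.Coprime (P.p ^ k) 12 := by
    apply Nat.Coprime.pow_left
    rw [Nat.Prime.coprime_iff_not_dvd hp]
    intro hd
    have h3 : P.p ∣ 2 ^ 2 * 3 := by norm_num; exact hd
    rcases (Nat.Prime.dvd_mul hp).1 h3 with h4 | h4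
    · have := Nat.le_of_dvd (by norm_num) (hp.dvd_of_dvd_pow h4)
      omega
    · have := Nat.le_of_dvd (by norm_num) h4
      omega
  let G : TamePackage (M * q) q (P.p ^ k) A :=
    tamePackagePow hqM hA h5 P.p k hk0 (Ne.symm hqp)
      (fun x hx hfix => resMap_psi_mem_eisSub_tame_pow hqM hA h5
        (Nat.one_lt_pow hk0.ne' hp.one_lt) h12 hx hfix)
  obtain ⟨x, hx, hΨ, hres, heig⟩ := exists_abelian_eigenclass G h2 hgood ρb hCH hspanb hI hqm φ hφ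
    hdet hq2 hfaith ⟨ℓ₀, hℓ₀test.1⟩ hℓ₀g (hne_pow ℓ₀ hℓ₀test.1 hℓ₀test.2.2.2) hu
    (Ideal.Quotient.mk (Ideal.span {((P.p : 𝒪')) ^ k}) ϖ) hϖnil W.apOfModel
    (IsTestPrime W (M * q) P.p) hS'
  have hSold : ∀ ℓ, IsTestPrime W (M * q) P.p ℓ → ℓ.Prime ∧ ¬ ℓ ∣ M * q ∧ ℓ ≠ P.p ^ k :=
    fun ℓ hℓ => ⟨hℓ.1, hℓ.2.2.1, hne_pow ℓ hℓ.1 hℓ.2.2.2⟩
  have hnonE : ∃ ℓ, IsTestPrime W (M * q) P.p ℓ ∧
      ¬ ((P.p ^ k : ℕ) : ℤ) ∣ W.apOfModel ℓ - (ℓ + 1) := by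
    refine ⟨ℓ₀, hℓ₀test, fun hd => hℓ₀ne (dvd_trans ?_ hd)⟩
    rw [Nat.cast_pow]
    exact dvd_pow_self _ hk0.ne'
  obtain ⟨g, 𝔪, hg, h𝔪, hp𝔪, hcong⟩ := G.old x hx hΨ hres W.apOfModel
    (IsTestPrime W (M * q) P.p) hSold hnonE heig
  have hp𝔪' : (P.p : Zbar) ∈ 𝔪 := by
    haveI := h𝔪.isPrime
    rw [Nat.cast_pow] at hp𝔪
    exact Ideal.IsPrime.mem_of_pow_mem inferInstance k hp𝔪
  refine ⟨g, W, 𝔪, hg, hW, h𝔪, hp𝔪', ?_⟩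
  intro ℓ hℓ hgoodℓ hℓM hℓp
  refine hcong ℓ ⟨hℓ, hgoodℓ, fun hℓN => ?_, hℓp⟩
  have hN : M * q = q * (M * q / q) := (Nat.mul_div_cancel' (Dvd.intro_left M rfl)).symm
  rw [hN] at hℓN
  rcases (Nat.Prime.dvd_mul hℓ).1 hℓN with h | h
  · have hℓq : ℓ = q := (Nat.prime_dvd_prime_iff_eq hℓ hq).1 h
    subst hℓq
    exact hgoodℓ (badPrimeStmt P W ℓ hℓ hW (hcond.support ℓ hℓ (Dvd.intro_left M rfl)))
  · exact hℓM h

end Level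

/-- **Block END**, unconditionally. -/
theorem endStmt : ENDStmt := by
  intro P N q _ hcond hpN hq h5 hqN hirr W hW S hS hpS hNS 𝒪' _ _ _ _ _ _ hp𝒪' χ hχ ρ hρ hspan hunr
  obtain ⟨M, hM⟩ : ∃ M, N = M * q := ⟨N / q, (Nat.div_mul_cancel hqN).symm⟩
  subst hM
  haveI : NeZero M := ⟨fun h => by
    have := hcond.pos
    rw [h, Nat.zero_mul] at this
    exact lt_irrefl _ this⟩
  haveI : NeZero q := ⟨hq.ne_zero⟩
  haveI : Fact q.Prime := ⟨hq⟩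
  have hqM : ¬ q ∣ M := by
    intro hd
    apply hcond.sq_not_dvd hq
    rw [pow_two]
    exact Nat.mul_dvd_mul hd (dvd_refl q)
  exact end_level P 𝒪' S χ hqM hcond hpN h5 hirr W hW hS hpS hNS hp𝒪' hχ ρ hρ hspan hunr

end Fermat.Agent.S43lib.B0.EndBlock

end
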