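/-
S43lib / B0 / End / Glue  (helper6)  — Project H, END-GLUE, the assembly half.

**`modularRepOfLevel_of_point`** : a point `x : R → D` of the deformation / trace ring `R` (with its
representation `ρ_R`) in a domain `D` finite over the complete DVR `𝒪`, `p ≠ 0` in `D` (`D = 𝕋_∅ / 𝔭`),
together with a character `χ₀ : 𝕋_N^{(S)} → D` of the classical Hecke algebra with
`χ₀ (T_ℓ) = x (tr ρ_R (Frob_ℓ))`, such that `x (tr ρ_R (Σ_q h)) = x (tr ρ_R h)` for all `h`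
(`Σ_q` the chosen generator of the `p`-part of the tame inertia at `q`): then `ρ̄` is modular of level `N / q`.

Steps: `D ↪ 𝒪'` = the integral closure of `𝒪` in `Frac D`, a complete DVR (`S29lib/Dvr`); the composite
`y : R → 𝒪'` is AUTOMATICALLY a local homomorphism (the residue field of `𝒪'` is finite);
`ρ := ρ_R.baseChangeAlong y`; helper4's `B3/EndGal` gives the characteristic polynomials, the span and the
unramifiedness at `q`; `endStmt` (`End/Main`) concludes.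
-/
import Fermat.Agent.S43lib.B0.End.Main
import Fermat.Agent.S43lib.B3.EndGal
import Fermat.Agent.S29lib.Dvr.IntegralClosure

set_option autoImplicit false
set_option linter.unusedSectionVars false
set_option linter.style.haveILetI false

noncomputable section

namespace Fermat.Agent.S43lib.B0.EndBlock

open Polynomial IsLocalRing
open Fermat.Agent.S43lib.B3 Fermat.Agent.S29lib.Dvr
open WeierstrassCurve WeierstrassCurve.Affine WeierstrassCurve.Affine.Point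

local notation "Qb" => AlgebraicClosure ℚ
local notation "GQ" => (AlgebraicClosure ℚ ≃ₐ[ℚ] AlgebraicClosure ℚ)

/-! ### ring homomorphisms into local rings with finite residue field are local -/

/-- a ring homomorphism from a local ring to a local ring with finite residue field is local -/
theorem isLocalHom_of_finite_residueField {R A : Type*} [CommRing R] [IsLocalRing R] [CommRing A]
    [IsLocalRing A] [Finite (ResidueField A)] (f : R →+* A) : IsLocalHom f := by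
  refine ⟨fun r hu => ?_⟩
  by_contra hr
  have hrm : r ∈ maximalIdeal R := (mem_maximalIdeal _).2 hr
  -- the residue of `f r` has finite order
  have hne : residue A (f r) ≠ 0 := by
    rw [Ne, residue_eq_zero_iff]
    exact fun h => (mem_maximalIdeal _).1 h hu
  haveI : Fintype (ResidueField A) := Fintype.ofFinite _
  have hpow : (residue A (f r)) ^ (Fintype.card (ResidueField A) - 1) = 1 :=
    FiniteField.pow_card_sub_one_eq_one _ hne
  set n := Fintype.card (ResidueField A) - 1 with hn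
  have hn0 : n ≠ 0 := by
    have := Fintype.one_lt_card (α := ResidueField A)
    omega
  -- `1 - r^n` is a unit
  have h1 : IsUnit (1 - r ^ n) := by
    have hrn : r ^ n ∈ maximalIdeal R := Ideal.pow_mem_of_mem _ hrm n (Nat.pos_of_ne_zero hn0)
    by_contra h
    have h2 : 1 - r ^ n ∈ maximalIdeal R := (mem_maximalIdeal _).2 h
    have h3 : (1 : R) ∈ maximalIdeal R := by
      have : (1 : R) = (1 - r ^ n) + r ^ n := by ring
      rw [this]
      exact Ideal.add_mem _ h2 hrn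
    exact (Ideal.ne_top_iff_one _).1 (maximalIdeal.isMaximal R).ne_top h3
  have h2 : IsUnit (f (1 - r ^ n)) := h1.map f
  have h3 : residue A (f (1 - r ^ n)) = 0 := by
    rw [map_sub, map_sub, map_one, map_one, map_pow, map_pow, hpow, sub_self]
  rw [residue_eq_zero_iff] at h3
  exact (mem_maximalIdeal _).1 h3 h2

/-! ### a domain finite over a complete DVR embeds into a complete DVR -/

section DVR

attribute [local instance] FractionRing.liftAlgebra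

/-- **a domain finite over a complete DVR of characteristic `0` embeds into a complete DVR** -/
theorem exists_dvr_of_finite_domain {𝒪 : Type} [CommRing 𝒪] [IsDomain 𝒪]
    [IsDiscreteValuationRing 𝒪] [CharZero 𝒪] [IsAdicComplete (maximalIdeal 𝒪) 𝒪]
    [Finite (ResidueField 𝒪)]
    {D : Type} [CommRing D] [IsDomain D] [Algebra 𝒪 D] [Module.Finite 𝒪 D]
    (hinj : Function.Injective (algebraMap 𝒪 D)) :
    ∃ (𝒪' : Type) (_ : CommRing 𝒪') (_ : IsDomain 𝒪') (_ : IsDiscreteValuationRing 𝒪')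
      (_ : IsAdicComplete (maximalIdeal 𝒪') 𝒪') (_ : Finite (ResidueField 𝒪')) (_ : CharZero 𝒪')
      (ι : D →+* 𝒪'), Function.Injective ι ∧
        ∀ a : 𝒪, a ∈ maximalIdeal 𝒪 → ι (algebraMap 𝒪 D a) ∈ maximalIdeal 𝒪' := by
  haveI : FaithfulSMul 𝒪 D := (faithfulSMul_iff_algebraMap_injective 𝒪 D).2 hinj
  haveI : Module.IsTorsionFree 𝒪 D := inferInstance
  haveI : FaithfulSMul 𝒪 (FractionRing D) := by
    rw [faithfulSMul_iff_algebraMap_injective, IsScalarTower.algebraMap_eq 𝒪 D (FractionRing D)]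
    exact (IsFractionRing.injective D (FractionRing D)).comp hinj
  haveI : FiniteDimensional (FractionRing 𝒪) (FractionRing D) := inferInstance
  obtain ⟨i1, i2, i3, i4, i5, -, i7, -⟩ :=
    exists_dvr_structure 𝒪 (FractionRing 𝒪) (FractionRing D)
  have hint : ∀ d : D, algebraMap D (FractionRing D) d ∈ OL 𝒪 (FractionRing D) := by
    intro d
    have h1 : IsIntegral 𝒪 d := Algebra.IsIntegral.isIntegral d
    exact h1.map (IsScalarTower.toAlgHom 𝒪 D (FractionRing D))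
  let ι : D →+* OL 𝒪 (FractionRing D) :=
    (algebraMap D (FractionRing D)).codRestrict (OL 𝒪 (FractionRing D)).toSubring hint
  refine ⟨OL 𝒪 (FractionRing D), inferInstance, i1, i2, i3, i4, i5, ι, ?_, ?_⟩
  · intro a b hab
    apply IsFractionRing.injective D (FractionRing D)
    exact congrArg Subtype.val hab
  · intro a ha
    have h1 : ι (algebraMap 𝒪 D a) = algebraMap 𝒪 (OL 𝒪 (FractionRing D)) a := by
      apply Subtype.ext
      exact (IsScalarTower.algebraMap_apply 𝒪 D (FractionRing D) a).symm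
    rw [h1, mem_maximalIdeal]
    intro hu
    exact (mem_maximalIdeal _).1 ha (i7.map_nonunit a hu)

end DVR

/-- a domain over a DVR in which a non-unit natural number of the DVR is non-zero is a faithful algebra -/
theorem algebraMap_injective_of_natCast_ne_zero {𝒪 : Type*} [CommRing 𝒪] [IsDomain 𝒪]
    [IsDiscreteValuationRing 𝒪] {D : Type*} [CommRing D] [IsDomain D] [Algebra 𝒪 D] {p : ℕ}
    (hp𝒪 : (p : 𝒪) ∈ maximalIdeal 𝒪) (hpD : (p : D) ≠ 0) :
    Function.Injective (algebraMap 𝒪 D) := by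
  rw [injective_iff_map_eq_zero]
  intro a ha
  by_contra ha0
  -- `a = u ϖ^n`, so `ϖ^n ↦ 0`, so `ϖ ↦ 0`, so `p ↦ 0`
  obtain ⟨ϖ, hϖ⟩ := IsDiscreteValuationRing.exists_irreducible 𝒪
  obtain ⟨n, u, hu⟩ := IsDiscreteValuationRing.eq_unit_mul_pow_irreducible ha0 hϖ
  have h1 : algebraMap 𝒪 D (ϖ ^ n) = 0 := by
    have h2 : algebraMap 𝒪 D ((u : 𝒪) * ϖ ^ n) = 0 := by rw [← hu]; exact ha
    rw [map_mul] at h2
    rcases mul_eq_zero.1 h2 with h3 | h3
    · exact absurd h3 ((u.isUnit.map (algebraMap 𝒪 D)).ne_zero)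
    · exact h3
  have h4 : algebraMap 𝒪 D ϖ = 0 := by
    rw [map_pow] at h1
    by_contra h
    exact pow_ne_zero n h h1
  have h5 : (p : 𝒪) ∈ Ideal.span {ϖ} := hϖ.maximalIdeal_eq ▸ hp𝒪
  obtain ⟨c, hc⟩ := Ideal.mem_span_singleton'.1 h5
  apply hpD
  have h6 : (p : D) = algebraMap 𝒪 D (p : 𝒪) := (map_natCast _ _).symm
  rw [h6, ← hc, map_mul, h4, mul_zero]

/-! ### characteristic polynomials in rank two -/

/-- the characteristic polynomial of an operator of an adic representation -/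
theorem charpoly_eq_trace_det {R : Type} [CommRing R] [IsLocalRing R] (ρ : GaloisRepAdic R)
    (σ : GQ) : LinearMap.charpoly (ρ.ρ σ) =
      X ^ 2 - C (ρ.trace σ) * X + C (LinearMap.det (ρ.ρ σ)) := by
  let b : Module.Basis (Fin 2) R ρ.V := Module.finBasisOfFinrankEq R ρ.V ρ.finrank_eq
  have h1 : ρ.trace σ = (LinearMap.toMatrix b b (ρ.ρ σ)).trace :=
    LinearMap.trace_eq_matrix_trace R b (ρ.ρ σ)
  rw [← LinearMap.charpoly_toMatrix (ρ.ρ σ) b, Matrix.charpoly_fin_two,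
    ← LinearMap.det_toMatrix b, h1]

/-! ### the assembly -/

open Fermat.Agent.S43lib.B3 in
/-- **END-GLUE, the assembly half**: a point of the trace ring in a domain finite over `𝒪`, carrying a
character of the classical Hecke algebra, trace-unramified at `q`, gives the modularity at level `N / q`. -/
theorem modularRepOfLevel_of_point (P : FreyPackage) (N q : ℕ) [NeZero N]
    (hcond : P.IsConductorLevel N) (hpN : ¬ P.p ∣ N) (hq : q.Prime) (h5 : 5 ≤ q) (hqN : q ∣ N)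
    (hirr : GaloisRepIsIrreducible (K := Qb) ℚ P.freyCurve P.p)
    (W : WeierstrassCurve ℤ) (hW : W.IsIntegralModelOf P.freyCurve)
    (S : Finset ℕ) (hS : ∀ ℓ ∈ S, ℓ.Prime ∧ ℓ ∣ N * P.p) (hpS : P.p ∈ S)
    (hNS : ∀ ℓ : ℕ, ℓ.Prime → ℓ ∣ N → ℓ ∈ S)
    {𝒪 : Type} [CommRing 𝒪] [IsDomain 𝒪] [IsDiscreteValuationRing 𝒪]
    [IsAdicComplete (maximalIdeal 𝒪) 𝒪] [Finite (ResidueField 𝒪)] [CharZero 𝒪]
    (hp𝒪 : (P.p : 𝒪) ∈ maximalIdeal 𝒪)
    {R : Type} [CommRing R] [IsLocalRing R] (ρR : GaloisRepAdic R)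
    (hirrR : ρR.residual.IsAbsolutelyIrreducible) (hurR : ρR.residual.IsUnramifiedAt q)
    (hdetR : ∀ ℓ : ℕ, ℓ.Prime → ℓ ∉ S → ∀ A : ValuationSubring Qb, A.LiesOverPrime ℓ →
      ∀ σ : GQ, A.IsFrobeniusAt σ ℓ → LinearMap.det (ρR.ρ σ) = (ℓ : R))
    (hcongR : ∀ ℓ : ℕ, ℓ.Prime → ℓ ∉ S → W.IsGoodPrimeFor ℓ → ∀ A : ValuationSubring Qb,
      A.LiesOverPrime ℓ → ∀ σ : GQ, A.IsFrobeniusAt σ ℓ →
        ρR.trace σ - ((W.apOfModel ℓ : ℤ) : R) ∈ maximalIdeal R)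
    {D : Type} [CommRing D] [IsDomain D] [Algebra 𝒪 D] [Module.Finite 𝒪 D]
    (hpD : (P.p : D) ≠ 0) (x : R →+* D)
    (χ₀ : CuspForm.heckeAlgebra N 2 (↑S : Set ℕ) →+* D)
    (hχ₀ : ∀ (ℓ : ℕ) (hℓ : ℓ.Prime) (hℓN : ¬ ℓ ∣ N) (hℓS : ℓ ∉ (↑S : Set ℕ)),
      ∀ A : ValuationSubring Qb, A.LiesOverPrime ℓ → ∀ σ : GQ, A.IsFrobeniusAt σ ℓ →
        χ₀ (CuspForm.heckeAlgebra.T hℓ hℓN hℓS) = x (ρR.trace σ))
    (htr : ∀ h : GQ, x (ρR.trace (globGenAt ⟨q, hq⟩ P.p * h)) = x (ρR.trace h)) :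
    P.ModularRepOfLevel (N / q) := by
  have hp : P.p.Prime := P.pp
  haveI : Fact P.p.Prime := ⟨hp⟩
  have hqp : P.p ≠ q := fun h => hpN (h ▸ hqN)
  have hinj : Function.Injective (algebraMap 𝒪 D) :=
    algebraMap_injective_of_natCast_ne_zero hp𝒪 hpD
  -- the complete DVR
  obtain ⟨𝒪', i1, i2, i3, i4, i5, i6, ι, hι, hιm⟩ := exists_dvr_of_finite_domain hinj
  have hp𝒪' : (P.p : 𝒪') ∈ maximalIdeal 𝒪' := by
    have h1 := hιm (P.p : 𝒪) hp𝒪
    rwa [map_natCast, map_natCast] at h1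
  -- the point
  set y : R →+* 𝒪' := ι.comp x with hy
  have hyl : IsLocalHom y := isLocalHom_of_finite_residueField y
  have hym : ∀ r ∈ maximalIdeal R, y r ∈ maximalIdeal 𝒪' := fun r hr =>
    (mem_maximalIdeal _).2 fun hu => (mem_maximalIdeal _).1 hr (hyl.map_nonunit r hu)
  -- the good primes are outside `S`
  have hnotS : ∀ ℓ : ℕ, ℓ ∉ (↑S : Set ℕ) → ℓ ∉ S := fun ℓ h h' => h (Finset.mem_coe.2 h')
  refine endStmt P N q hcond hpN hq h5 hqN hirr W hW S hS hpS hNS 𝒪' hp𝒪' (ι.comp χ₀) ?_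
    (ρR.baseChangeAlong y hyl) ?_ (span_range_rho_baseChangeAlong y hyl ρR hirrR) ?_
  · -- the congruence
    intro ℓ hℓ hℓN hℓS hgood
    obtain ⟨A, hA⟩ := Fermat.Agent.S13lib.exists_liesOverPrime hℓ
    obtain ⟨φ, hφ⟩ : ∃ φ : GQ, A.IsFrobeniusAt φ ℓ := by
      obtain ⟨B, σ, hB, hσ⟩ := Fermat.Agent.Helper5.exists_isFrobeniusAt ℓ hℓ
      obtain ⟨g, hg⟩ := Fermat.Agent.S56lib.TWSel.exists_smul_eq_of_liesOverPrime hℓ hB hA
      refine ⟨g * σ * g⁻¹, ?_⟩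
      rw [hg]
      exact Fermat.Agent.S56lib.TWSel.isFrobeniusAt_conj hσ
    have h1 := hym _ (hcongR ℓ hℓ (hnotS ℓ hℓS) hgood A hA φ hφ)
    rw [map_sub, map_intCast] at h1
    rw [RingHom.comp_apply, hχ₀ ℓ hℓ hℓN hℓS A hA φ hφ]
    exact h1
  · -- the characteristic polynomials
    intro ℓ hℓ hℓN hℓS A hA σ hσ
    rw [charpoly_baseChangeAlong, charpoly_eq_trace_det, hdetR ℓ hℓ (hnotS ℓ hℓS) A hA σ hσ,
      RingHom.comp_apply, hχ₀ ℓ hℓ hℓN hℓS A hA σ hσ]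
    simp only [Polynomial.map_add, Polynomial.map_sub, Polynomial.map_mul, Polynomial.map_pow,
      Polynomial.map_X, Polynomial.map_C, map_natCast, hy, RingHom.comp_apply,
      Polynomial.map_natCast]
  · -- unramified at `q`
    have h1 := unram_baseChangeAlong_of_forall_trace P.p hp𝒪' y hyl ρR hirrR ⟨q, hq⟩ hqp hurR
      (fun h => by rw [hy, RingHom.comp_apply, RingHom.comp_apply, htr h])
    exact h1

/-! ### the form of `SideBase.readout` -/

/-- a quotient of a finite `Λ`-algebra by an ideal containing the kernel of an augmentation `Λ → 𝒪` is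
finite over `𝒪` -/
theorem finite_quotient_of_ker_le {𝒪 Λ T0 : Type} [CommRing 𝒪] [CommRing Λ] [Algebra 𝒪 Λ]
    [CommRing T0] [Algebra Λ T0] [Module.Finite Λ T0] (χB : Λ →ₐ[𝒪] 𝒪) (𝔭 : Ideal T0)
    (hle : (RingHom.ker (χB : Λ →+* 𝒪)).map (algebraMap Λ T0) ≤ 𝔭) :
    letI : Algebra 𝒪 (T0 ⧸ 𝔭) :=
      ((Ideal.Quotient.mk 𝔭).comp ((algebraMap Λ T0).comp (algebraMap 𝒪 Λ))).toAlgebra
    Module.Finite 𝒪 (T0 ⧸ 𝔭) := by
  classical
  letI : Algebra 𝒪 (T0 ⧸ 𝔭) :=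
    ((Ideal.Quotient.mk 𝔭).comp ((algebraMap Λ T0).comp (algebraMap 𝒪 Λ))).toAlgebra
  obtain ⟨s, hs⟩ := (Module.Finite.fg_top : (⊤ : Submodule Λ T0).FG)
  refine ⟨⟨s.image (Ideal.Quotient.mk 𝔭), ?_⟩⟩
  rw [eq_top_iff]
  rintro z -
  obtain ⟨t, rfl⟩ := Ideal.Quotient.mk_surjective z
  have ht : t ∈ Submodule.span Λ (s : Set T0) := hs ▸ Submodule.mem_top
  -- the key: `λ • t ≡ χB λ • t` modulo `𝔭`
  have key : ∀ (l : Λ) (u : T0), Ideal.Quotient.mk 𝔭 (l • u) =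
      (χB l : 𝒪) • Ideal.Quotient.mk 𝔭 u := by
    intro l u
    have h1 : l - algebraMap 𝒪 Λ (χB l) ∈ RingHom.ker (χB : Λ →+* 𝒪) := by
      rw [RingHom.mem_ker]
      show χB (l - algebraMap 𝒪 Λ (χB l)) = 0
      rw [map_sub, AlgHom.commutes, Algebra.algebraMap_self_apply, sub_self]
    have h2 : algebraMap Λ T0 (l - algebraMap 𝒪 Λ (χB l)) ∈ 𝔭 :=
      hle (Ideal.mem_map_of_mem _ h1)
    have h3 : Ideal.Quotient.mk 𝔭 (algebraMap Λ T0 l) =
        Ideal.Quotient.mk 𝔭 (algebraMap Λ T0 (algebraMap 𝒪 Λ (χB l))) := by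
      rw [Ideal.Quotient.eq, ← map_sub]
      exact h2
    rw [Algebra.smul_def, map_mul, h3, Algebra.smul_def]
    rfl
  refine Submodule.span_induction (p := fun t _ => Ideal.Quotient.mk 𝔭 t ∈
    Submodule.span 𝒪 ((s.image (Ideal.Quotient.mk 𝔭) : Finset (T0 ⧸ 𝔭)) : Set (T0 ⧸ 𝔭)))
    ?_ ?_ ?_ ?_ ht
  · intro u hu
    exact Submodule.subset_span (Finset.mem_coe.2 (Finset.mem_image_of_mem _ hu))
  · rw [_root_.map_zero]
    exact Submodule.zero_mem _
  · intro u w _ _ hu hw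
    rw [map_add]
    exact Submodule.add_mem _ hu hw
  · intro l u _ hu
    rw [key]
    exact Submodule.smul_mem _ _ hu

open Fermat.Agent.S43lib.B3 in
/-- **END-GLUE in the form of `SideBase.readout`**: a prime `𝔭` of the base Hecke algebra `𝕋_∅` (finite
over `Λ`) over the kernel of the augmentation `χB`, not containing `p`, at which the bridge `β₀` is
trace-unramified at `q`, carrying a character of the classical Hecke algebra. -/
theorem modularRepOfLevel_of_prime (P : FreyPackage) (N q : ℕ) [NeZero N]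
    (hcond : P.IsConductorLevel N) (hpN : ¬ P.p ∣ N) (hq : q.Prime) (h5 : 5 ≤ q) (hqN : q ∣ N)
    (hirr : GaloisRepIsIrreducible (K := Qb) ℚ P.freyCurve P.p)
    (W : WeierstrassCurve ℤ) (hW : W.IsIntegralModelOf P.freyCurve)
    (S : Finset ℕ) (hS : ∀ ℓ ∈ S, ℓ.Prime ∧ ℓ ∣ N * P.p) (hpS : P.p ∈ S)
    (hNS : ∀ ℓ : ℕ, ℓ.Prime → ℓ ∣ N → ℓ ∈ S)
    {𝒪 : Type} [CommRing 𝒪] [IsDomain 𝒪] [IsDiscreteValuationRing 𝒪]
    [IsAdicComplete (maximalIdeal 𝒪) 𝒪] [Finite (ResidueField 𝒪)] [CharZero 𝒪]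
    (hp𝒪 : (P.p : 𝒪) ∈ maximalIdeal 𝒪)
    {R : Type} [CommRing R] [IsLocalRing R] (ρR : GaloisRepAdic R)
    (hirrR : ρR.residual.IsAbsolutelyIrreducible) (hurR : ρR.residual.IsUnramifiedAt q)
    (hdetR : ∀ ℓ : ℕ, ℓ.Prime → ℓ ∉ S → ∀ A : ValuationSubring Qb, A.LiesOverPrime ℓ →
      ∀ σ : GQ, A.IsFrobeniusAt σ ℓ → LinearMap.det (ρR.ρ σ) = (ℓ : R))
    (hcongR : ∀ ℓ : ℕ, ℓ.Prime → ℓ ∉ S → W.IsGoodPrimeFor ℓ → ∀ A : ValuationSubring Qb,
      A.LiesOverPrime ℓ → ∀ σ : GQ, A.IsFrobeniusAt σ ℓ →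
        ρR.trace σ - ((W.apOfModel ℓ : ℤ) : R) ∈ maximalIdeal R)
    {Λ T0 : Type} [CommRing Λ] [Algebra 𝒪 Λ] [CommRing T0] [Algebra Λ T0] [Module.Finite Λ T0]
    (χB : Λ →ₐ[𝒪] 𝒪) (β₀ : R →+* T0) (𝔭 : Ideal T0) (h𝔭 : 𝔭.IsPrime)
    (hle : (RingHom.ker (χB : Λ →+* 𝒪)).map (algebraMap Λ T0) ≤ 𝔭)
    (hp𝔭 : ((P.p : ℕ) : T0) ∉ 𝔭)
    (v : Nat.Primes) (hv : (v : ℕ) = q)
    (htr : ∀ h : GQ, β₀ (ρR.trace (globGenAt v P.p * h)) - β₀ (ρR.trace h) ∈ 𝔭)
    (χ₀ : CuspForm.heckeAlgebra N 2 (↑S : Set ℕ) →+* T0 ⧸ 𝔭)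
    (hχ₀ : ∀ (ℓ : ℕ) (hℓ : ℓ.Prime) (hℓN : ¬ ℓ ∣ N) (hℓS : ℓ ∉ (↑S : Set ℕ)),
      ∀ A : ValuationSubring Qb, A.LiesOverPrime ℓ → ∀ σ : GQ, A.IsFrobeniusAt σ ℓ →
        χ₀ (CuspForm.heckeAlgebra.T hℓ hℓN hℓS) = Ideal.Quotient.mk 𝔭 (β₀ (ρR.trace σ))) :
    P.ModularRepOfLevel (N / q) := by
  letI : Algebra 𝒪 (T0 ⧸ 𝔭) :=
    ((Ideal.Quotient.mk 𝔭).comp ((algebraMap Λ T0).comp (algebraMap 𝒪 Λ))).toAlgebra
  haveI : Module.Finite 𝒪 (T0 ⧸ 𝔭) := finite_quotient_of_ker_le χB 𝔭 hle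
  haveI : IsDomain (T0 ⧸ 𝔭) := Ideal.Quotient.isDomain 𝔭
  have hpD : (P.p : T0 ⧸ 𝔭) ≠ 0 := by
    intro h
    apply hp𝔭
    rw [← Ideal.Quotient.eq_zero_iff_mem, map_natCast]
    exact h
  obtain ⟨v, hvp⟩ := v
  subst hv
  refine modularRepOfLevel_of_point P N v hcond hpN hq h5 hqN hirr W hW S hS hpS hNS hp𝒪 ρR
    hirrR hurR hdetR hcongR hpD ((Ideal.Quotient.mk 𝔭).comp β₀) χ₀ hχ₀ ?_
  intro h
  rw [RingHom.comp_apply, RingHom.comp_apply, Ideal.Quotient.eq]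
  exact htr h

end Fermat.Agent.S43lib.B0.EndBlock

end
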