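/-
S43lib / B0 / End / Seam  (helper6)  — Project H, END hub seam.

For helper7's base Hecke datum `abs0 p χ₀ t` (Hecke module `Mod0 = H¹(Γ₀(M₀), 𝒪[G₀])_𝔪`) and its Hecke
algebra `T0 = (abs0 p χ₀ t).hecke Set.univ`:

* `exists_character_of_prime` : a prime `𝔭` of `T0` with `p ∉ 𝔭` and `⟨g⟩ - 1 ∈ 𝔭` for all `g ∈ G₀`
  (a prime over the kernel of the augmentation) carries a character `χ' : 𝕋(M₀)^S → T0 ⧸ 𝔭` of the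
  classical Hecke algebra with `χ'(T_ℓ) = T_ℓ mod 𝔭`
  (helper3's `exists_eigenclass_of_point` + helper4's `exists_character_of_eigenclass_triv`);
* `readout_of_prime` : the `readout` field of `SideBase` for `T0`, from `modularRepOfLevel_of_prime`.
-/
import Fermat.Agent.S43lib.B0.End.Glue
import Fermat.Agent.S43lib.Mod4.HeckeInst
import Fermat.Agent.S43lib.B1.Point
import Fermat.Agent.S43lib.B3.EndHecke
import Fermat.Agent.S43lib.B3.DiamGact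

set_option autoImplicit false
set_option linter.unusedSectionVars false
set_option linter.style.haveILetI false

noncomputable section

namespace Fermat.Agent.S43lib.B0.EndBlock

open Polynomial IsLocalRing MvPolynomial
open Fermat.Agent.S43lib.B1 Fermat.Agent.S43lib.Loc Fermat.Agent.S43lib.Mod4.HO
open Fermat.Agent.S43lib.B3

local notation "Qb" => AlgebraicClosure ℚ
local notation "GQ" => (AlgebraicClosure ℚ ≃ₐ[ℚ] AlgebraicClosure ℚ)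

section Seam

variable {𝒪 : Type} [CommRing 𝒪] [IsLocalRing 𝒪]
  (p : ℕ) {M₀ : ℕ} [NeZero M₀] {G₀ : Type} [CommGroup G₀]
  (χ₀ : (ZMod M₀)ˣ →* G₀) (t : ℕ → ResidueField 𝒪)

/-- the polynomial ring in all the Hecke operators maps to `T0` -/
def polyToT0 : MvPolynomial (Idx p M₀) 𝒪 →ₐ[𝒪] T0 (𝒪 := 𝒪) p χ₀ t :=
  ((abs0 (𝒪 := 𝒪) p χ₀ t).heckeMk Set.univ).comp
    ((AbsHecke.symIncl (G := G₀) (Set.univ : Set (Idx p M₀))).comp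
      (MvPolynomial.rename (fun i : Idx p M₀ => (⟨i, Set.mem_univ i⟩ : ↥(Set.univ : Set (Idx p M₀))))))

theorem polyToT0_X (i : Idx p M₀) :
    polyToT0 (𝒪 := 𝒪) p χ₀ t (X i) = (abs0 (𝒪 := 𝒪) p χ₀ t).tX Set.univ i (Set.mem_univ i) := by
  unfold polyToT0
  rw [AlgHom.comp_apply, AlgHom.comp_apply, rename_X, AbsHecke.symIncl, rename_X]
  rfl

theorem polyToT0_smul (s : MvPolynomial (Idx p M₀) 𝒪) (m : Mod0 (𝒪 := 𝒪) p χ₀ t) :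
    polyToT0 (𝒪 := 𝒪) p χ₀ t s • m = s • m := by
  have h : (Subtype.val ∘ fun i : Idx p M₀ =>
      (⟨i, Set.mem_univ i⟩ : ↥(Set.univ : Set (Idx p M₀)))) = id := rfl
  have h1 := AbsHecke.heckeMk_smul (abs0 (𝒪 := 𝒪) p χ₀ t) Set.univ
    (AbsHecke.symIncl (G := G₀) (Set.univ : Set (Idx p M₀))
      (MvPolynomial.rename (fun i : Idx p M₀ =>
        (⟨i, Set.mem_univ i⟩ : ↥(Set.univ : Set (Idx p M₀)))) s)) m
  rw [AbsHecke.symEnd_incl, rename_rename, h, rename_id] at h1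
  exact h1

/-- a relation `∑_g P_g ⟨g⟩ = 0` on the Hecke module holds in `T0` -/
theorem sum_polyToT0_mul_tG_eq_zero [Fintype G₀] (P : G₀ → MvPolynomial (Idx p M₀) 𝒪)
    (hP : ∀ y : Mod0 (𝒪 := 𝒪) p χ₀ t, ∑ g, P g •
      (levelSys χ₀ (idx₀ p M₀)).Gact (RingHom.ker (evOf p M₀ (𝒪 := 𝒪) t)) g y = 0) :
    ∑ g, polyToT0 (𝒪 := 𝒪) p χ₀ t (P g) * (abs0 (𝒪 := 𝒪) p χ₀ t).tG Set.univ g = 0 := by
  apply (abs0 (𝒪 := 𝒪) p χ₀ t).hecke_ext Set.univ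
  intro m
  have h1 : ∀ g : G₀, (polyToT0 (𝒪 := 𝒪) p χ₀ t (P g) *
      (abs0 (𝒪 := 𝒪) p χ₀ t).tG Set.univ g) • m =
      P g • (levelSys χ₀ (idx₀ p M₀)).Gact (RingHom.ker (evOf p M₀ (𝒪 := 𝒪) t)) g m := by
    intro g
    have h2 := polyToT0_smul (𝒪 := 𝒪) p χ₀ t (P g)
      ((levelSys χ₀ (idx₀ p M₀)).Gact (RingHom.ker (evOf p M₀ (𝒪 := 𝒪) t)) g m)
    have h3 := AbsHecke.tG_smul (abs0 (𝒪 := 𝒪) p χ₀ t) Set.univ g m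
    rw [abs0_act] at h3
    rw [mul_smul, h3]
    exact h2
  rw [Finset.sum_smul, zero_smul]
  calc ∑ g, (polyToT0 (𝒪 := 𝒪) p χ₀ t (P g) * (abs0 (𝒪 := 𝒪) p χ₀ t).tG Set.univ g) • m
      = ∑ g, P g • (levelSys χ₀ (idx₀ p M₀)).Gact (RingHom.ker (evOf p M₀ (𝒪 := 𝒪) t)) g m :=
        Finset.sum_congr rfl fun g _ => h1 g
    _ = 0 := hP m

end Seam

section Char

variable {𝒪 : Type} [CommRing 𝒪] [IsDomain 𝒪] [IsDiscreteValuationRing 𝒪]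
  [IsAdicComplete (maximalIdeal 𝒪) 𝒪] [CharZero 𝒪]
  (p : ℕ) [hpf : Fact p.Prime] {M₀ : ℕ} [NeZero M₀] {G₀ : Type} [CommGroup G₀] [Fintype G₀]
  (χ₀ : (ZMod M₀)ˣ →* G₀) (t : ℕ → ResidueField 𝒪)

open CuspForm in
/-- **END hub seam, the Hecke half**: a prime of `T0` over the augmentation ideal, not containing `p`,
carries a character of the classical Hecke algebra of level `M₀`. -/
theorem exists_character_of_prime (hH : (abs0 (𝒪 := 𝒪) p χ₀ t).Good p)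
    (𝔭 : Ideal (T0 (𝒪 := 𝒪) p χ₀ t)) [h𝔭 : 𝔭.IsPrime]
    (hp𝔭 : ((p : ℕ) : T0 (𝒪 := 𝒪) p χ₀ t) ∉ 𝔭)
    (hG : ∀ g : G₀, (abs0 (𝒪 := 𝒪) p χ₀ t).tG Set.univ g - 1 ∈ 𝔭)
    (S : Set ℕ) (hS : ∀ q : ℕ, q.Prime → q ∣ M₀ → q ∈ S) (hpS : p ∈ S)
    {ℓ₀ : ℕ} (hℓ₀ : ℓ₀.Prime) (hℓ₀S : ℓ₀ ∉ S) (h1 : M₀ ∣ ℓ₀ - 1)
    (hne : t ℓ₀ ≠ ((1 + ℓ₀ : ℕ) : ResidueField 𝒪)) :
    ∃ χ' : ↥(heckeAlgebra M₀ 2 S) →+* (T0 (𝒪 := 𝒪) p χ₀ t ⧸ 𝔭),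
      ∀ (ℓ : ℕ) (hℓ : ℓ.Prime) (hℓM : ¬ ℓ ∣ M₀) (hℓS : ℓ ∉ S) (hℓp : ℓ ≠ p),
        χ' (heckeAlgebra.T hℓ hℓM hℓS) = Ideal.Quotient.mk 𝔭
          ((abs0 (𝒪 := 𝒪) p χ₀ t).tX Set.univ (Sum.inl ⟨ℓ, hℓ, hℓM, hℓp⟩) (Set.mem_univ _)) := by
  classical
  have hp : p.Prime := hpf.out
  set H := abs0 (𝒪 := 𝒪) p χ₀ t with hHdef
  set D := T0 (𝒪 := 𝒪) p χ₀ t ⧸ 𝔭 with hD
  haveI : IsDomain D := Ideal.Quotient.isDomain 𝔭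
  haveI : Module.Finite 𝒪 (T0 (𝒪 := 𝒪) p χ₀ t) := H.finite_hecke Set.univ hH
  haveI : Module.Finite 𝒪 D :=
    Module.Finite.of_surjective (Ideal.Quotient.mkₐ 𝒪 𝔭).toLinearMap
      (Ideal.Quotient.mkₐ_surjective 𝒪 𝔭)
  have hpD : ((p : ℕ) : D) ≠ 0 := by
    intro h
    apply hp𝔭
    rw [← Ideal.Quotient.eq_zero_iff_mem, map_natCast]
    exact h
  have hinj : Function.Injective (algebraMap 𝒪 D) :=
    algebraMap_injective_of_natCast_ne_zero hH.hp𝒪 hpD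
  haveI : FaithfulSMul 𝒪 D := (faithfulSMul_iff_algebraMap_injective 𝒪 D).2 hinj
  haveI : Module.IsTorsionFree 𝒪 D := inferInstance
  haveI : Module.Free 𝒪 D := Module.free_of_finite_type_torsion_free'
  haveI : CharZero D := charZero_of_injective_algebraMap hinj
  -- the values
  set a : Idx p M₀ → D := fun i => Ideal.Quotient.mk 𝔭 (H.tX Set.univ i (Set.mem_univ i)) with ha
  have hcard : (Fintype.card G₀ : D) ≠ 0 := by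
    obtain ⟨n, hn⟩ := (IsPGroup.iff_card.1 hH.hG)
    rw [Nat.card_eq_fintype_card] at hn
    rw [hn, Nat.cast_pow]
    exact pow_ne_zero _ hpD
  have hmk : ∀ s : MvPolynomial (Idx p M₀) 𝒪,
      Ideal.Quotient.mk 𝔭 (polyToT0 (𝒪 := 𝒪) p χ₀ t s) = MvPolynomial.aeval a s := by
    intro s
    have h2 : ((Ideal.Quotient.mkₐ 𝒪 𝔭).comp (polyToT0 (𝒪 := 𝒪) p χ₀ t)) =
        MvPolynomial.aeval a := by
      apply MvPolynomial.algHom_ext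
      intro i
      rw [AlgHom.comp_apply, polyToT0_X, MvPolynomial.aeval_X]
      rfl
    exact congrArg (fun f : MvPolynomial (Idx p M₀) 𝒪 →ₐ[𝒪] D => f s) h2
  have hx : ∀ P : G₀ → MvPolynomial (Idx p M₀) 𝒪,
      (∀ g, P g ∈ MvPolynomial.supported 𝒪 (Set.univ : Set (Idx p M₀))) →
      (∀ y : (levelSys χ₀ (idx₀ p M₀)).F 𝒪 (Reg G₀ 𝒪) (RingHom.ker (evOf p M₀ (𝒪 := 𝒪) t)),
        ∑ g, P g • (levelSys χ₀ (idx₀ p M₀)).Gact (RingHom.ker (evOf p M₀ (𝒪 := 𝒪) t)) g y = 0) →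
      ∑ g, MvPolynomial.aeval a (P g) * (((1 : G₀ →* Dˣ) g : Dˣ) : D) = 0 := by
    intro P _ hP
    have h2 := sum_polyToT0_mul_tG_eq_zero (𝒪 := 𝒪) p χ₀ t P hP
    have h3 := congrArg (Ideal.Quotient.mk 𝔭) h2
    rw [map_sum, map_zero] at h3
    rw [← h3]
    refine Finset.sum_congr rfl fun g _ => ?_
    rw [map_mul, hmk]
    have h4 : Ideal.Quotient.mk 𝔭 (H.tG Set.univ g) = 1 := by
      rw [← map_one (Ideal.Quotient.mk 𝔭), Ideal.Quotient.eq]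
      exact hG g
    rw [h4]
    rfl
  obtain ⟨c, hc0, hceig⟩ := exists_eigenclass_of_point (K' := FractionRing D) χ₀ (idx₀ p M₀)
    (RingHom.ker (evOf p M₀ (𝒪 := 𝒪) t)) hcard Set.univ a (1 : G₀ →* Dˣ) hx
  -- the module of coefficients
  haveI : CharZero (FractionRing D) :=
    charZero_of_injective_algebraMap (IsFractionRing.injective D (FractionRing D))
  haveI : IsAddTorsionFree (ChMod ((Units.map (algebraMap D (FractionRing D) :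
      D →* FractionRing D)).comp (1 : G₀ →* Dˣ))) :=
    inferInstanceAs (IsAddTorsionFree (FractionRing D))
  have htriv : ∀ (g : G₀) (w : ChMod ((Units.map (algebraMap D (FractionRing D) :
      D →* FractionRing D)).comp (1 : G₀ →* Dˣ))), g • w = w := by
    intro g w
    rw [ChMod.smul_def]
    have h2 : ((Units.map (algebraMap D (FractionRing D) :
      D →* FractionRing D)).comp (1 : G₀ →* Dˣ)) g = 1 := by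
      rw [MonoidHom.comp_apply, MonoidHom.one_apply, map_one]
    rw [h2, Units.val_one, one_mul, ChMod.mk_out]
  -- the eigenvalues as a function of the prime
  set tt : ℕ → D := fun ℓ =>
    if h : ℓ.Prime ∧ ¬ ℓ ∣ M₀ ∧ ℓ ≠ p then a (Sum.inl ⟨ℓ, h⟩) else 0 with htt
  have hxt : ∀ (ℓ : ℕ) [Fact ℓ.Prime] (hℓ : ¬ ℓ ∣ M₀), ℓ ∉ S →
      B1.heckeH (FractionRing D) (ChMod ((Units.map (algebraMap D (FractionRing D) :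
        D →* FractionRing D)).comp (1 : G₀ →* Dˣ)))
        (B1.isEquivariant_levelPi χ₀ (B1.nData_equivariant hℓ)) c =
        algebraMap D (FractionRing D) (tt ℓ) • c := by
    intro ℓ hℓf hℓ hℓS
    have hℓp : ℓ ≠ p := fun h => hℓS (h ▸ hpS)
    have h2 : ℓ.Prime ∧ ¬ ℓ ∣ M₀ ∧ ℓ ≠ p := ⟨hℓf.out, hℓ, hℓp⟩
    have h3 : tt ℓ = a (Sum.inl ⟨ℓ, h2⟩) := by rw [htt]; exact dif_pos h2
    rw [h3, ← hceig (Sum.inl ⟨ℓ, h2⟩) (Set.mem_univ _)]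
    exact (levelSys_T_of_eq_inl χ₀ (ChMod ((Units.map (algebraMap D (FractionRing D) :
      D →* FractionRing D)).comp (1 : G₀ →* Dˣ))) (idx₀ p M₀) (Sum.inl ⟨ℓ, h2⟩) hℓ rfl c).symm
  -- non-Eisenstein
  have hℓ₀M : ¬ ℓ₀ ∣ M₀ := fun h => hℓ₀S (hS ℓ₀ hℓ₀ h)
  have hℓ₀p : ℓ₀ ≠ p := fun h => hℓ₀S (h ▸ hpS)
  have hne' : tt ℓ₀ ≠ 1 + (ℓ₀ : D) := by
    have h2 : ℓ₀.Prime ∧ ¬ ℓ₀ ∣ M₀ ∧ ℓ₀ ≠ p := ⟨hℓ₀, hℓ₀M, hℓ₀p⟩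
    have h3 : tt ℓ₀ = a (Sum.inl ⟨ℓ₀, h2⟩) := by rw [htt]; exact dif_pos h2
    rw [h3]
    intro h4
    -- the element `X_{ℓ₀} - (1 + ℓ₀)` is a unit of `T0`
    set s : AbsHecke.Sym 𝒪 G₀ (Set.univ : Set (Idx p M₀)) :=
      MvPolynomial.X (Sum.inl ⟨Sum.inl ⟨ℓ₀, h2⟩, Set.mem_univ _⟩) -
        MvPolynomial.C ((1 + ℓ₀ : ℕ) : 𝒪) with hs
    have hs1 : s ∉ H.mSym Set.univ := by
      rw [AbsHecke.mem_mSym, hs, map_sub, AbsHecke.evSym_X_inl, AbsHecke.evSym_C, sub_eq_zero]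
      have h5 : H.ev (MvPolynomial.X (Sum.inl ⟨ℓ₀, h2⟩)) = t ℓ₀ := evOf_X_inl p M₀ t ⟨ℓ₀, h2⟩
      rw [h5, map_natCast]
      exact hne
    have hu : IsUnit (H.heckeMk Set.univ s) := H.isUnit_heckeMk Set.univ hH hs1
    have h6 : H.heckeMk Set.univ s ∈ 𝔭 := by
      rw [hs, map_sub, ← Ideal.Quotient.eq]
      have h7 : H.heckeMk Set.univ (MvPolynomial.C ((1 + ℓ₀ : ℕ) : 𝒪)) =
          ((1 + ℓ₀ : ℕ) : T0 (𝒪 := 𝒪) p χ₀ t) := by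
        rw [map_natCast MvPolynomial.C, map_natCast]
      rw [h7, map_natCast]
      have h8 : Ideal.Quotient.mk 𝔭 (H.heckeMk Set.univ
          (MvPolynomial.X (Sum.inl ⟨Sum.inl ⟨ℓ₀, h2⟩, Set.mem_univ _⟩))) =
          a (Sum.inl ⟨ℓ₀, h2⟩) := rfl
      rw [h8, h4]
      push_cast
      rfl
    exact h𝔭.ne_top (Ideal.eq_top_of_isUnit_mem _ h6 hu)
  obtain ⟨χ', hχ'⟩ := exists_character_of_eigenclass_triv (S := S) χ₀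
    (ChMod ((Units.map (algebraMap D (FractionRing D) :
      D →* FractionRing D)).comp (1 : G₀ →* Dˣ)))
    (IsFractionRing.injective D (FractionRing D)) hS htriv c hc0 tt hxt hℓ₀ hℓ₀S h1 hne'
  refine ⟨χ', fun ℓ hℓ hℓM hℓS hℓp => ?_⟩
  rw [hχ' ℓ hℓ hℓM hℓS]
  have h2 : ℓ.Prime ∧ ¬ ℓ ∣ M₀ ∧ ℓ ≠ p := ⟨hℓ, hℓM, hℓp⟩
  show tt ℓ = a (Sum.inl ⟨ℓ, h2⟩)
  rw [htt]
  exact dif_pos h2

end Char

section Readout

open WeierstrassCurve WeierstrassCurve.Affine WeierstrassCurve.Affine.Point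

/-- **the `readout` of `SideBase` for the Hecke algebra `T0`** : a prime `𝔭` of `T0` over the augmentation
ideal (`⟨g⟩ - 1 ∈ 𝔭`), not containing `p`, at which the bridge `β₀` (with `β₀ (tr ρ_R (Frob_ℓ)) ≡ T_ℓ`
modulo `𝔭`) is trace-unramified at `q`, gives the modularity of `ρ̄` at the level `N / q`. -/
theorem modularRepOfLevel_of_prime_T0 (P : FreyPackage) (N q : ℕ) [NeZero N]
    (hcond : P.IsConductorLevel N) (hpN : ¬ P.p ∣ N) (hq : q.Prime) (h5 : 5 ≤ q) (hqN : q ∣ N)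
    (hirr : GaloisRepIsIrreducible (K := Qb) ℚ P.freyCurve P.p)
    (W : WeierstrassCurve ℤ) (hW : W.IsIntegralModelOf P.freyCurve)
    (S : Finset ℕ) (hS : ∀ ℓ ∈ S, ℓ.Prime ∧ ℓ ∣ N * P.p) (hpS : P.p ∈ S)
    (hNS : ∀ ℓ : ℕ, ℓ.Prime → ℓ ∣ N → ℓ ∈ S)
    {𝒪 : Type} [CommRing 𝒪] [IsDomain 𝒪] [IsDiscreteValuationRing 𝒪]
    [IsAdicComplete (maximalIdeal 𝒪) 𝒪] [Finite (ResidueField 𝒪)] [CharZero 𝒪]
    {R : Type} [CommRing R] [IsLocalRing R] (ρR : GaloisRepAdic R)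
    (hirrR : ρR.residual.IsAbsolutelyIrreducible) (hurR : ρR.residual.IsUnramifiedAt q)
    (hdetR : ∀ ℓ : ℕ, ℓ.Prime → ℓ ∉ S → ∀ A : ValuationSubring Qb, A.LiesOverPrime ℓ →
      ∀ σ : GQ, A.IsFrobeniusAt σ ℓ → LinearMap.det (ρR.ρ σ) = (ℓ : R))
    (hcongR : ∀ ℓ : ℕ, ℓ.Prime → ℓ ∉ S → W.IsGoodPrimeFor ℓ → ∀ A : ValuationSubring Qb,
      A.LiesOverPrime ℓ → ∀ σ : GQ, A.IsFrobeniusAt σ ℓ →
        ρR.trace σ - ((W.apOfModel ℓ : ℤ) : R) ∈ maximalIdeal R)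
    {M₀ : ℕ} [NeZero M₀] (hM : N = M₀)
    {G₀ : Type} [CommGroup G₀] [Fintype G₀] (χ₀ : (ZMod M₀)ˣ →* G₀) (t : ℕ → ResidueField 𝒪)
    (hH : (abs0 (𝒪 := 𝒪) P.p χ₀ t).Good P.p)
    (β₀ : R →+* T0 (𝒪 := 𝒪) P.p χ₀ t) (𝔭 : Ideal (T0 (𝒪 := 𝒪) P.p χ₀ t)) (h𝔭 : 𝔭.IsPrime)
    (hp𝔭 : ((P.p : ℕ) : T0 (𝒪 := 𝒪) P.p χ₀ t) ∉ 𝔭)
    (hG : ∀ g : G₀, (abs0 (𝒪 := 𝒪) P.p χ₀ t).tG Set.univ g - 1 ∈ 𝔭)
    (hβ₀ : ∀ (ℓ : ℕ) (hℓ : ℓ.Prime) (hℓM : ¬ ℓ ∣ M₀) (hℓp : ℓ ≠ P.p), ℓ ∉ S →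
      ∀ A : ValuationSubring Qb, A.LiesOverPrime ℓ → ∀ σ : GQ, A.IsFrobeniusAt σ ℓ →
        β₀ (ρR.trace σ) - (abs0 (𝒪 := 𝒪) P.p χ₀ t).tX Set.univ (Sum.inl ⟨ℓ, hℓ, hℓM, hℓp⟩)
          (Set.mem_univ _) ∈ 𝔭)
    {ℓ₀ : ℕ} (hℓ₀ : ℓ₀.Prime) (hℓ₀S : ℓ₀ ∉ S) (h1 : M₀ ∣ ℓ₀ - 1)
    (hne : t ℓ₀ ≠ ((1 + ℓ₀ : ℕ) : ResidueField 𝒪))
    (v : Nat.Primes) (hv : (v : ℕ) = q)
    (htr : ∀ h : GQ, β₀ (ρR.trace (globGenAt v P.p * h)) - β₀ (ρR.trace h) ∈ 𝔭) :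
    P.ModularRepOfLevel (N / q) := by
  subst hM
  haveI : Fact P.p.Prime := ⟨P.pp⟩
  haveI := h𝔭
  have hp𝒪 : (P.p : 𝒪) ∈ maximalIdeal 𝒪 := hH.hp𝒪
  obtain ⟨χ', hχ'⟩ := exists_character_of_prime (𝒪 := 𝒪) P.p χ₀ t hH 𝔭 hp𝔭 hG (↑S : Set ℕ)
    (fun ℓ hℓ hd => Finset.mem_coe.2 (hNS ℓ hℓ hd)) (Finset.mem_coe.2 hpS) hℓ₀
    (fun h => hℓ₀S (Finset.mem_coe.1 h)) h1 hne
  haveI : IsDomain (T0 (𝒪 := 𝒪) P.p χ₀ t ⧸ 𝔭) := Ideal.Quotient.isDomain 𝔭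
  haveI : Module.Finite 𝒪 (T0 (𝒪 := 𝒪) P.p χ₀ t) :=
    (abs0 (𝒪 := 𝒪) P.p χ₀ t).finite_hecke Set.univ hH
  haveI : Module.Finite 𝒪 (T0 (𝒪 := 𝒪) P.p χ₀ t ⧸ 𝔭) :=
    Module.Finite.of_surjective (Ideal.Quotient.mkₐ 𝒪 𝔭).toLinearMap
      (Ideal.Quotient.mkₐ_surjective 𝒪 𝔭)
  have hpD : ((P.p : ℕ) : T0 (𝒪 := 𝒪) P.p χ₀ t ⧸ 𝔭) ≠ 0 := by
    intro h
    apply hp𝔭
    rw [← Ideal.Quotient.eq_zero_iff_mem, map_natCast]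
    exact h
  obtain ⟨v, hvp⟩ := v
  subst hv
  refine modularRepOfLevel_of_point P N v hcond hpN hq h5 hqN hirr W hW S hS hpS hNS hp𝒪 ρR
    hirrR hurR hdetR hcongR hpD ((Ideal.Quotient.mk 𝔭).comp β₀) χ' ?_ ?_
  · intro ℓ hℓ hℓN hℓS A hA σ hσ
    have hℓp : ℓ ≠ P.p := fun h => hℓS (h ▸ Finset.mem_coe.2 hpS)
    rw [hχ' ℓ hℓ hℓN hℓS hℓp, RingHom.comp_apply, eq_comm, Ideal.Quotient.eq]
    exact hβ₀ ℓ hℓ hℓN hℓp (fun h => hℓS (Finset.mem_coe.2 h)) A hA σ hσ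
  · intro h
    rw [RingHom.comp_apply, RingHom.comp_apply, Ideal.Quotient.eq]
    exact htr h

end Readout

end Fermat.Agent.S43lib.B0.EndBlock

end
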